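/-
PROJECT P (S44), brick Loc/BreakAbs (helper13), Mathlib only: THE ABSTRACT HALF OF THE WILD FRAME.

`A` a valuation subring of a field `L`, `v = A.valuation`, `σ` a ring automorphism of `L`
preserving `v`, `K'` a subfield stable under `σ` on which `v` is discrete with uniformiser `ϖ`
(`hunif`), whose residue classes are represented by `σ`-fixed elements (`hres`: in the instance
the elements of the small DVR `W A`), and `σ ϖ ≠ ϖ`, `σ ϖ / ϖ ≡ 1` (`hwild`).  Then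

* `exists_break` : there are `s ≥ 1` and `α ∈ K'` with `v α = 1` and `σ ϖ = ϖ (1 + α ϖ ^ s)`, and
  `σ = id` on `(A ∩ K') / ϖ ^ (s+1)`  (no Eisenstein basis: `(s+1)`-step peeling `b = b₀ + ϖ b'`);
* `wild_of_iterate` : `hwild` holds as soon as `σ` is in the inertia group, the residue
  characteristic is `p` and `σ ^ p` fixes `ϖ`;
* `valuation_apply_eq_of_iterate` : `σ A = A` and a finite `σ`-orbit give `v (σ x) = v x`;
* `one_add_zpow` : `(1 + x) ^ j = 1 + j x + x ^ 2 a` for `x` in the maximal ideal, `j : ℤ`;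
* `displace` : `σ c = c (1 + j α ϖ ^ s + ϖ ^ (s+1) a)` for `c = ϖ ^ j β` (helper6's (R2) on constants);
* `zpow_unique` : the exponent `j` of `c = ϖ ^ j β` is unique.

A unit of `A` is written `v b = 1` (the pair `b ∈ A ∧ b⁻¹ ∈ A` also holds for `b = 0`).
-/
import Mathlib

set_option autoImplicit false

namespace Fermat.Agent.S44.Loc.BreakAbs

variable {L : Type*} [Field L] (A : ValuationSubring L)

/-! ### Small valuation facts -/

theorem mem_of_valuation_eq_one {b : L} (hb : A.valuation b = 1) : b ∈ A :=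
  (A.valuation_le_one_iff b).mp hb.le

theorem inv_mem_of_valuation_eq_one {b : L} (hb : A.valuation b = 1) : b⁻¹ ∈ A := by
  rw [← A.valuation_le_one_iff, map_inv₀, hb, inv_one]

theorem ne_zero_of_valuation_eq_one {b : L} (hb : A.valuation b = 1) : b ≠ 0 := by
  rintro rfl
  rw [map_zero] at hb
  exact zero_ne_one hb

theorem valuation_eq_one_of_mem {b : L} (h0 : b ≠ 0) (hb : b ∈ A) (hb' : b⁻¹ ∈ A) :
    A.valuation b = 1 := by
  have h1 : A.valuation b ≤ 1 := (A.valuation_le_one_iff b).mpr hb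
  have h2 : A.valuation b⁻¹ ≤ 1 := (A.valuation_le_one_iff _).mpr hb'
  rw [map_inv₀] at h2
  have hpos : 0 < A.valuation b := zero_lt_iff.mpr ((A.valuation.ne_zero_iff).mpr h0)
  refine le_antisymm h1 ?_
  by_contra hlt
  exact absurd h2 (not_le.mpr ((one_lt_inv₀ hpos).mpr (not_le.mp hlt)))

theorem valuation_pos {b : L} (h0 : b ≠ 0) : 0 < A.valuation b :=
  zero_lt_iff.mpr ((A.valuation.ne_zero_iff).mpr h0)

theorem nonunits_mul_mem {x y : L} (hx : x ∈ A.nonunits) (hy : y ∈ A) : x * y ∈ A.nonunits := by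
  rw [A.mem_nonunits_iff, map_mul]
  calc A.valuation x * A.valuation y ≤ A.valuation x * 1 :=
        mul_le_mul_right ((A.valuation_le_one_iff y).mpr hy) _
    _ = A.valuation x := mul_one _
    _ < 1 := (A.mem_nonunits_iff).mp hx

theorem mem_mul_nonunits {x y : L} (hx : x ∈ A) (hy : y ∈ A.nonunits) : x * y ∈ A.nonunits := by
  rw [mul_comm]; exact nonunits_mul_mem A hy hx

/-- The exponent of a uniformiser is unique. -/
theorem zpow_unique {ϖ : L} (hϖ0 : ϖ ≠ 0) (hϖ : ϖ ∈ A.nonunits) {j j' : ℤ} {β β' : L}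
    (hβ : A.valuation β = 1) (hβ' : A.valuation β' = 1) (h : ϖ ^ j * β = ϖ ^ j' * β') : j = j' := by
  have hv := congrArg A.valuation h
  rw [map_mul, map_mul, hβ, hβ', mul_one, mul_one, map_zpow₀, map_zpow₀] at hv
  have hlt : A.valuation ϖ < 1 := (A.mem_nonunits_iff).mp hϖ
  have hpos : 0 < A.valuation ϖ := valuation_pos A hϖ0
  exact zpow_right_injective₀ hpos hlt.ne hv

/-- A nonunit `ϖ ^ j β` (with `β` a unit) has `j ≥ 1`. -/
theorem one_le_of_nonunit {ϖ : L} (hϖ0 : ϖ ≠ 0) (hϖ : ϖ ∈ A.nonunits) {j : ℤ} {β : L}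
    (hβ : A.valuation β = 1) (h : ϖ ^ j * β ∈ A.nonunits) : 1 ≤ j := by
  rw [A.mem_nonunits_iff, map_mul, hβ, mul_one, map_zpow₀] at h
  have hlt : A.valuation ϖ < 1 := (A.mem_nonunits_iff).mp hϖ
  have hpos : 0 < A.valuation ϖ := valuation_pos A hϖ0
  by_contra hj
  have hj' : j ≤ 0 := by omega
  have : 1 ≤ A.valuation ϖ ^ j := by
    obtain ⟨n, rfl⟩ : ∃ n : ℕ, j = -(n : ℤ) := ⟨(-j).toNat, by omega⟩
    rw [zpow_neg, zpow_natCast]
    exact (one_le_inv₀ (pow_pos hpos n)).mpr (pow_le_one₀ hpos.le hlt.le)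
  exact absurd h (not_lt.mpr this)

/-- An element of `A` of the form `ϖ ^ j β` (with `β` a unit) has `j ≥ 0`. -/
theorem nonneg_of_mem {ϖ : L} (hϖ0 : ϖ ≠ 0) (hϖ : ϖ ∈ A.nonunits) {j : ℤ} {β : L}
    (hβ : A.valuation β = 1) (h : ϖ ^ j * β ∈ A) : 0 ≤ j := by
  rw [← A.valuation_le_one_iff, map_mul, hβ, mul_one, map_zpow₀] at h
  have hlt : A.valuation ϖ < 1 := (A.mem_nonunits_iff).mp hϖ
  have hpos : 0 < A.valuation ϖ := valuation_pos A hϖ0
  by_contra hj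
  obtain ⟨n, rfl⟩ : ∃ n : ℕ, j = -((n : ℤ) + 1) := ⟨(-j - 1).toNat, by omega⟩
  rw [zpow_neg, show ((n : ℤ) + 1) = ((n + 1 : ℕ) : ℤ) by push_cast; ring, zpow_natCast] at h
  have : 1 < (A.valuation ϖ ^ (n + 1))⁻¹ :=
    (one_lt_inv₀ (pow_pos hpos _)).mpr (pow_lt_one₀ hpos.le hlt (by omega))
  exact absurd h (not_le.mpr this)

/-! ### `σ` preserves the valuation -/

/-- If `σ A = A` and `x` has a finite `σ`-orbit then `v (σ x) = v x`. -/
theorem valuation_apply_eq_of_iterate (σ : L ≃+* L) (hσA : ∀ a, σ a ∈ A ↔ a ∈ A) {x : L} {n : ℕ}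
    (hn : 0 < n) (hx : σ^[n] x = x) : A.valuation (σ x) = A.valuation x := by
  by_cases h0 : x = 0
  · subst h0; simp
  have hσ0 : ∀ y : L, y ≠ 0 → σ y ≠ 0 := fun y hy => by
    rwa [Ne, map_eq_zero_iff σ σ.injective]
  -- the unit-or-not trichotomy of `σ x / x` propagates along the orbit
  have hiter0 : ∀ m : ℕ, σ^[m] x ≠ 0 := by
    intro m
    induction m with
    | zero => simpa using h0
    | succ m ih => rw [Function.iterate_succ_apply']; exact hσ0 _ ih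
  -- key: `σ y / y ∈ A ↔ σ (σ y) / σ y ∈ A`
  have hstep : ∀ y : L, (σ y / y ∈ A ↔ σ (σ y) / σ y ∈ A) := by
    intro y
    rw [← map_div₀ σ (σ y) y]
    exact (hσA _).symm
  have hstep' : ∀ y : L, (y / σ y ∈ A ↔ σ y / σ (σ y) ∈ A) := by
    intro y
    rw [← map_div₀ σ y (σ y)]
    exact (hσA _).symm
  -- if `σ x / x ∈ A` then `σ^[m] x / x ∈ A` for all `m`, with product structure
  have hle : ∀ (y : L), y ≠ 0 → σ y / y ∈ A → ∀ m : ℕ, σ^[m+1] y / σ^[m] y ∈ A := by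
    intro y _ hy m
    induction m with
    | zero => simpa using hy
    | succ m ih =>
      rw [Function.iterate_succ_apply' σ (m + 1) y, Function.iterate_succ_apply' σ m y]
      rw [Function.iterate_succ_apply' σ m y] at ih
      exact (hstep _).mp ih
  have hge : ∀ (y : L), y ≠ 0 → y / σ y ∈ A → ∀ m : ℕ, σ^[m] y / σ^[m+1] y ∈ A := by
    intro y _ hy m
    induction m with
    | zero => simpa using hy
    | succ m ih =>
      rw [Function.iterate_succ_apply' σ (m + 1) y, Function.iterate_succ_apply' σ m y]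
      rw [Function.iterate_succ_apply' σ m y] at ih
      exact (hstep' _).mp ih
  -- valuations along the orbit are monotone, hence constant since the orbit closes up
  rcases A.mem_or_inv_mem (σ x / x) with h | h
  · -- `v (σ^[m+1] x) ≤ v (σ^[m] x)` for all `m`; so `v x = v (σ^[n] x) ≤ v (σ x) ≤ v x`
    have hmono : ∀ m : ℕ, A.valuation (σ^[m+1] x) ≤ A.valuation (σ^[m] x) := by
      intro m
      have := (A.valuation_le_one_iff _).mpr (hle x h0 h m)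
      rw [map_div₀] at this
      exact (div_le_one₀ (valuation_pos A (hiter0 m))).mp this
    have hanti : ∀ m : ℕ, 1 ≤ m → A.valuation (σ^[m] x) ≤ A.valuation (σ x) := by
      intro m hm
      induction m with
      | zero => omega
      | succ m ih =>
        rcases Nat.eq_zero_or_pos m with rfl | hm'
        · simp
        · exact (hmono m).trans (ih hm')
    have h1 : A.valuation x ≤ A.valuation (σ x) := by
      have := hanti n hn
      rwa [hx] at this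
    have h2 : A.valuation (σ x) ≤ A.valuation x := by simpa using hmono 0
    exact le_antisymm h2 h1
  · have h' : x / σ x ∈ A := by rwa [inv_div] at h
    have hmono : ∀ m : ℕ, A.valuation (σ^[m] x) ≤ A.valuation (σ^[m+1] x) := by
      intro m
      have := (A.valuation_le_one_iff _).mpr (hge x h0 h' m)
      rw [map_div₀] at this
      exact (div_le_one₀ (valuation_pos A (hiter0 (m + 1)))).mp this
    have hanti : ∀ m : ℕ, 1 ≤ m → A.valuation (σ x) ≤ A.valuation (σ^[m] x) := by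
      intro m hm
      induction m with
      | zero => omega
      | succ m ih =>
        rcases Nat.eq_zero_or_pos m with rfl | hm'
        · simp
        · exact (ih hm').trans (hmono m)
    have h1 : A.valuation (σ x) ≤ A.valuation x := by
      have := hanti n hn
      rwa [hx] at this
    have h2 : A.valuation x ≤ A.valuation (σ x) := by simpa using hmono 0
    exact le_antisymm h1 h2

/-! ### Binomial expansion of a one-unit to first order -/

/-- `(1 + x) ^ j = 1 + j x + x ^ 2 a` with `a ∈ A`, for `x` in the maximal ideal and `j : ℤ`. -/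
theorem one_add_zpow {x : L} (hx : x ∈ A.nonunits) (j : ℤ) :
    ∃ a ∈ A, (1 + x) ^ j = 1 + (j : L) * x + x ^ 2 * a := by
  have hxA : x ∈ A := A.nonunits_le hx
  have h1x : A.valuation (1 + x) = 1 :=
    A.valuation.map_one_add_of_lt ((A.mem_nonunits_iff).mp hx)
  have h1x0 : (1 + x) ≠ 0 := ne_zero_of_valuation_eq_one A h1x
  have hinvA : (1 + x)⁻¹ ∈ A := inv_mem_of_valuation_eq_one A h1x
  induction j using Int.induction_on with
  | zero => exact ⟨(0 : L), A.zero_mem, by simp⟩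
  | succ n ih =>
    obtain ⟨a, ha, h⟩ := ih
    refine ⟨a + (n : L) + x * a, A.add_mem _ _ (A.add_mem _ _ ha (natCast_mem A n))
      (A.mul_mem _ _ hxA ha), ?_⟩
    rw [zpow_add_one₀ h1x0, h]
    push_cast
    ring
  | pred n ih =>
    obtain ⟨a, ha, h⟩ := ih
    have hinv : (1 + x)⁻¹ = 1 - x + x ^ 2 * (1 + x)⁻¹ := by
      field_simp
      ring
    have hn : (n : L) ∈ A := natCast_mem A n
    rw [zpow_sub_one₀ h1x0, h]
    generalize (1 + x)⁻¹ = y at hinv hinvA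
    refine ⟨y + (n : L) - (n : L) * x * y + a - x * a + x ^ 2 * a * y, ?_, ?_⟩
    · have hx2 : x ^ 2 ∈ A := A.pow_mem hxA 2
      exact A.add_mem _ _ (sub_mem (A.add_mem _ _ (sub_mem (A.add_mem _ _ hinvA hn)
        (A.mul_mem _ _ (A.mul_mem _ _ hn hxA) hinvA)) ha) (A.mul_mem _ _ hxA ha))
        (A.mul_mem _ _ (A.mul_mem _ _ hx2 ha) hinvA)
    · push_cast
      linear_combination (1 + (-(n : L)) * x + x ^ 2 * a) * hinv

/-! ### The break -/

section Break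

variable (σ : L ≃+* L)

/-- `σ b ∈ A` for `b ∈ A` when `σ` preserves the valuation. -/
theorem apply_mem (hσv : ∀ x, A.valuation (σ x) = A.valuation x) {b : L} (hb : b ∈ A) :
    σ b ∈ A := by
  rw [← A.valuation_le_one_iff, hσv]
  exact (A.valuation_le_one_iff b).mpr hb

/-- The shape `σ ϖ = ϖ (1 + α ϖ ^ s)`, `s ≥ 1`, `α ∈ K'` a unit. -/
theorem exists_unit_pow (K' : Subfield L) (hσK : ∀ c ∈ K', σ c ∈ K')
    {ϖ : L} (hϖK : ϖ ∈ K') (hϖ0 : ϖ ≠ 0) (hϖ : ϖ ∈ A.nonunits)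
    (hunif : ∀ c ∈ K', c ≠ 0 → ∃ (j : ℤ) (β : L), β ∈ K' ∧ A.valuation β = 1 ∧ c = ϖ ^ j * β)
    (hne : σ ϖ ≠ ϖ) (hwild : σ ϖ / ϖ - 1 ∈ A.nonunits) :
    ∃ (s : ℕ) (α : L), 0 < s ∧ α ∈ K' ∧ A.valuation α = 1 ∧ σ ϖ = ϖ * (1 + α * ϖ ^ s) := by
  have huK : σ ϖ / ϖ - 1 ∈ K' := K'.sub_mem (K'.div_mem (hσK ϖ hϖK) hϖK) K'.one_mem
  have hu0 : σ ϖ / ϖ - 1 ≠ 0 := by
    intro h
    apply hne
    have : σ ϖ / ϖ = 1 := sub_eq_zero.mp h
    rwa [div_eq_one_iff_eq hϖ0] at this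
  obtain ⟨j, β, hβK, hβ, hj⟩ := hunif _ huK hu0
  have h1j : 1 ≤ j := by
    rw [hj] at hwild
    exact one_le_of_nonunit A hϖ0 hϖ hβ hwild
  obtain ⟨s, rfl⟩ : ∃ s : ℕ, j = (s : ℤ) := ⟨j.toNat, by omega⟩
  refine ⟨s, β, by omega, hβK, hβ, ?_⟩
  rw [zpow_natCast] at hj
  have : σ ϖ = ϖ * (σ ϖ / ϖ) := by field_simp
  rw [this]
  congr 1
  linear_combination hj

/-- **Peeling**: `σ = id` on `(A ∩ K') / ϖ ^ n` for every `n ≤ s + 1`. -/
theorem peel (hσv : ∀ x, A.valuation (σ x) = A.valuation x)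
    (K' : Subfield L) (hσK : ∀ c ∈ K', σ c ∈ K')
    {ϖ : L} (hϖK : ϖ ∈ K') (hϖ0 : ϖ ≠ 0) (hϖ : ϖ ∈ A.nonunits)
    (hunif : ∀ c ∈ K', c ≠ 0 → ∃ (j : ℤ) (β : L), β ∈ K' ∧ A.valuation β = 1 ∧ c = ϖ ^ j * β)
    (hres : ∀ b ∈ K', b ∈ A → ∃ b₀ ∈ K', b₀ ∈ A ∧ σ b₀ = b₀ ∧ b - b₀ ∈ A.nonunits)
    {s : ℕ} {α : L} (hαK : α ∈ K') (hαA : α ∈ A) (hσϖ : σ ϖ = ϖ * (1 + α * ϖ ^ s)) :
    ∀ n ≤ s + 1, ∀ b ∈ K', b ∈ A → ∃ a ∈ A, a ∈ K' ∧ σ b - b = ϖ ^ n * a := by
  have hϖA : ϖ ∈ A := A.nonunits_le hϖ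
  intro n
  induction n with
  | zero =>
    intro _ b hbK hbA
    exact ⟨σ b - b, sub_mem (apply_mem A σ hσv hbA) hbA, K'.sub_mem (hσK b hbK) hbK, by simp⟩
  | succ n ih =>
    intro hn b hbK hbA
    obtain ⟨b₀, hb₀K, _, hfix, hnon⟩ := hres b hbK hbA
    have hcK : b - b₀ ∈ K' := K'.sub_mem hbK hb₀K
    by_cases hc0 : b - b₀ = 0
    · refine ⟨0, A.zero_mem, K'.zero_mem, ?_⟩
      have : b = b₀ := sub_eq_zero.mp hc0
      rw [this, hfix]; simp
    obtain ⟨j, β, hβK, hβ, hj⟩ := hunif _ hcK hc0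
    have h1j : 1 ≤ j := by
      rw [hj] at hnon
      exact one_le_of_nonunit A hϖ0 hϖ hβ hnon
    obtain ⟨m, rfl⟩ : ∃ m : ℕ, j = (m : ℤ) + 1 := ⟨(j - 1).toNat, by omega⟩
    -- `b - b₀ = ϖ * b'` with `b' = ϖ ^ m * β`
    have hb'K : ϖ ^ m * β ∈ K' := K'.mul_mem (K'.pow_mem hϖK m) hβK
    have hb'A : ϖ ^ m * β ∈ A :=
      A.mul_mem _ _ (A.pow_mem hϖA m) (mem_of_valuation_eq_one A hβ)
    have hcb' : b - b₀ = ϖ * (ϖ ^ m * β) := by
      rw [hj, zpow_add_one₀ hϖ0, zpow_natCast]; ring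
    obtain ⟨a', ha'A, ha'K, ha'⟩ := ih (by omega) _ hb'K hb'A
    refine ⟨a' + ϖ ^ (s - n) * α * σ (ϖ ^ m * β), ?_, ?_, ?_⟩
    · exact A.add_mem _ _ ha'A (A.mul_mem _ _ (A.mul_mem _ _ (A.pow_mem hϖA _) hαA)
        (apply_mem A σ hσv hb'A))
    · exact K'.add_mem ha'K (K'.mul_mem (K'.mul_mem (K'.pow_mem hϖK _) hαK) (hσK _ hb'K))
    · have hb : b = b₀ + ϖ * (ϖ ^ m * β) := by rw [← hcb']; ring
      have hpow : ϖ ^ (n + 1) * ϖ ^ (s - n) = ϖ ^ (s + 1) := by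
        rw [← pow_add]; congr 1; omega
      have hσb' : σ (ϖ ^ m * β) = ϖ ^ m * β + ϖ ^ n * a' := by rw [← ha']; ring
      calc σ b - b = σ ϖ * σ (ϖ ^ m * β) - ϖ * (ϖ ^ m * β) := by
            conv_lhs => rw [hb]
            rw [map_add, map_mul, hfix]; ring
        _ = ϖ * (σ (ϖ ^ m * β) - ϖ ^ m * β) + ϖ ^ (s + 1) * α * σ (ϖ ^ m * β) := by
            rw [hσϖ]; ring
        _ = ϖ ^ (n + 1) * (a' + ϖ ^ (s - n) * α * σ (ϖ ^ m * β)) := by
            rw [← hpow, ha']; ring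

/-- **The wild frame, abstract form.**  `s ≥ 1`, `α` a unit of `A` in `K'`,
`σ ϖ = ϖ (1 + α ϖ ^ s)`, and `σ = id` on `(A ∩ K') / ϖ ^ (s+1)`. -/
theorem exists_break (hσv : ∀ x, A.valuation (σ x) = A.valuation x)
    (K' : Subfield L) (hσK : ∀ c ∈ K', σ c ∈ K')
    {ϖ : L} (hϖK : ϖ ∈ K') (hϖ0 : ϖ ≠ 0) (hϖ : ϖ ∈ A.nonunits)
    (hunif : ∀ c ∈ K', c ≠ 0 → ∃ (j : ℤ) (β : L), β ∈ K' ∧ A.valuation β = 1 ∧ c = ϖ ^ j * β)
    (hres : ∀ b ∈ K', b ∈ A → ∃ b₀ ∈ K', b₀ ∈ A ∧ σ b₀ = b₀ ∧ b - b₀ ∈ A.nonunits)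
    (hne : σ ϖ ≠ ϖ) (hwild : σ ϖ / ϖ - 1 ∈ A.nonunits) :
    ∃ (s : ℕ) (α : L), 0 < s ∧ α ∈ K' ∧ A.valuation α = 1 ∧ σ ϖ = ϖ * (1 + α * ϖ ^ s) ∧
      ∀ b ∈ K', b ∈ A → ∃ a ∈ A, a ∈ K' ∧ σ b = b + ϖ ^ (s + 1) * a := by
  obtain ⟨s, α, hs, hαK, hα, hσϖ⟩ := exists_unit_pow A σ K' hσK hϖK hϖ0 hϖ hunif hne hwild
  refine ⟨s, α, hs, hαK, hα, hσϖ, fun b hbK hbA => ?_⟩
  obtain ⟨a, haA, haK, ha⟩ := peel A σ hσv K' hσK hϖK hϖ0 hϖ hunif hres hαK
    (mem_of_valuation_eq_one A hα) hσϖ (s + 1) le_rfl b hbK hbA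
  exact ⟨a, haA, haK, by rw [← ha]; ring⟩

/-- **(R2) on constants**: `σ c = c (1 + j α ϖ ^ s + ϖ ^ (s+1) a)` for `c = ϖ ^ j β ∈ K'`. -/
theorem displace {ϖ : L} (hϖ0 : ϖ ≠ 0) (hϖ : ϖ ∈ A.nonunits)
    {s : ℕ} (hs : 0 < s) {α : L} (hα : A.valuation α = 1) (hσϖ : σ ϖ = ϖ * (1 + α * ϖ ^ s))
    {β : L} (hβ : A.valuation β = 1) {a₁ : L} (ha₁ : a₁ ∈ A) (hσβ : σ β = β + ϖ ^ (s + 1) * a₁)
    (j : ℤ) :
    ∃ a ∈ A, σ (ϖ ^ j * β) = ϖ ^ j * β * (1 + (j : L) * α * ϖ ^ s + ϖ ^ (s + 1) * a) := by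
  have hϖA : ϖ ∈ A := A.nonunits_le hϖ
  have hαA : α ∈ A := mem_of_valuation_eq_one A hα
  have hβ0 : β ≠ 0 := ne_zero_of_valuation_eq_one A hβ
  have hβinv : β⁻¹ ∈ A := inv_mem_of_valuation_eq_one A hβ
  have hx : α * ϖ ^ s ∈ A.nonunits := by
    rw [A.mem_nonunits_iff, map_mul, hα, one_mul, map_pow]
    exact pow_lt_one₀ zero_le ((A.mem_nonunits_iff).mp hϖ) (by omega)
  obtain ⟨a₂, ha₂, h2⟩ := one_add_zpow A hx j
  obtain ⟨t, rfl⟩ : ∃ t : ℕ, s = t + 1 := ⟨s - 1, by omega⟩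
  refine ⟨ϖ ^ t * α ^ 2 * a₂
      + (1 + (j : L) * (α * ϖ ^ (t + 1)) + (α * ϖ ^ (t + 1)) ^ 2 * a₂) * a₁ * β⁻¹, ?_, ?_⟩
  · have hjA : (j : L) ∈ A := intCast_mem A j
    have hpow : ϖ ^ (t + 1) ∈ A := A.pow_mem hϖA _
    exact A.add_mem _ _ (A.mul_mem _ _ (A.mul_mem _ _ (A.pow_mem hϖA _) (A.pow_mem hαA 2)) ha₂)
      (A.mul_mem _ _ (A.mul_mem _ _ (A.add_mem _ _ (A.add_mem _ _ A.one_mem
        (A.mul_mem _ _ hjA (A.mul_mem _ _ hαA hpow)))
        (A.mul_mem _ _ (A.pow_mem (A.mul_mem _ _ hαA hpow) 2) ha₂)) ha₁) hβinv)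
  · rw [map_mul, map_zpow₀, hσϖ, mul_zpow, h2, hσβ]
    field_simp
    ring

/-- **Wildness** from inertia: if `σ` acts trivially on the residue field, the residue
characteristic is `p` and `σ ^ p` fixes `ϖ`, then `σ ϖ / ϖ ≡ 1`. -/
theorem wild_of_iterate (hσv : ∀ x, A.valuation (σ x) = A.valuation x)
    (hin : ∀ a ∈ A, σ a - a ∈ A.nonunits) {p : ℕ} (hp : p.Prime) (hpA : (p : L) ∈ A.nonunits)
    {ϖ : L} (hϖ0 : ϖ ≠ 0) (hord : σ^[p] ϖ = ϖ) : σ ϖ / ϖ - 1 ∈ A.nonunits := by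
  set u : L := σ ϖ / ϖ with hu
  have hσϖ0 : σ ϖ ≠ 0 := by rwa [Ne, map_eq_zero_iff σ σ.injective]
  have hvu : A.valuation u = 1 := by
    rw [hu, map_div₀, hσv, div_self ((A.valuation.ne_zero_iff).mpr hϖ0)]
  have huA : u ∈ A := mem_of_valuation_eq_one A hvu
  -- iterates are multiplicative
  have hiter_div : ∀ (m : ℕ) (x y : L), σ^[m] (x / y) = σ^[m] x / σ^[m] y := by
    intro m
    induction m with
    | zero => intro x y; rfl
    | succ m ih => intro x y; rw [Function.iterate_succ_apply', ih, map_div₀,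
        ← Function.iterate_succ_apply' σ, ← Function.iterate_succ_apply' σ]
  have hiter_ne : ∀ m : ℕ, σ^[m] ϖ ≠ 0 := by
    intro m
    induction m with
    | zero => simpa using hϖ0
    | succ m ih =>
      rw [Function.iterate_succ_apply', Ne, map_eq_zero_iff σ σ.injective]; exact ih
  have hiterA : ∀ m : ℕ, σ^[m] u ∈ A := by
    intro m
    induction m with
    | zero => simpa using huA
    | succ m ih => rw [Function.iterate_succ_apply']; exact apply_mem A σ hσv ih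
  -- telescoping product
  have hprod : ∀ m : ℕ, ∏ i ∈ Finset.range m, σ^[i] u = σ^[m] ϖ / ϖ := by
    intro m
    induction m with
    | zero => simp [div_self hϖ0]
    | succ m ih =>
      rw [Finset.prod_range_succ, ih, hu, hiter_div, ← Function.iterate_succ_apply σ m ϖ]
      field_simp [hiter_ne m]
  -- every iterate is congruent to `u`
  have hcong : ∀ m : ℕ, σ^[m] u - u ∈ A.nonunits := by
    intro m
    induction m with
    | zero => simp
    | succ m ih =>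
      have h1 := hin _ (hiterA m)
      have : σ^[m + 1] u - u = (σ (σ^[m] u) - σ^[m] u) + (σ^[m] u - u) := by
        rw [Function.iterate_succ_apply']; ring
      rw [this]
      exact A.nonunits.add_mem h1 ih
  -- hence the product is congruent to `u ^ p`
  have hprodcong : ∀ m : ℕ, (∏ i ∈ Finset.range m, σ^[i] u) - u ^ m ∈ A.nonunits := by
    intro m
    induction m with
    | zero => simp
    | succ m ih =>
      have : (∏ i ∈ Finset.range (m + 1), σ^[i] u) - u ^ (m + 1)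
          = ((∏ i ∈ Finset.range m, σ^[i] u) - u ^ m) * σ^[m] u + u ^ m * (σ^[m] u - u) := by
        rw [Finset.prod_range_succ]; ring
      rw [this]
      refine A.nonunits.add_mem ?_ ?_
      · exact nonunits_mul_mem A ih (hiterA m)
      · exact mem_mul_nonunits A (A.pow_mem huA m) (hcong m)
  have hup : u ^ p - 1 ∈ A.nonunits := by
    have h := hprodcong p
    rw [hprod p, hord, div_self hϖ0] at h
    have : u ^ p - 1 = -(1 - u ^ p) := by ring
    rw [this]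
    exact A.nonunits.neg_mem h
  -- `(u - 1) ^ p = u ^ p - 1 - p (u - 1) r`
  have hu1A : u - 1 ∈ A := sub_mem huA A.one_mem
  obtain ⟨r, hr⟩ := exists_add_pow_prime_eq hp (⟨u - 1, hu1A⟩ : A) 1
  have hr' : (u - 1 + 1) ^ p = (u - 1) ^ p + 1 ^ p + (p : L) * (u - 1) * 1 * (r : L) := by
    have := congrArg (fun z : A => (z : L)) hr
    simpa using this
  have hpow : (u - 1) ^ p = (u ^ p - 1) - (p : L) * ((u - 1) * (r : L)) := by
    have h1 : (u - 1 + 1) = u := by ring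
    rw [h1, one_pow] at hr'
    linear_combination -hr'
  have hlt : A.valuation ((u - 1) ^ p) < 1 := by
    rw [hpow, ← A.mem_nonunits_iff]
    refine A.nonunits.sub_mem hup ?_
    exact nonunits_mul_mem A hpA (A.mul_mem _ _ hu1A r.2)
  rw [A.mem_nonunits_iff]
  by_contra hge
  have h1 : A.valuation (u - 1) = 1 :=
    le_antisymm ((A.valuation_le_one_iff _).mpr hu1A) (not_lt.mp hge)
  rw [map_pow, h1, one_pow] at hlt
  exact lt_irrefl _ hlt

end Break

end Fermat.Agent.S44.Loc.BreakAbs
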