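/-
PROJECT P (S44), brick Loc/FrameAbs (helper13), Mathlib only: THE WILD FRAME FROM GALOIS-ONLY INPUT.

`A` a valuation subring of `L`, `v = A.valuation`, residue characteristic `p`.  Three subfields
`K0 ≤ K1 ≤ K'` (instance: inertia field, fixed field of `I_1 = I ∩ ker ω`, fixed field of
`H = Stab_{I_1}(x)`), an automorphism `σ` (instance: `σ ∈ I_1 \ H`), and

* (a) `v (K0ˣ) = v(p)^ℤ`;
* (b) a norm `K1 → K0` of degree `r ≤ p - 1` on valuations;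
* (c) the `σ`-norm `∏_{i<p} σ^i c` maps `K'` into `K1`;
* (d) `lam ∈ K1` with `v(lam)^(p-1) = v(p)`  (`lam = 1 - ζ`);
* (e) `σ` preserves `v`, maps `K'` into itself, is the identity on `K1`, has order dividing `p` on
  `K'`, and acts trivially on the residue field;
* (f) every element of `A ∩ K'` is congruent to an element of `A ∩ K1`;
* (g) some `θ ∈ K'` is moved by `σ`.

`exists_frame` : there are a uniformiser `ϖ` of `K'`, `s ≥ 1` and a unit `α ∈ K'` with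
`σ ϖ = ϖ (1 + α ϖ^s)`, `σ = id` on `(A ∩ K') / ϖ^(s+1)`, `v(lam) = v(ϖ)^p`, `v(p) = v(ϖ)^(p(p-1))`,
and `lam` is a uniformiser of `K1`.  No Kummer generator, no Eisenstein basis, no interpolation.
-/
import Fermat.Agent.S44.Loc.BreakAbs

set_option autoImplicit false

namespace Fermat.Agent.S44.Loc.FrameAbs

open Fermat.Agent.S44.Loc.BreakAbs

variable {L : Type*} [Field L] (A : ValuationSubring L)

/-! ### Ordered-group arithmetic -/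

section Gamma

variable {Γ : Type*} [LinearOrderedCommGroupWithZero Γ]

theorem eq_one_of_pow_eq_one {x : Γ} {N : ℕ} (hN : N ≠ 0) (h : x ^ N = 1) : x = 1 :=
  (pow_eq_one_iff_of_nonneg zero_le hN).mp h

theorem lt_one_of_pow_lt_one {x : Γ} {N : ℕ} (h : x ^ N < 1) : x < 1 := by
  by_contra hx
  exact absurd h (not_lt.mpr (one_le_pow₀ (not_lt.mp hx)))

theorem zpow_pow_comm (x : Γ) (a : ℤ) (N : ℕ) : (x ^ a) ^ N = (x ^ N) ^ a := by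
  rw [← zpow_natCast, ← zpow_mul, mul_comm, zpow_mul, zpow_natCast]

end Gamma

/-- An integer whose image in `L` has valuation `< 1` is divisible by the residue
characteristic. -/
theorem dvd_of_valuation_intCast_lt_one {p : ℕ} (hp : p.Prime) (hpA : A.valuation (p : L) < 1)
    {j : ℤ} (hj : A.valuation (j : L) < 1) : (p : ℤ) ∣ j := by
  by_contra hndvd
  have hcop : IsCoprime (p : ℤ) j :=
    (Nat.prime_iff_prime_int.mp hp).coprime_iff_not_dvd.mpr hndvd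
  obtain ⟨x, y, hxy⟩ := hcop
  have h1 : (x : L) * (p : L) + (y : L) * (j : L) = 1 := by
    have := congrArg (Int.cast : ℤ → L) hxy
    push_cast at this
    exact this
  have hx : A.valuation (x : L) ≤ 1 := (A.valuation_le_one_iff _).mpr (intCast_mem A x)
  have hy : A.valuation (y : L) ≤ 1 := (A.valuation_le_one_iff _).mpr (intCast_mem A y)
  have h2 : A.valuation ((x : L) * (p : L) + (y : L) * (j : L)) < 1 := by
    refine lt_of_le_of_lt (A.valuation.map_add _ _) (max_lt ?_ ?_)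
    · rw [map_mul]
      calc A.valuation (x : L) * A.valuation (p : L) ≤ 1 * A.valuation (p : L) :=
            mul_le_mul_left hx _
        _ = A.valuation (p : L) := one_mul _
        _ < 1 := hpA
    · rw [map_mul]
      calc A.valuation (y : L) * A.valuation (j : L) ≤ 1 * A.valuation (j : L) :=
            mul_le_mul_left hy _
        _ = A.valuation (j : L) := one_mul _
        _ < 1 := hj
  rw [h1, map_one] at h2
  exact lt_irrefl _ h2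

/-! ### Step A: valuations on `K'` are commensurable with `v(p)` -/

section Norms

variable (σ : L ≃+* L)

theorem valuation_iterate (hσv : ∀ x, A.valuation (σ x) = A.valuation x) (i : ℕ) (c : L) :
    A.valuation (σ^[i] c) = A.valuation c := by
  induction i with
  | zero => rfl
  | succ i ih => rw [Function.iterate_succ_apply', hσv, ih]

theorem iterate_ne_zero (i : ℕ) {c : L} (hc : c ≠ 0) : σ^[i] c ≠ 0 := by
  induction i with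
  | zero => simpa using hc
  | succ i ih => rw [Function.iterate_succ_apply', Ne, map_eq_zero_iff σ σ.injective]; exact ih

/-- (a)+(b)+(c): `v(c)^(p r) ∈ v(p)^ℤ` for every `c ∈ K'ˣ`. -/
theorem exists_zpow_of_norms (hσv : ∀ x, A.valuation (σ x) = A.valuation x)
    (K0 K1 K' : Subfield L) (p r : ℕ)
    (hK0 : ∀ c ∈ K0, c ≠ 0 → ∃ m : ℤ, A.valuation c = A.valuation (p : L) ^ m)
    (hN1 : ∀ c ∈ K1, c ≠ 0 → ∃ d ∈ K0, d ≠ 0 ∧ A.valuation d = A.valuation c ^ r)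
    (hNσ : ∀ c ∈ K', ∏ i ∈ Finset.range p, σ^[i] c ∈ K1)
    {c : L} (hc : c ∈ K') (hc0 : c ≠ 0) :
    ∃ m : ℤ, A.valuation c ^ (p * r) = A.valuation (p : L) ^ m := by
  have hν0 : ∏ i ∈ Finset.range p, σ^[i] c ≠ 0 :=
    Finset.prod_ne_zero_iff.mpr fun i _ => iterate_ne_zero σ i hc0
  obtain ⟨d, hdK, hd0, hd⟩ := hN1 _ (hNσ c hc) hν0
  obtain ⟨m, hm⟩ := hK0 d hdK hd0
  refine ⟨m, ?_⟩
  rw [← hm, hd, map_prod, Finset.prod_congr rfl (fun i _ => valuation_iterate A σ hσv i c),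
    Finset.prod_const, Finset.card_range, pow_mul]

end Norms

/-! ### Step B: a minimal uniformiser -/

/-- If `v(c)^N ∈ g^ℤ` for all `c ∈ K'ˣ` (`0 < g < 1`, `N ≥ 1`) and `K'` contains an element `c₁`
with `v(c₁)^N = g^m₁`, `m₁ ≥ 1`, then `K'` has a uniformiser. -/
theorem exists_uniformiser (K' : Subfield L) {g : A.ValueGroup} (hg0 : 0 < g) (hg1 : g < 1)
    {N : ℕ} (hN : N ≠ 0)
    (hcomm : ∀ c ∈ K', c ≠ 0 → ∃ m : ℤ, A.valuation c ^ N = g ^ m)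
    {c₁ : L} (hc₁ : c₁ ∈ K') (hc₁0 : c₁ ≠ 0) {m₁ : ℕ} (hm₁ : 1 ≤ m₁)
    (hc₁m : A.valuation c₁ ^ N = g ^ (m₁ : ℤ)) :
    ∃ (ϖ : L) (m₀ : ℕ), ϖ ∈ K' ∧ ϖ ≠ 0 ∧ A.valuation ϖ < 1 ∧ 1 ≤ m₀ ∧
      A.valuation ϖ ^ N = g ^ (m₀ : ℤ) ∧
      ∀ c ∈ K', c ≠ 0 → ∃ (j : ℤ) (β : L), β ∈ K' ∧ A.valuation β = 1 ∧ c = ϖ ^ j * β := by
  classical
  let Q : ℕ → Prop := fun m => 1 ≤ m ∧ ∃ c ∈ K', c ≠ 0 ∧ A.valuation c ^ N = g ^ (m : ℤ)
  have hQ : ∃ m, Q m := ⟨m₁, hm₁, c₁, hc₁, hc₁0, hc₁m⟩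
  obtain ⟨hm₀, ϖ, hϖK, hϖ0, hϖm⟩ := Nat.find_spec hQ
  set m₀ := Nat.find hQ with hm₀def
  have hmin : ∀ m, Q m → m₀ ≤ m := fun m hm => Nat.find_min' hQ hm
  have hvϖ : A.valuation ϖ < 1 := by
    apply lt_one_of_pow_lt_one (N := N)
    rw [hϖm, zpow_natCast]
    exact pow_lt_one₀ zero_le hg1 (by omega)
  have hvϖ0 : 0 < A.valuation ϖ := valuation_pos A hϖ0
  refine ⟨ϖ, m₀, hϖK, hϖ0, hvϖ, hm₀, hϖm, ?_⟩
  intro c hcK hc0
  obtain ⟨m, hm⟩ := hcomm c hcK hc0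
  have hm₀pos : (0 : ℤ) < (m₀ : ℤ) := by exact_mod_cast hm₀
  set q : ℤ := m / (m₀ : ℤ)
  set r' : ℤ := m % (m₀ : ℤ) with hr'def
  have hr'0 : 0 ≤ r' := Int.emod_nonneg _ hm₀pos.ne'
  have hr'lt : r' < (m₀ : ℤ) := Int.emod_lt_of_pos _ hm₀pos
  have hdecomp : m = r' + (m₀ : ℤ) * q := (Int.emod_add_mul_ediv m (m₀ : ℤ)).symm
  have hϖq0 : ϖ ^ q ≠ 0 := zpow_ne_zero q hϖ0
  set c' : L := c / ϖ ^ q with hc'def
  have hc'K : c' ∈ K' := K'.div_mem hcK (K'.zpow_mem hϖK q)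
  have hc'0 : c' ≠ 0 := div_ne_zero hc0 hϖq0
  have hg0' : g ≠ 0 := hg0.ne'
  have hc'm : A.valuation c' ^ N = g ^ r' := by
    rw [hc'def, map_div₀, div_pow, hm, map_zpow₀, zpow_pow_comm, hϖm, ← zpow_mul, hdecomp,
      zpow_add₀ hg0']
    rw [mul_div_assoc, div_self (zpow_ne_zero _ hg0'), mul_one]
  have hr'zero : r' = 0 := by
    by_contra hne
    have hpos : 0 < r' := lt_of_le_of_ne hr'0 (Ne.symm hne)
    have hQr : Q r'.toNat := by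
      refine ⟨by omega, c', hc'K, hc'0, ?_⟩
      rw [hc'm, Int.toNat_of_nonneg hr'0]
    have := hmin _ hQr
    omega
  rw [hr'zero, zpow_zero] at hc'm
  have hvc' : A.valuation c' = 1 := eq_one_of_pow_eq_one hN hc'm
  refine ⟨q, c', hc'K, hvc', ?_⟩
  rw [hc'def]
  field_simp

/-! ### Step C: a `σ`-fixed uniformiser is impossible -/

section Fixed

variable (σ : L ≃+* L)

theorem not_fixed_uniformiser (hσv : ∀ x, A.valuation (σ x) = A.valuation x)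
    (K' : Subfield L) (hσK : ∀ c ∈ K', σ c ∈ K')
    {ϖ : L} (hϖK : ϖ ∈ K') (hϖ0 : ϖ ≠ 0) (hϖ : ϖ ∈ A.nonunits)
    (hunif : ∀ c ∈ K', c ≠ 0 → ∃ (j : ℤ) (β : L), β ∈ K' ∧ A.valuation β = 1 ∧ c = ϖ ^ j * β)
    (hres : ∀ b ∈ K', b ∈ A → ∃ b₀ ∈ K', b₀ ∈ A ∧ σ b₀ = b₀ ∧ b - b₀ ∈ A.nonunits)
    {θ : L} (hθK : θ ∈ K') (hθ : σ θ ≠ θ) : σ ϖ ≠ ϖ := by
  intro hfix
  have hθ0 : θ ≠ 0 := by
    rintro rfl
    exact hθ (map_zero σ)
  obtain ⟨j, β, hβK, hβ, hj⟩ := hunif θ hθK hθ0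
  have hσβ : σ β ≠ β := by
    intro h
    apply hθ
    rw [hj, map_mul, map_zpow₀, hfix, h]
  have hβA : β ∈ A := mem_of_valuation_eq_one A hβ
  have hδK : σ β - β ∈ K' := K'.sub_mem (hσK β hβK) hβK
  have hδ0 : σ β - β ≠ 0 := sub_ne_zero.mpr hσβ
  have hδA : σ β - β ∈ A := sub_mem (apply_mem A σ hσv hβA) hβA
  obtain ⟨k, β', _, hβ', hk⟩ := hunif _ hδK hδ0
  have hk0 : 0 ≤ k := by
    rw [hk] at hδA
    exact nonneg_of_mem A hϖ0 hϖ hβ' hδA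
  obtain ⟨n, rfl⟩ : ∃ n : ℕ, k = (n : ℤ) := ⟨k.toNat, by omega⟩
  have hσϖ : σ ϖ = ϖ * (1 + 0 * ϖ ^ n) := by rw [hfix]; ring
  obtain ⟨a, haA, _, ha⟩ := peel A σ hσv K' hσK hϖK hϖ0 hϖ hunif hres K'.zero_mem A.zero_mem hσϖ
    (n + 1) le_rfl β hβK hβA
  have hvϖ : A.valuation ϖ < 1 := (A.mem_nonunits_iff).mp hϖ
  have hvϖ0 : 0 < A.valuation ϖ := valuation_pos A hϖ0
  have h1 : A.valuation (σ β - β) = A.valuation ϖ ^ n := by
    rw [hk, map_mul, hβ', mul_one, map_zpow₀, zpow_natCast]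
  have h2 : A.valuation (σ β - β) ≤ A.valuation ϖ ^ (n + 1) := by
    rw [ha, map_mul, map_pow]
    calc A.valuation ϖ ^ (n + 1) * A.valuation a ≤ A.valuation ϖ ^ (n + 1) * 1 :=
          mul_le_mul_right ((A.valuation_le_one_iff a).mpr haA) _
      _ = A.valuation ϖ ^ (n + 1) := mul_one _
  rw [h1] at h2
  have h3 : A.valuation ϖ ^ (n + 1) < A.valuation ϖ ^ n :=
    pow_lt_pow_right_of_lt_one₀ hvϖ0 hvϖ (by omega)
  exact absurd h2 (not_le.mpr h3)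

end Fixed

/-! ### Steps D–G: the frame -/

section Frame

variable (σ : L ≃+* L)

/-- **Step E**: a `σ`-fixed element `ϖ^j β` of `K'` has `p ∣ j`. -/
theorem dvd_of_fixed {p : ℕ} (hp : p.Prime) (hpA : A.valuation (p : L) < 1)
    {ϖ : L} (hϖ0 : ϖ ≠ 0) (hϖ : ϖ ∈ A.nonunits)
    {s : ℕ} (hs : 0 < s) {α : L} (hα : A.valuation α = 1) (hσϖ : σ ϖ = ϖ * (1 + α * ϖ ^ s))
    {β : L} (hβ : A.valuation β = 1) {a₁ : L} (ha₁ : a₁ ∈ A) (hσβ : σ β = β + ϖ ^ (s + 1) * a₁)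
    {j : ℤ} (hfix : σ (ϖ ^ j * β) = ϖ ^ j * β) : (p : ℤ) ∣ j := by
  obtain ⟨a, haA, ha⟩ := displace A σ hϖ0 hϖ hs hα hσϖ hβ ha₁ hσβ j
  have hβ0 : β ≠ 0 := ne_zero_of_valuation_eq_one A hβ
  have hα0 : α ≠ 0 := ne_zero_of_valuation_eq_one A hα
  have hc0 : ϖ ^ j * β ≠ 0 := mul_ne_zero (zpow_ne_zero j hϖ0) hβ0
  rw [hfix] at ha
  -- `j α ϖ^s + ϖ^(s+1) a = 0`
  have h0 : (j : L) * α * ϖ ^ s + ϖ ^ (s + 1) * a = 0 := by
    have h1 : ϖ ^ j * β * ((j : L) * α * ϖ ^ s + ϖ ^ (s + 1) * a) = 0 := by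
      linear_combination -ha
    exact (mul_eq_zero.mp h1).resolve_left hc0
  have h2 : (j : L) = -(ϖ * a) * α⁻¹ := by
    have hϖs : ϖ ^ s ≠ 0 := pow_ne_zero s hϖ0
    have h3 : ϖ ^ s * ((j : L) * α + ϖ * a) = 0 := by
      rw [pow_succ] at h0
      linear_combination h0
    have h4 := (mul_eq_zero.mp h3).resolve_left hϖs
    field_simp
    linear_combination h4
  apply dvd_of_valuation_intCast_lt_one A hp hpA
  rw [h2, map_mul, Valuation.map_neg, map_mul, map_inv₀, hα, inv_one, mul_one]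
  calc A.valuation ϖ * A.valuation a ≤ A.valuation ϖ * 1 :=
        mul_le_mul_right ((A.valuation_le_one_iff a).mpr haA) _
    _ = A.valuation ϖ := mul_one _
    _ < 1 := (A.mem_nonunits_iff).mp hϖ

/-- **The wild frame.** -/
theorem exists_frame {p : ℕ} (hp : p.Prime) (hp0 : (p : L) ≠ 0) (hpA : A.valuation (p : L) < 1)
    (hσv : ∀ x, A.valuation (σ x) = A.valuation x)
    (hin : ∀ a ∈ A, σ a - a ∈ A.nonunits)
    (K0 K1 K' : Subfield L) (h1' : K1 ≤ K')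
    (hK0 : ∀ c ∈ K0, c ≠ 0 → ∃ m : ℤ, A.valuation c = A.valuation (p : L) ^ m)
    {r : ℕ} (hr1 : 1 ≤ r) (hrp : r ≤ p - 1)
    (hN1 : ∀ c ∈ K1, c ≠ 0 → ∃ d ∈ K0, d ≠ 0 ∧ A.valuation d = A.valuation c ^ r)
    (hNσ : ∀ c ∈ K', ∏ i ∈ Finset.range p, σ^[i] c ∈ K1)
    {lam : L} (hlamK : lam ∈ K1) (hlam : A.valuation lam ^ (p - 1) = A.valuation (p : L))
    (hσK : ∀ c ∈ K', σ c ∈ K') (hσ1 : ∀ c ∈ K1, σ c = c) (hσp : ∀ c ∈ K', σ^[p] c = c)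
    (hres : ∀ b ∈ K', b ∈ A → ∃ b₀ ∈ K1, b₀ ∈ A ∧ b - b₀ ∈ A.nonunits)
    {θ : L} (hθK : θ ∈ K') (hθ : σ θ ≠ θ) :
    ∃ (ϖ : L) (s : ℕ) (α : L), ϖ ∈ K' ∧ ϖ ≠ 0 ∧ A.valuation ϖ < 1 ∧
      (∀ c ∈ K', c ≠ 0 → ∃ (j : ℤ) (β : L), β ∈ K' ∧ A.valuation β = 1 ∧ c = ϖ ^ j * β) ∧
      0 < s ∧ α ∈ K' ∧ A.valuation α = 1 ∧ σ ϖ = ϖ * (1 + α * ϖ ^ s) ∧
      (∀ b ∈ K', b ∈ A → ∃ a ∈ A, a ∈ K' ∧ σ b = b + ϖ ^ (s + 1) * a) ∧
      A.valuation lam = A.valuation ϖ ^ p ∧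
      A.valuation (p : L) = A.valuation ϖ ^ (p * (p - 1)) ∧
      (∀ a ∈ K1, A.valuation a < 1 → A.valuation a ≤ A.valuation lam) ∧
      (∀ c ∈ K', c ≠ 0 → σ c = c → ∀ (j : ℤ) (β : L), A.valuation β = 1 → β ∈ K' →
        c = ϖ ^ j * β → (p : ℤ) ∣ j) := by
  have hg0 : 0 < A.valuation (p : L) := valuation_pos A hp0
  have hp2 : 2 ≤ p := hp.two_le
  have hN0 : p * r ≠ 0 := Nat.mul_ne_zero (by omega) (by omega)
  have hcomm : ∀ c ∈ K', c ≠ 0 → ∃ m : ℤ, A.valuation c ^ (p * r) = A.valuation (p : L) ^ m :=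
    fun c hc hc0 => exists_zpow_of_norms A σ hσv K0 K1 K' p r hK0 hN1 hNσ hc hc0
  have hpK : (p : L) ∈ K' := natCast_mem K' p
  have hpm : A.valuation (p : L) ^ (p * r) = A.valuation (p : L) ^ ((p * r : ℕ) : ℤ) :=
    (zpow_natCast _ _).symm
  obtain ⟨ϖ, m₀, hϖK, hϖ0, hvϖ, hm₀, hϖm, hunif⟩ := exists_uniformiser A K' hg0 hpA hN0 hcomm
    hpK hp0 (m₁ := p * r) (Nat.one_le_iff_ne_zero.mpr hN0) hpm
  have hϖ : ϖ ∈ A.nonunits := (A.mem_nonunits_iff).mpr hvϖ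
  have hvϖ0 : 0 < A.valuation ϖ := valuation_pos A hϖ0
  have hres' : ∀ b ∈ K', b ∈ A → ∃ b₀ ∈ K', b₀ ∈ A ∧ σ b₀ = b₀ ∧ b - b₀ ∈ A.nonunits := by
    intro b hb hbA
    obtain ⟨b₀, hb₀K, hb₀A, h⟩ := hres b hb hbA
    exact ⟨b₀, h1' hb₀K, hb₀A, hσ1 b₀ hb₀K, h⟩
  have hne : σ ϖ ≠ ϖ :=
    not_fixed_uniformiser A σ hσv K' hσK hϖK hϖ0 hϖ hunif hres' hθK hθ
  have hwild := wild_of_iterate A σ hσv hin hp ((A.mem_nonunits_iff).mpr hpA) hϖ0 (hσp ϖ hϖK)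
  obtain ⟨s, α, hs, hαK, hα, hσϖ, hint⟩ :=
    exists_break A σ hσv K' hσK hϖK hϖ0 hϖ hunif hres' hne hwild
  -- Step E
  have hdvd : ∀ c ∈ K', c ≠ 0 → σ c = c → ∀ (j : ℤ) (β : L), A.valuation β = 1 → β ∈ K' →
      c = ϖ ^ j * β → (p : ℤ) ∣ j := by
    intro c _ _ hfix j β hβ hβK hcj
    obtain ⟨a₁, ha₁A, _, ha₁⟩ := hint β hβK (mem_of_valuation_eq_one A hβ)
    exact dvd_of_fixed A σ hp hpA hϖ0 hϖ hs hα hσϖ hβ ha₁A ha₁ (by rw [← hcj]; exact hfix)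
  -- Step F
  have hlam0 : lam ≠ 0 := by
    rintro rfl
    rw [map_zero, zero_pow (by omega)] at hlam
    exact hg0.ne hlam
  have hvlam1 : A.valuation lam < 1 :=
    lt_one_of_pow_lt_one (N := p - 1) (by rw [hlam]; exact hpA)
  obtain ⟨a, βl, hβlK, hβl, hla⟩ := hunif lam (h1' hlamK) hlam0
  have hpa : (p : ℤ) ∣ a := hdvd lam (h1' hlamK) hlam0 (hσ1 lam hlamK) a βl hβl hβlK hla
  have hvlam : A.valuation lam = A.valuation ϖ ^ a := by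
    rw [hla, map_mul, hβl, mul_one, map_zpow₀]
  have ha1 : 1 ≤ a :=
    one_le_of_nonunit A hϖ0 hϖ hβl (by rw [← hla]; exact (A.mem_nonunits_iff).mpr hvlam1)
  obtain ⟨a', rfl⟩ := hpa
  have hpZ : (0 : ℤ) < (p : ℤ) := by exact_mod_cast hp.pos
  have ha'1 : 1 ≤ a' := by
    by_contra h
    have h' : a' ≤ 0 := by omega
    have : (p : ℤ) * a' ≤ 0 := mul_nonpos_of_nonneg_of_nonpos hpZ.le h'
    omega
  -- exponent comparison `p r = p a' (p-1) m₀`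
  have hexp : ((p * r : ℕ) : ℤ) = (p : ℤ) * a' * ((p - 1 : ℕ) : ℤ) * (m₀ : ℤ) := by
    apply zpow_right_injective₀ hvϖ0 hvϖ.ne
    show A.valuation ϖ ^ ((p * r : ℕ) : ℤ)
      = A.valuation ϖ ^ ((p : ℤ) * a' * ((p - 1 : ℕ) : ℤ) * (m₀ : ℤ))
    calc A.valuation ϖ ^ ((p * r : ℕ) : ℤ) = A.valuation ϖ ^ (p * r) := zpow_natCast _ _
      _ = A.valuation (p : L) ^ (m₀ : ℤ) := hϖm
      _ = ((A.valuation ϖ ^ ((p : ℤ) * a')) ^ (p - 1)) ^ (m₀ : ℤ) := by rw [← hlam, hvlam]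
      _ = ((A.valuation ϖ ^ ((p : ℤ) * a')) ^ ((p - 1 : ℕ) : ℤ)) ^ (m₀ : ℤ) := by
          rw [zpow_natCast (A.valuation ϖ ^ ((p : ℤ) * a')) (p - 1)]
      _ = A.valuation ϖ ^ ((p : ℤ) * a' * ((p - 1 : ℕ) : ℤ) * (m₀ : ℤ)) := by
          rw [← zpow_mul, ← zpow_mul]
          congr 1
          ring
  have hP1 : ((p - 1 : ℕ) : ℤ) = (p : ℤ) - 1 := Nat.cast_pred hp.pos
  have hP1pos : (1 : ℤ) ≤ ((p - 1 : ℕ) : ℤ) := by
    rw [hP1]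
    have : (2 : ℤ) ≤ p := by exact_mod_cast hp2
    omega
  have hm₀Z : (1 : ℤ) ≤ (m₀ : ℤ) := by exact_mod_cast hm₀
  have hrZ : (r : ℤ) = a' * ((p - 1 : ℕ) : ℤ) * (m₀ : ℤ) := by
    have h1 : (p : ℤ) * (r : ℤ) = (p : ℤ) * (a' * ((p - 1 : ℕ) : ℤ) * (m₀ : ℤ)) := by
      have := hexp
      push_cast at this ⊢
      linarith [this]
    exact mul_left_cancel₀ hpZ.ne' h1
  have hrle : (r : ℤ) ≤ ((p - 1 : ℕ) : ℤ) := by exact_mod_cast hrp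
  have ha'eq : a' = 1 := by
    by_contra hne1
    have h2 : 2 ≤ a' := by omega
    have h3 : ((p - 1 : ℕ) : ℤ) ≤ ((p - 1 : ℕ) : ℤ) * (m₀ : ℤ) :=
      le_mul_of_one_le_right (by omega) hm₀Z
    have h4 : 2 * (((p - 1 : ℕ) : ℤ) * (m₀ : ℤ)) ≤ a' * (((p - 1 : ℕ) : ℤ) * (m₀ : ℤ)) :=
      mul_le_mul_of_nonneg_right h2 (by positivity)
    have h5 : (r : ℤ) = a' * (((p - 1 : ℕ) : ℤ) * (m₀ : ℤ)) := by rw [hrZ]; ring
    linarith
  subst ha'eq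
  have hvlam' : A.valuation lam = A.valuation ϖ ^ p := by
    rw [hvlam, mul_one, zpow_natCast]
  have he_abs : A.valuation (p : L) = A.valuation ϖ ^ (p * (p - 1)) := by
    rw [← hlam, hvlam', pow_mul]
  -- Step G
  have hG : ∀ a ∈ K1, A.valuation a < 1 → A.valuation a ≤ A.valuation lam := by
    intro a haK hav
    by_cases ha0 : a = 0
    · rw [ha0, map_zero]; exact zero_le
    obtain ⟨j, β, hβK, hβ, hj⟩ := hunif a (h1' haK) ha0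
    have hpj : (p : ℤ) ∣ j := hdvd a (h1' haK) ha0 (hσ1 a haK) j β hβ hβK hj
    have hj1 : 1 ≤ j :=
      one_le_of_nonunit A hϖ0 hϖ hβ (by rw [← hj]; exact (A.mem_nonunits_iff).mpr hav)
    have hjp : (p : ℤ) ≤ j := Int.le_of_dvd (by omega) hpj
    rw [hvlam', hj, map_mul, hβ, mul_one, map_zpow₀, ← zpow_natCast]
    exact zpow_le_zpow_right_of_le_one₀ hvϖ0 hvϖ.le hjp
  exact ⟨ϖ, s, α, hϖK, hϖ0, hvϖ, hunif, hs, hαK, hα, hσϖ, hint, hvlam', he_abs, hG, hdvd⟩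

end Frame

end Fermat.Agent.S44.Loc.FrameAbs
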