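/-
PROJECT P (S44), brick [LOC], Loc/Frame (helper9; abstract halves: helper13 `Loc/FrameAbs`,
helper9 `Val/FixNorm`): THE WILD FRAME OF A POINT.

`A` a valuation subring of `ℚ̄` over `p`, `I` its inertia group, `I1 := I ⊓ ker ω` (`ω` the mod `p`
cyclotomic character), `x` a point of an abelian group `J` with `Gal(ℚ̄/ℚ)`-action such that
`τ • x - x` lies in a line `Lx` (`Nat.card Lx = p`) fixed pointwise by `I1`, for every `τ ∈ I1`;
`σ ∈ I1` with `σ • x ≠ x`; `θ ∈ ℚ̄` whose stabiliser fixes `x` (a primitive element of a level of `x`).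

`nonempty_wildDatum` : a `Core.Break.WildDatum A σ p I1 (stab x)`: the fixed field `K'` of
`stab x = {τ ∈ I1 | τ • x = x}` is discretely valued with a uniformiser `ϖ`,
`p = ϖ^(p(p-1)) * unit`, `σ ϖ = ϖ (1 + α ϖ^s)`, `σ = id` on `(A ∩ K') / ϖ^(s+1)`, and the fixed field
`K1` of `I1` has uniformiser `1 - ζ = ϖ^p * unit`.
-/
import Fermat.Agent.S44.Val.FixNorm
import Fermat.Agent.S44.Core.Break
import Fermat.Agent.S44.Loc.FrameAbs
import Fermat.Agent.S18.C.SmallDVR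
import Fermat.Agent.S56.Ord.OmegaRam
import Fermat.Agent.S05.LocalVal
import Fermat.Agent.S14.FieldDict
import Fermat.Agent.S15.P.CycAct
import Fermat.Agent.S30.Arith.Smooth

set_option autoImplicit false

noncomputable section

namespace Fermat.Agent.S44.Loc.Frame

open Fermat.Agent.S44.Core.Break

local notation "Qbar" => AlgebraicClosure ℚ
local notation "GQ" => (AlgebraicClosure ℚ ≃ₐ[ℚ] AlgebraicClosure ℚ)

/-! ### The groups -/

section Groups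

variable (p : ℕ) [hp : Fact p.Prime] (A : ValuationSubring Qbar)

/-- the kernel of the mod `p` cyclotomic character on the inertia group of `A` -/
def I1 : Subgroup GQ := A.inertiaSubgroupIn ℚ ⊓ (ExtCitation.cycloChar p).ker

variable {p A}

theorem mem_I1_iff {τ : GQ} :
    τ ∈ I1 p A ↔ τ ∈ A.inertiaSubgroupIn ℚ ∧ ExtCitation.cycloChar p τ = 1 := by
  rw [I1, Subgroup.mem_inf, MonoidHom.mem_ker]

theorem I1_le : I1 p A ≤ A.inertiaSubgroupIn ℚ := inf_le_left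

theorem mem_I1_iff_apply {ζ : Qbar} (hζ : IsPrimitiveRoot ζ p) {τ : GQ} :
    τ ∈ I1 p A ↔ τ ∈ A.inertiaSubgroupIn ℚ ∧ τ ζ = ζ := by
  rw [mem_I1_iff, ← Fermat.Agent.S14.FieldDict.mem_GK_iff_apply hζ τ]
  rfl

/-- `I1` is normal in the inertia group -/
theorem conj_mem_I1 {τ h : GQ} (hτ : τ ∈ A.inertiaSubgroupIn ℚ) (hh : h ∈ I1 p A) :
    τ⁻¹ * h * τ ∈ I1 p A := by
  rw [mem_I1_iff] at hh ⊢
  refine ⟨mul_mem (mul_mem (inv_mem hτ) hh.1) hτ, ?_⟩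
  rw [map_mul, map_mul, hh.2, mul_one, map_inv, inv_mul_cancel]

/-- in terms of the exponent `cycExp p 1` of main -/
theorem mem_I1_iff_cycExp {τ : GQ} :
    τ ∈ I1 p A ↔ τ ∈ A.inertiaSubgroupIn ℚ ∧ Fermat.Agent.S15.P.CycAct.cycExp p 1 τ = 1 := by
  have hp1 : 1 < p := hp.out.one_lt
  have : Fact (1 < p) := ⟨hp1⟩
  have : NeZero (p ^ 1) := ⟨pow_ne_zero 1 hp.out.ne_zero⟩
  rw [mem_I1_iff]
  refine and_congr_right fun _ => ?_
  have hnat := Fermat.Agent.S15.P.CycAct.natCast_cycExp p (k := 1) one_pos τ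
  constructor
  · intro h
    rw [h, Units.val_one] at hnat
    have hlt : Fermat.Agent.S15.P.CycAct.cycExp p 1 τ < p := by
      have := ZMod.val_lt (((Fermat.Agent.S30.Algebra.Cyclotomic.cyc p τ : ℤ_[p]ˣ) : ℤ_[p]).toZModPow 1)
      exact lt_of_lt_of_eq this (pow_one p)
    have h1 : ((Fermat.Agent.S15.P.CycAct.cycExp p 1 τ : ℕ) : ZMod p) = ((1 : ℕ) : ZMod p) := by
      rw [hnat, Nat.cast_one]
    rw [ZMod.natCast_eq_natCast_iff, Nat.ModEq, Nat.mod_eq_of_lt hlt, Nat.mod_eq_of_lt hp1] at h1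
    exact h1
  · intro h
    rw [h, Nat.cast_one] at hnat
    exact Units.ext hnat.symm

end Groups

/-! ### Fixed fields -/

section Fix

/-- the fixed field of a subgroup of `Gal(ℚ̄/ℚ)`, as a subfield -/
def fixF (S : Subgroup GQ) : Subfield Qbar := (IntermediateField.fixedField S).toSubfield

theorem mem_fixF {S : Subgroup GQ} {c : Qbar} : c ∈ fixF S ↔ ∀ τ ∈ S, τ c = c := by
  rw [fixF, IntermediateField.mem_toSubfield, IntermediateField.mem_fixedField_iff]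

theorem fixF_anti {S T : Subgroup GQ} (h : S ≤ T) : fixF T ≤ fixF S := fun _ hc =>
  mem_fixF.2 fun τ hτ => mem_fixF.1 hc τ (h hτ)

/-- the ring automorphism underlying a Galois element: its powers -/
theorem coe_pow_apply (τ : GQ) (k : ℕ) (a : Qbar) :
    (((τ : Qbar ≃+* Qbar)) ^ k) a = (τ ^ k) a := by
  induction k generalizing a with
  | zero => rfl
  | succ k ih =>
    rw [pow_succ', pow_succ', RingAut.mul_apply, AlgEquiv.mul_apply, ih]
    rfl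

end Fix

/-! ### The tame generator -/

section Tame

variable (p : ℕ) [hp : Fact p.Prime] (A : ValuationSubring Qbar)

/-- the image of the inertia group under the mod `p` cyclotomic character is cyclic: a generator
`τ₀` of `I / I1` and its order `r ≤ p - 1` -/
theorem exists_tame_generator :
    ∃ (τ₀ : GQ) (r : ℕ), τ₀ ∈ A.inertiaSubgroupIn ℚ ∧ 1 ≤ r ∧ r ≤ p - 1 ∧ τ₀ ^ r ∈ I1 p A ∧
      ∀ τ ∈ A.inertiaSubgroupIn ℚ, ∃ k : ℕ, (τ₀ ^ k)⁻¹ * τ ∈ I1 p A := by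
  set χ := ExtCitation.cycloChar p with hχ
  set S : Subgroup (ZMod p)ˣ := (A.inertiaSubgroupIn ℚ).map χ with hS
  obtain ⟨⟨g, hg⟩, hgen⟩ := IsCyclic.exists_generator (α := ↥S)
  obtain ⟨τ₀, hτ₀, rfl⟩ := (Subgroup.mem_map).1 hg
  have hr1 : 1 ≤ orderOf (χ τ₀) := orderOf_pos _
  have hr2 : orderOf (χ τ₀) ≤ p - 1 := by
    have := orderOf_le_card_univ (x := χ τ₀)
    rwa [ZMod.card_units] at this
  refine ⟨τ₀, orderOf (χ τ₀), hτ₀, hr1, hr2, ?_, ?_⟩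
  · rw [mem_I1_iff]
    exact ⟨pow_mem hτ₀ _, by rw [map_pow, ← hχ, pow_orderOf_eq_one]⟩
  · intro τ hτ
    have hmem : χ τ ∈ S := Subgroup.mem_map_of_mem χ hτ
    obtain ⟨n, hn⟩ := Subgroup.mem_zpowers_iff.1 (hgen ⟨χ τ, hmem⟩)
    have hn' : χ τ₀ ^ n = χ τ := by
      have := congrArg (fun z : ↥S => (z : (ZMod p)ˣ)) hn
      simpa using this
    have hr0 : (0 : ℤ) < (orderOf (χ τ₀) : ℤ) := by exact_mod_cast hr1
    have hnn : 0 ≤ n % (orderOf (χ τ₀) : ℤ) := Int.emod_nonneg _ hr0.ne'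
    refine ⟨(n % (orderOf (χ τ₀) : ℤ)).toNat, ?_⟩
    rw [mem_I1_iff]
    refine ⟨mul_mem (inv_mem (pow_mem hτ₀ _)) hτ, ?_⟩
    rw [map_mul, map_inv, map_pow, ← hχ, ← hn', ← zpow_natCast, Int.toNat_of_nonneg hnn,
      zpow_mod_orderOf, inv_mul_cancel]

end Tame

/-! ### The cocycle of a point -/

section Cocycle

variable {p : ℕ} [hp : Fact p.Prime] {A : ValuationSubring Qbar}
variable {J : Type*} [AddCommGroup J] [DistribMulAction GQ J]

variable (p A) in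
/-- the stabiliser of `x` in `I1` -/
def stab (x : J) : Subgroup GQ := I1 p A ⊓ MulAction.stabilizer GQ x

theorem mem_stab_iff {x : J} {τ : GQ} : τ ∈ stab p A x ↔ τ ∈ I1 p A ∧ τ • x = x := by
  rw [stab, Subgroup.mem_inf, MulAction.mem_stabilizer_iff]

theorem stab_le (x : J) : stab p A x ≤ I1 p A := inf_le_left

variable {x : J} {Lx : AddSubgroup J}

theorem mul_smul_sub (hLfix : ∀ τ ∈ I1 p A, ∀ z ∈ Lx, τ • z = z)
    (hx : ∀ τ ∈ I1 p A, τ • x - x ∈ Lx) {τ₁ τ₂ : GQ} (h₁ : τ₁ ∈ I1 p A) (h₂ : τ₂ ∈ I1 p A) :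
    (τ₁ * τ₂) • x - x = (τ₁ • x - x) + (τ₂ • x - x) := by
  have h := hLfix τ₁ h₁ _ (hx τ₂ h₂)
  rw [smul_sub] at h
  have h' : τ₁ • τ₂ • x = (τ₂ • x - x) + τ₁ • x := sub_eq_iff_eq_add.1 h
  rw [mul_smul, h']
  abel

theorem pow_smul_sub (hLfix : ∀ τ ∈ I1 p A, ∀ z ∈ Lx, τ • z = z)
    (hx : ∀ τ ∈ I1 p A, τ • x - x ∈ Lx) {σ : GQ} (hσ : σ ∈ I1 p A) (k : ℕ) :
    (σ ^ k) • x - x = k • (σ • x - x) := by
  induction k with
  | zero => rw [pow_zero, one_smul, sub_self, zero_smul]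
  | succ k ih =>
    rw [pow_succ, mul_smul_sub hLfix hx (pow_mem hσ k) hσ, ih, succ_nsmul]

theorem inv_smul_sub (hLfix : ∀ τ ∈ I1 p A, ∀ z ∈ Lx, τ • z = z)
    (hx : ∀ τ ∈ I1 p A, τ • x - x ∈ Lx) {τ : GQ} (hτ : τ ∈ I1 p A) :
    τ⁻¹ • x - x = -(τ • x - x) := by
  have h := mul_smul_sub hLfix hx (inv_mem hτ) hτ
  rw [inv_mul_cancel, one_smul, sub_self] at h
  exact eq_neg_of_add_eq_zero_left h.symm

/-- the stabiliser is normal in `I1` -/
theorem conj_mem_stab (hLfix : ∀ τ ∈ I1 p A, ∀ z ∈ Lx, τ • z = z)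
    (hx : ∀ τ ∈ I1 p A, τ • x - x ∈ Lx) {τ h : GQ} (hτ : τ ∈ I1 p A) (hh : h ∈ stab p A x) :
    τ⁻¹ * h * τ ∈ stab p A x := by
  rw [mem_stab_iff] at hh ⊢
  have h1 : τ⁻¹ * h ∈ I1 p A := mul_mem (inv_mem hτ) hh.1
  refine ⟨mul_mem h1 hτ, sub_eq_zero.1 ?_⟩
  rw [mul_smul_sub hLfix hx h1 hτ, mul_smul_sub hLfix hx (inv_mem hτ) hh.1,
    inv_smul_sub hLfix hx hτ, hh.2, sub_self, add_zero, neg_add_cancel]

/-- `σ ^ p` stabilises `x` -/
theorem pow_mem_stab (hLfix : ∀ τ ∈ I1 p A, ∀ z ∈ Lx, τ • z = z)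
    (hx : ∀ τ ∈ I1 p A, τ • x - x ∈ Lx) (hcard : Nat.card Lx = p) {σ : GQ} (hσ : σ ∈ I1 p A) :
    σ ^ p ∈ stab p A x := by
  rw [mem_stab_iff]
  refine ⟨pow_mem hσ p, sub_eq_zero.1 ?_⟩
  rw [pow_smul_sub hLfix hx hσ]
  have h := card_nsmul_eq_zero' (G := ↥Lx) (x := ⟨σ • x - x, hx σ hσ⟩)
  rw [hcard] at h
  exact congrArg (fun z : ↥Lx => (z : J)) h

/-- `I1` is generated by `σ` and the stabiliser -/
theorem exists_pow_mul_mem_stab (hLfix : ∀ τ ∈ I1 p A, ∀ z ∈ Lx, τ • z = z)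
    (hx : ∀ τ ∈ I1 p A, τ • x - x ∈ Lx) (hcard : Nat.card Lx = p) {σ : GQ} (hσ : σ ∈ I1 p A)
    (hσx : σ • x ≠ x) {τ : GQ} (hτ : τ ∈ I1 p A) : ∃ k : ℕ, σ ^ k * τ ∈ stab p A x := by
  set d : ↥Lx := ⟨σ • x - x, hx σ hσ⟩ with hd
  have hd0 : d ≠ 0 := by
    intro h
    have := congrArg (fun z : ↥Lx => (z : J)) h
    exact hσx (sub_eq_zero.1 this)
  have htop := zmultiples_eq_top_of_prime_card hcard hd0
  have hmem : (⟨τ • x - x, hx τ hτ⟩ : ↥Lx) ∈ AddSubgroup.zmultiples d := by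
    rw [htop]; exact AddSubgroup.mem_top _
  obtain ⟨m, hm⟩ := AddSubgroup.mem_zmultiples_iff.1 hmem
  have hm' : m • (σ • x - x) = τ • x - x := by
    have := congrArg (fun z : ↥Lx => (z : J)) hm
    simpa [hd] using this
  have hp0 : (0 : ℤ) < (p : ℤ) := by exact_mod_cast hp.out.pos
  have hnn : 0 ≤ (-m) % (p : ℤ) := Int.emod_nonneg _ hp0.ne'
  refine ⟨((-m) % (p : ℤ)).toNat, ?_⟩
  rw [mem_stab_iff]
  refine ⟨mul_mem (pow_mem hσ _) hτ, sub_eq_zero.1 ?_⟩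
  rw [mul_smul_sub hLfix hx (pow_mem hσ _) hτ, pow_smul_sub hLfix hx hσ, ← hm',
    ← natCast_zsmul, Int.toNat_of_nonneg hnn, ← add_zsmul]
  have hpd : (p : ℤ) • (σ • x - x) = 0 := by
    have h := card_nsmul_eq_zero' (G := ↥Lx) (x := d)
    rw [hcard] at h
    have := congrArg (fun z : ↥Lx => (z : J)) h
    rw [natCast_zsmul]
    simpa [hd] using this
  have hdvd : (-m) % (p : ℤ) + m = (-((-m) / (p : ℤ))) * (p : ℤ) := by
    have := Int.emod_add_mul_ediv (-m) (p : ℤ)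
    linarith
  rw [hdvd, mul_zsmul, hpd, smul_zero]

end Cocycle

/-! ### The wild frame -/

section Main

variable {p : ℕ} [hp : Fact p.Prime] {A : ValuationSubring Qbar}

/-- every element of `A` is congruent to an inertia-invariant element of `A` -/
theorem exists_lift (hA : A.LiesOverPrime p) {b : Qbar} (hb : b ∈ A) :
    ∃ b₀ ∈ fixF (A.inertiaSubgroupIn ℚ), b₀ ∈ A ∧ b - b₀ ∈ A.nonunits := by
  obtain ⟨w, hw⟩ := Fermat.Agent.S18.C.SmallDVR.exists_residue_toA_eq hA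
    (IsLocalRing.residue A ⟨b, hb⟩)
  refine ⟨((w : Fermat.Agent.S18.C.SmallDVR.K0 A) : Qbar), ?_, Fermat.Agent.S18.C.SmallDVR.coe_mem A w, ?_⟩
  · rw [mem_fixF]
    exact (Fermat.Agent.S18.C.SmallDVR.mem_K0_iff A).1 (w : Fermat.Agent.S18.C.SmallDVR.K0 A).2
  · have h1 : (⟨b, hb⟩ : A) - Fermat.Agent.S18.C.SmallDVR.toA A w ∈ IsLocalRing.maximalIdeal A := by
      rw [← Ideal.Quotient.eq]
      exact hw.symm
    exact (A.coe_mem_nonunits_iff).mpr h1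

/-- **The wild frame of a point.** -/
theorem nonempty_wildDatum (hA : A.LiesOverPrime p)
    {J : Type*} [AddCommGroup J] [DistribMulAction GQ J] {x : J} {Lx : AddSubgroup J}
    (hcard : Nat.card Lx = p) (hLfix : ∀ τ ∈ I1 p A, ∀ z ∈ Lx, τ • z = z)
    (hx : ∀ τ ∈ I1 p A, τ • x - x ∈ Lx) {σ : GQ} (hσ : σ ∈ I1 p A) (hσx : σ • x ≠ x)
    {θ : Qbar} (hθ : ∀ τ : GQ, τ θ = θ → τ • x = x) :
    Nonempty (WildDatum A (σ : Qbar ≃+* Qbar) p (I1 p A) (stab p A x)) := by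
  classical
  have hpr : p.Prime := hp.out
  have : NeZero (p : ℚ) := ⟨Nat.cast_ne_zero.2 hpr.ne_zero⟩
  obtain ⟨ζ, hζ⟩ := HasEnoughRootsOfUnity.exists_primitiveRoot Qbar p
  set I := A.inertiaSubgroupIn ℚ with hI
  have hσI : σ ∈ I := I1_le hσ
  -- valuation invariance
  have hv : ∀ τ ∈ I, ∀ a : Qbar, A.valuation ((τ : Qbar ≃+* Qbar) a) = A.valuation a :=
    fun τ hτ a => Fermat.Agent.S05.LocalVal.valuation_map_eq_of_mem_inertia hτ a
  have hp0 : ((p : ℕ) : Qbar) ≠ 0 := Nat.cast_ne_zero.2 hpr.ne_zero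
  have hpA : A.valuation ((p : ℕ) : Qbar) < 1 :=
    Fermat.Agent.S13.Local.Ram.valuation_natCast_lt_one hA
  -- the three fields
  set K0 : Subfield Qbar := fixF I with hK0
  set K1 : Subfield Qbar := fixF (I1 p A) with hK1
  set K' : Subfield Qbar := fixF (stab p A x) with hK'
  have h01 : K0 ≤ K1 := fixF_anti I1_le
  have h1' : K1 ≤ K' := fixF_anti (stab_le x)
  have hdisc0 : ∀ c ∈ K0, c ≠ 0 → ∃ m : ℤ, A.valuation c = A.valuation ((p : ℕ) : Qbar) ^ m :=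
    fun c hc hc0 => Fermat.Agent.S13.Local.Ram.exists_zpow_valuation_eq' hpr hA hc0
      (mem_fixF.1 hc)
  -- the tame step
  obtain ⟨τ₀, r, hτ₀, hr1, hrp, hτ₀r, hgen⟩ := exists_tame_generator p A
  have hτ₀K : ∀ c ∈ K1, (τ₀ : Qbar ≃+* Qbar) c ∈ K1 := by
    intro c hc
    rw [hK1, mem_fixF] at hc ⊢
    intro h hh
    have h1 := hc _ (conj_mem_I1 hτ₀ hh)
    have h2 : h (τ₀ c) = τ₀ ((τ₀⁻¹ * h * τ₀) c) := by
      rw [AlgEquiv.mul_apply, AlgEquiv.mul_apply]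
      exact (AlgEquiv.apply_symm_apply τ₀ _).symm
    show h (τ₀ c) = τ₀ c
    rw [h2, h1]
  have hτ₀fix : ∀ c ∈ K1, (τ₀ : Qbar ≃+* Qbar) c = c → c ∈ K0 := by
    intro c hc hfix
    rw [hK0, mem_fixF]
    intro τ hτ
    obtain ⟨k, hk⟩ := hgen τ hτ
    have h1 : ((τ₀ ^ k)⁻¹ * τ) c = c := (mem_fixF.1 hc) _ hk
    have h2 : ∀ k : ℕ, (τ₀ ^ k) c = c := by
      intro k
      induction k with
      | zero => rfl
      | succ k ih => rw [pow_succ', AlgEquiv.mul_apply, ih]; exact hfix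
    have h3 : τ c = (τ₀ ^ k) (((τ₀ ^ k)⁻¹ * τ) c) := by
      rw [AlgEquiv.mul_apply]
      exact (AlgEquiv.apply_symm_apply (τ₀ ^ k) _).symm
    rw [h3, h1, h2]
  have hτ₀p : ∀ c ∈ K1, (((τ₀ : Qbar ≃+* Qbar)) ^ r) c = c := by
    intro c hc
    rw [coe_pow_apply]
    exact (mem_fixF.1 hc) _ hτ₀r
  have hN1 : ∀ c ∈ K1, c ≠ 0 → ∃ d ∈ K0, d ≠ 0 ∧ A.valuation d = A.valuation c ^ r := by
    intro c hc hc0
    obtain ⟨N, hN, hvN⟩ := Fermat.Agent.S44.Val.FixNorm.exists_norm A.valuation K0 K1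
      (τ₀ : Qbar ≃+* Qbar) (hv τ₀ hτ₀) hτ₀K hτ₀fix r hτ₀p hc
    refine ⟨N, hN, ?_, hvN⟩
    rintro rfl
    rw [map_zero] at hvN
    exact pow_ne_zero r ((Valuation.ne_zero_iff _).2 hc0) hvN.symm
  -- the wild step
  have hσK : ∀ c ∈ K', (σ : Qbar ≃+* Qbar) c ∈ K' := by
    intro c hc
    rw [hK', mem_fixF] at hc ⊢
    intro h hh
    have h1 := hc _ (conj_mem_stab hLfix hx hσ hh)
    have h2 : h (σ c) = σ ((σ⁻¹ * h * σ) c) := by
      rw [AlgEquiv.mul_apply, AlgEquiv.mul_apply]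
      exact (AlgEquiv.apply_symm_apply σ _).symm
    show h (σ c) = σ c
    rw [h2, h1]
  have hσ1 : ∀ c ∈ K1, (σ : Qbar ≃+* Qbar) c = c := fun c hc => (mem_fixF.1 hc) σ hσ
  have hσfix : ∀ c ∈ K', (σ : Qbar ≃+* Qbar) c = c → c ∈ K1 := by
    intro c hc hfix
    rw [hK1, mem_fixF]
    intro τ hτ
    obtain ⟨k, hk⟩ := exists_pow_mul_mem_stab hLfix hx hcard hσ hσx hτ
    have h1 : (σ ^ k * τ) c = c := (mem_fixF.1 hc) _ hk
    have h2 : ∀ k : ℕ, (σ ^ k) c = c := by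
      intro k
      induction k with
      | zero => rfl
      | succ k ih => rw [pow_succ', AlgEquiv.mul_apply, ih]; exact hfix
    rw [AlgEquiv.mul_apply] at h1
    exact (σ ^ k).injective (h1.trans (h2 k).symm)
  have hσpow : ∀ c ∈ K', (((σ : Qbar ≃+* Qbar)) ^ p) c = c := by
    intro c hc
    rw [coe_pow_apply]
    exact (mem_fixF.1 hc) _ (pow_mem_stab hLfix hx hcard hσ)
  have hσp : ∀ c ∈ K', (⇑(σ : Qbar ≃+* Qbar))^[p] c = c := by
    intro c hc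
    rw [← Fermat.Agent.S44.Val.FixNorm.pow_apply_eq_iterate]
    exact hσpow c hc
  have hNσ : ∀ c ∈ K', ∏ i ∈ Finset.range p, (⇑(σ : Qbar ≃+* Qbar))^[i] c ∈ K1 := by
    intro c hc
    have := Fermat.Agent.S44.Val.FixNorm.norm_mem K1 K' (σ : Qbar ≃+* Qbar) hσK hσfix p hσpow hc
    simp_rw [Fermat.Agent.S44.Val.FixNorm.pow_apply_eq_iterate] at this
    exact this
  -- `lam = 1 - ζ`
  have hlamK : 1 - ζ ∈ K1 := by
    rw [hK1, mem_fixF]
    intro τ hτ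
    rw [map_sub, map_one, ((mem_I1_iff_apply hζ).1 hτ).2]
  have hlam : A.valuation (1 - ζ) ^ (p - 1) = A.valuation ((p : ℕ) : Qbar) :=
    Fermat.Agent.S56.Ord.OmegaRam.valuation_one_sub_pow_pred A hpr hζ
  have hin : ∀ a ∈ A, (σ : Qbar ≃+* Qbar) a - a ∈ A.nonunits := fun a ha =>
    Fermat.Agent.S05.LocalVal.map_sub_mem_nonunits_of_mem_inertia hσI ha
  have hres : ∀ b ∈ K', b ∈ A → ∃ b₀ ∈ K1, b₀ ∈ A ∧ b - b₀ ∈ A.nonunits := by
    intro b _ hb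
    obtain ⟨b₀, h0, hA0, hsub⟩ := exists_lift hA hb
    exact ⟨b₀, h01 h0, hA0, hsub⟩
  -- an element of `K'` moved by `σ`
  obtain ⟨θ', hθ'K, hθ'σ⟩ : ∃ θ' ∈ K', (σ : Qbar ≃+* Qbar) θ' ≠ θ' := by
    have hfin : {c : Qbar | ∃ h ∈ stab p A x, c = h • θ}.Finite := by
      have hroots : ((minpoly ℚ θ).rootSet Qbar).Finite := Polynomial.rootSet_finite _ _
      refine hroots.subset ?_
      rintro c ⟨h, _, rfl⟩
      have halg : IsIntegral ℚ θ := Algebra.IsIntegral.isIntegral θ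
      rw [Polynomial.mem_rootSet_of_ne (minpoly.ne_zero halg)]
      have h1 := minpoly.aeval ℚ (h θ)
      rwa [minpoly.algEquiv_eq] at h1
    have hσθ : ∀ h ∈ stab p A x, σ • θ ≠ h • θ := by
      intro h hh heq
      have h1 : (h⁻¹ * σ) θ = θ := by
        rw [AlgEquiv.mul_apply]
        have : σ θ = h θ := heq
        rw [this]
        exact AlgEquiv.symm_apply_apply h θ
      have h2 := hθ _ h1
      rw [mul_smul] at h2
      have h3 : σ • x = h • x := inv_smul_eq_iff.1 h2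
      exact hσx (h3.trans (mem_stab_iff.1 hh).2)
    obtain ⟨c, hcH, hcσ⟩ := Fermat.Agent.S44.Val.FixNorm.exists_fixed_not_fixed
      (stab p A x) σ θ hfin hσθ
    exact ⟨c, mem_fixF.2 hcH, hcσ⟩
  obtain ⟨ϖ, s, α, hϖK, hϖ0, hvϖ, hunif, hs, _, hα, hσϖ, hint, hvlam, he, hG, _⟩ :=
    Fermat.Agent.S44.Loc.FrameAbs.exists_frame A (σ : Qbar ≃+* Qbar) hpr hp0 hpA (hv σ hσI) hin
      K0 K1 K' h1' hdisc0 hr1 hrp hN1 hNσ hlamK hlam hσK hσ1 hσp hres hθ'K hθ'σ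
  have hvϖ0 : A.valuation ϖ ≠ 0 := (Valuation.ne_zero_iff _).2 hϖ0
  have hlam0 : (1 - ζ : Qbar) ≠ 0 := sub_ne_zero.2 (hζ.ne_one hpr.one_lt).symm
  refine ⟨{
    K' := K'
    ϖ := ϖ
    ϖ_mem := hϖK
    ϖ_ne := hϖ0
    ϖ_non := (A.mem_nonunits_iff).2 hvϖ
    s := s
    s_pos := hs
    α := α
    α_unit := hα
    σ_A := fun a => Fermat.Agent.S05.LocalVal.map_mem_iff_of_mem_decomposition
      (Fermat.Agent.S05.LocalVal.mem_decomposition_of_mem_inertia hσI)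
    exists_pow := hunif
    σ_ϖ := ⟨0, A.zero_mem, by rw [hσϖ]; ring⟩
    σ_int := fun β hβ hβA => by
      obtain ⟨a, ha, _, h⟩ := hint β hβ hβA
      exact ⟨a, ha, h⟩
    e_abs := ⟨(p : Qbar) / ϖ ^ (p * (p - 1)), by
      rw [UnitA, map_div₀, map_pow, he]
      exact div_self (pow_ne_zero _ hvϖ0), by
      field_simp⟩
    K1 := K1
    K1_le := h1'
    π1 := 1 - ζ
    π1_mem := hlamK
    π1_eq := ⟨(1 - ζ) / ϖ ^ p, by
      rw [UnitA, map_div₀, map_pow, hvlam]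
      exact div_self (pow_ne_zero _ hvϖ0), by
      field_simp⟩
    π1_div := fun a ha han => by
      rw [← A.valuation_le_one_iff, map_div₀]
      exact div_le_one_of_le₀ (hG a ha ((A.mem_nonunits_iff).1 han)) zero_le
    fixed1_iff := fun c => mem_fixF
    fixed_iff := fun c => mem_fixF }⟩

end Main

/-! ### The instance `J = J₀(N)(ℚ̄)` -/

section JZero

open ModularCurve

variable {p : ℕ} [hp : Fact p.Prime] {A : ValuationSubring Qbar}

/-- a primitive element of a level of `x`: its stabiliser fixes `x` -/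
theorem exists_theta {N : ℕ} [NeZero N] (x : JZero N) :
    ∃ θ : Qbar, ∀ τ : GQ, τ θ = θ → τ • x = x := by
  obtain ⟨E, hE, hfix⟩ := Fermat.Agent.S30.Arith.Smooth.exists_finite_fixing N x
  have : FiniteDimensional ℚ E := hE
  obtain ⟨α, hα⟩ := Field.exists_primitive_element ℚ E
  have hint : IsIntegral ℚ α := Algebra.IsIntegral.isIntegral α
  have hadj : Algebra.adjoin ℚ {α} = ⊤ := by
    rw [← IntermediateField.adjoin_simple_toSubalgebra_of_isAlgebraic hint.isAlgebraic, hα,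
      IntermediateField.top_toSubalgebra]
  refine ⟨(α : Qbar), fun τ hτ => hfix τ fun a ha => ?_⟩
  have hext : ((τ : Qbar →ₐ[ℚ] Qbar).comp E.val) = E.val := by
    refine AlgHom.ext_of_adjoin_eq_top hadj ?_
    intro b hb
    rw [Set.mem_singleton_iff] at hb
    subst hb
    exact hτ
  exact congrArg (fun φ : E →ₐ[ℚ] Qbar => φ ⟨a, ha⟩) hext

/-- **The wild frame of a point of `J₀(N)(ℚ̄)`.** -/
theorem nonempty_wildDatum_JZero (hA : A.LiesOverPrime p) {N : ℕ} [NeZero N] {x : JZero N}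
    {Lx : AddSubgroup (JZero N)} (hcard : Nat.card Lx = p)
    (hLfix : ∀ τ ∈ I1 p A, ∀ z ∈ Lx, τ • z = z) (hx : ∀ τ ∈ I1 p A, τ • x - x ∈ Lx)
    {σ : GQ} (hσ : σ ∈ I1 p A) (hσx : σ • x ≠ x) :
    Nonempty (WildDatum A (σ : Qbar ≃+* Qbar) p (I1 p A) (stab p A x)) := by
  obtain ⟨θ, hθ⟩ := exists_theta x
  exact nonempty_wildDatum hA hcard hLfix hx hσ hσx hθ

end JZero

end Fermat.Agent.S44.Loc.Frame
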