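import Mathlib
import Fermat.Agent.S05.Kernel
import Fermat.Agent.S05.Core

/-!
# PROJECT P (S44), brick [G2]: depth in the kernel of reduction (Legendre frame)

Frame of `Fermat.Agent.S05`: `D : LegData K G e₁ e₂` (abstract points of `Y² = X (X - e₁) (X - e₂)`),
`A : ValuationSubring K`, `tau D P = X P / Y P` the parameter at the origin, `D.K1 A` the kernel of
reduction, `D.InN A` the node region.

* `Deep D A c P` : `P` lies in the kernel of reduction and `v (tau P) ≤ v c` ("depth at least
  `v c`").  By `Kernel.add_aux` this is a subgroup (`Deep.add`, `Deep.neg`, `Deep.sub`).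
* `valuation_natCast_le_pow` : **exact depth of the `p`-torsion of the kernel of reduction**.  Given
  the valuation-product identity `v (∏_{T ∈ K1[p], T ≠ 0} tau T) = v p` (on main for the Frey
  curve: `S12/V3/FreyK1.valuation_prod_tau_gen`), a non-zero `p`-torsion point `z` with
  `Deep D A c z` forces `v p ≤ v c ^ (p - 1)`.  No formal group, no logarithm.
* `deep_sub_of_inN` : **displacement at the node**.  If an inertia element `(σ, s)` moves the
  coordinates of a point `x` of the node region by relative amounts in `c A`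
  (`σ X = X (1 + c a)`, `σ Y = Y (1 + c b)`), then `s x - x` is deep: `Deep D A c (s x - x)`.
* `deep_sub_of_fixed_scalar` : the same when `X x = r · unit`, `σ r = r`, and `σ` moves the two
  units `X x / r`, `Y x / r` by at most `c`.
* `peu_of_inN`, `peu_of_fixed_scalar` : the combination: `s x ≠ x`, `p • x = 0` give
  `v p ≤ v c ^ (p - 1)`.
* `succ_le_of_uniformiser` : with `c = ϖ ^ (s + 1)` and `v p = v ϖ ^ (p (p - 1))`: `s + 1 ≤ p`.
-/

set_option autoImplicit false
set_option linter.unusedSectionVars false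

noncomputable section

namespace Fermat.Agent.S44.Loc.FormalDepth

open Fermat.Agent.S05 Fermat.Agent.S05.LegData Fermat.Agent.S05.Kernel

variable {K : Type*} [Field K] [CharZero K] {G : Type*} [AddCommGroup G] {e₁ e₂ : K}
  {D : LegData K G e₁ e₂} {A : ValuationSubring K}

/-! ### the depth filtration -/

/-- `P` lies in the kernel of reduction, at depth at least `v c`. -/
def Deep (D : LegData K G e₁ e₂) (A : ValuationSubring K) (c : K) (P : G) : Prop :=
  D.K1 A P ∧ A.valuation (tau D P) ≤ A.valuation c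

/-- the parameter of a point of the kernel of reduction is a non-unit -/
theorem valuation_tau_lt_one (hA1 : A.valuation e₁ ≤ 1) (hA2 : A.valuation e₂ ≤ 1) {P : G}
    (hK : D.K1 A P) : A.valuation (tau D P) < 1 := by
  by_cases hP : P = 0
  · subst hP
    rw [tau_zero, map_zero]
    exact zero_lt_one
  · exact (tau_facts hA1 hA2 hP hK).1

theorem Deep.zero (c : K) : Deep D A c 0 := by
  refine ⟨Or.inl rfl, ?_⟩
  rw [tau_zero, map_zero]
  exact zero_le

theorem Deep.neg {c : K} {P : G} (h : Deep D A c P) : Deep D A c (-P) := by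
  refine ⟨K1.neg h.1, ?_⟩
  rw [tau_neg, Valuation.map_neg]
  exact h.2

theorem Deep.add (hA1 : A.valuation e₁ ≤ 1) (hA2 : A.valuation e₂ ≤ 1) {c : K} {P Q : G}
    (hP : Deep D A c P) (hQ : Deep D A c Q) : Deep D A c (P + Q) := by
  obtain ⟨hK, c', hc', hrel⟩ := add_aux hA1 hA2 hP.1 hQ.1
  refine ⟨hK, ?_⟩
  have hτP := valuation_tau_lt_one hA1 hA2 hP.1
  have hτQ := valuation_tau_lt_one hA1 hA2 hQ.1
  have hu : A.valuation (1 + tau D P * tau D Q * c') = 1 := by
    apply A.valuation.map_one_add_of_lt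
    rw [map_mul, map_mul]
    calc A.valuation (tau D P) * A.valuation (tau D Q) * A.valuation c'
        ≤ A.valuation (tau D P) * A.valuation (tau D Q) * 1 := by gcongr
      _ = A.valuation (tau D P) * A.valuation (tau D Q) := mul_one _
      _ < 1 := mul_lt_one_of_nonneg_of_lt_one_left zero_le hτP hτQ.le
  have h1 := congrArg A.valuation hrel
  rw [map_mul, hu, mul_one] at h1
  rw [h1]
  exact le_trans (A.valuation.map_add _ _) (max_le hP.2 hQ.2)

theorem Deep.sub (hA1 : A.valuation e₁ ≤ 1) (hA2 : A.valuation e₂ ≤ 1) {c : K} {P Q : G}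
    (hP : Deep D A c P) (hQ : Deep D A c Q) : Deep D A c (P - Q) := by
  rw [sub_eq_add_neg]
  exact Deep.add hA1 hA2 hP hQ.neg

theorem Deep.mono {c c' : K} (h : A.valuation c ≤ A.valuation c') {P : G} (hP : Deep D A c P) :
    Deep D A c' P :=
  ⟨hP.1, le_trans hP.2 h⟩

/-- multiples by integers which are units of `A` have the same parameter valuation -/
theorem valuation_tau_nsmul (hA1 : A.valuation e₁ ≤ 1) (hA2 : A.valuation e₂ ≤ 1) {P : G}
    (hP0 : P ≠ 0) (hK : D.K1 A P) {j : ℕ} (hj : A.valuation (j : K) = 1) :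
    A.valuation (tau D (j • P)) = A.valuation (tau D P) := by
  obtain ⟨-, ε, hε, hrec⟩ := nsmul_aux hA1 hA2 hP0 hK j
  have hτ := valuation_tau_lt_one hA1 hA2 hK
  have hsmall : A.valuation (tau D P ^ 2 * ε) < A.valuation (j : K) := by
    rw [hj, map_mul, map_pow]
    calc A.valuation (tau D P) ^ 2 * A.valuation ε ≤ A.valuation (tau D P) ^ 2 * 1 := by gcongr
      _ = A.valuation (tau D P) ^ 2 := mul_one _
      _ < 1 := pow_lt_one₀ zero_le hτ two_ne_zero
  rw [hrec, map_mul, A.valuation.map_add_eq_of_lt_left hsmall, hj, mul_one]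

/-! ### exact depth of the `p`-torsion of the kernel of reduction -/

/-- an integer `0 < j < p` is a unit of a valuation ring in which `p` is a non-unit -/
theorem valuation_natCast_eq_one {p : ℕ} (hp : p.Prime) (hpA : A.valuation (p : K) < 1) {j : ℕ}
    (hj0 : 0 < j) (hjp : j < p) : A.valuation (j : K) = 1 := by
  have hle : A.valuation (j : K) ≤ 1 := (A.valuation_le_one_iff _).mpr (natCast_mem A j)
  refine le_antisymm hle ?_
  by_contra hlt
  rw [not_le] at hlt
  have hcop : IsCoprime (j : ℤ) (p : ℤ) := by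
    rw [Nat.isCoprime_iff_coprime]
    exact ((Nat.Prime.coprime_iff_not_dvd hp).mpr (Nat.not_dvd_of_pos_of_lt hj0 hjp)).symm
  obtain ⟨a, b, hab⟩ := hcop
  have h1 : ((a : K) * (j : K) + (b : K) * (p : K)) = 1 := by
    have := congrArg (fun z : ℤ => (z : K)) hab
    simpa using this
  have ha : A.valuation (a : K) ≤ 1 := (A.valuation_le_one_iff _).mpr (intCast_mem A a)
  have hb : A.valuation (b : K) ≤ 1 := (A.valuation_le_one_iff _).mpr (intCast_mem A b)
  have h2 : A.valuation ((a : K) * (j : K) + (b : K) * (p : K)) < 1 := by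
    refine lt_of_le_of_lt (A.valuation.map_add _ _) (max_lt ?_ ?_)
    · rw [map_mul]
      calc A.valuation (a : K) * A.valuation (j : K) ≤ 1 * A.valuation (j : K) := by gcongr
        _ < 1 := by rwa [one_mul]
    · rw [map_mul]
      calc A.valuation (b : K) * A.valuation (p : K) ≤ 1 * A.valuation (p : K) := by gcongr
        _ < 1 := by rwa [one_mul]
  rw [h1, map_one] at h2
  exact lt_irrefl _ h2

/-- **Exact depth of `K1[p]`**: from the valuation-product identity over the non-zero `p`-torsion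
of the kernel of reduction, a non-zero `p`-torsion point of depth `≥ v c` forces
`v p ≤ v c ^ (p - 1)`. -/
theorem valuation_natCast_le_pow (hA1 : A.valuation e₁ ≤ 1) (hA2 : A.valuation e₂ ≤ 1) {p : ℕ}
    (hp : p.Prime) (hpA : A.valuation (p : K) < 1) (Vs : Finset G)
    (hVs : ∀ T, T ∈ Vs ↔ p • T = 0 ∧ T ≠ 0) [DecidablePred fun T => D.K1 A T]
    (hprod : A.valuation (∏ T ∈ Vs.filter (fun T => D.K1 A T), tau D T) = A.valuation (p : K))
    {z : G} (hz : z ≠ 0) (hpz : p • z = 0) {c : K} (hdeep : Deep D A c z) :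
    A.valuation (p : K) ≤ A.valuation c ^ (p - 1) := by
  classical
  set S := Vs.filter (fun T => D.K1 A T) with hS
  -- the `p - 1` non-zero multiples of `z`
  set I := (Finset.range p).erase 0 with hI
  have hImem : ∀ j, j ∈ I ↔ 0 < j ∧ j < p := by
    intro j
    rw [hI, Finset.mem_erase, Finset.mem_range, Nat.pos_iff_ne_zero]
  have ho : addOrderOf z = p := by
    have : Fact p.Prime := ⟨hp⟩
    exact addOrderOf_eq_prime hpz hz
  have hne : ∀ j, 0 < j → j < p → j • z ≠ 0 := by
    intro j hj0 hjp h0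
    have hdvd : p ∣ j := by
      rw [← ho]
      exact addOrderOf_dvd_of_nsmul_eq_zero h0
    exact absurd (Nat.le_of_dvd hj0 hdvd) (not_le.mpr hjp)
  have hinj : Set.InjOn (fun j : ℕ => j • z) (I : Set ℕ) := by
    intro i hi j hj hij
    have hi' := (hImem i).mp hi
    have hj' := (hImem j).mp hj
    have h1 : i • z = j • z := hij
    rw [← ho] at hi' hj'
    exact nsmul_injOn_Iio_addOrderOf (Set.mem_Iio.mpr hi'.2) (Set.mem_Iio.mpr hj'.2) h1
  set T := I.image (fun j : ℕ => j • z) with hT
  have hTS : T ⊆ S := by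
    intro P hP
    rw [hT, Finset.mem_image] at hP
    obtain ⟨j, hj, rfl⟩ := hP
    obtain ⟨hj0, hjp⟩ := (hImem j).mp hj
    rw [hS, Finset.mem_filter, hVs]
    refine ⟨⟨?_, hne j hj0 hjp⟩, (nsmul_aux hA1 hA2 hz hdeep.1 j).1⟩
    rw [smul_comm, hpz, smul_zero]
  have hle1 : ∀ P ∈ S, P ∉ T → A.valuation (tau D P) ≤ 1 := by
    intro P hP _
    rw [hS, Finset.mem_filter] at hP
    exact (valuation_tau_lt_one hA1 hA2 hP.2).le
  have h1 : ∏ P ∈ S, A.valuation (tau D P) ≤ ∏ P ∈ T, A.valuation (tau D P) :=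
    Finset.prod_le_prod_of_subset_of_le_one' hTS hle1
  have h2 : ∏ P ∈ T, A.valuation (tau D P) = A.valuation (tau D z) ^ (p - 1) := by
    rw [hT, Finset.prod_image hinj]
    have h3 : ∀ j ∈ I, A.valuation (tau D (j • z)) = A.valuation (tau D z) := by
      intro j hj
      obtain ⟨hj0, hjp⟩ := (hImem j).mp hj
      exact valuation_tau_nsmul hA1 hA2 hz hdeep.1 (valuation_natCast_eq_one hp hpA hj0 hjp)
    rw [Finset.prod_congr rfl h3, Finset.prod_const]
    congr 1
    rw [hI, Finset.card_erase_of_mem (Finset.mem_range.mpr hp.pos), Finset.card_range]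
  rw [← hprod, map_prod]
  calc ∏ P ∈ S, A.valuation (tau D P) ≤ ∏ P ∈ T, A.valuation (tau D P) := h1
    _ = A.valuation (tau D z) ^ (p - 1) := h2
    _ ≤ A.valuation c ^ (p - 1) := pow_le_pow_left' hdeep.2 _

/-! ### displacement at the node -/

/-- a non-zero point with `1 < v X` is in the kernel of reduction and `v (tau) ^ 2 * v X = 1` -/
theorem valuation_tau_sq_mul (hA1 : A.valuation e₁ ≤ 1) (hA2 : A.valuation e₂ ≤ 1) {P : G}
    (hP0 : P ≠ 0) (hX : 1 < A.valuation (D.X P)) :
    A.valuation (tau D P) ^ 2 * A.valuation (D.X P) = 1 := by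
  have hs : A.valuation (e₁ + e₂) ≤ 1 :=
    le_trans (A.valuation.map_add _ _) (max_le hA1 hA2)
  have hb : A.valuation (e₁ * e₂) ≤ 1 := by
    rw [map_mul]; exact mul_le_one' hA1 hA2
  have hc1 : D.Y P ^ 2 = D.X P ^ 3 - (e₁ + e₂) * D.X P ^ 2 + e₁ * e₂ * D.X P := by
    rw [D.eqn P hP0]; ring
  obtain ⟨hX0, -, -, hD, hτ2, -, -⟩ := point_facts A.valuation hs hb hX hc1
  rw [tau_of_ne D hP0]
  have h1 := congrArg A.valuation hτ2
  rw [map_mul, hD, mul_one, map_pow, map_inv₀] at h1
  rw [h1]
  exact inv_mul_cancel₀ ((Valuation.ne_zero_iff _).mpr hX0)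

/-- **Displacement at the node.**  If the inertia element `(σ, s)` moves both coordinates of a
point `x` of the node region by relative amounts in `c A`, then `s x - x` lies in the kernel of
reduction at depth at least `v c`. -/
theorem deep_sub_of_inN (h2 : A.valuation (2 : K) = 1) (hA1 : A.valuation e₁ ≤ 1)
    (he2 : A.valuation e₂ = 1) {σ : K →+* K} {s : G →+ G} (hs : D.InertiaAct A σ s) {x : G}
    (hx : D.InN A x) {c a b : K} (hc : A.valuation c < 1) (ha : a ∈ A) (hb : b ∈ A)
    (hX : σ (D.X x) = D.X x * (1 + c * a)) (hY : σ (D.Y x) = D.Y x * (1 + c * b)) :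
    Deep D A c (s x - x) := by
  have hA2 : A.valuation e₂ ≤ 1 := le_of_eq he2
  obtain ⟨hx0, hX0, hXlt, hXe⟩ := hx
  have hxN : D.InN A x := ⟨hx0, hX0, hXlt, hXe⟩
  have hva : A.valuation a ≤ 1 := (A.valuation_le_one_iff _).mpr ha
  have hvb : A.valuation b ≤ 1 := (A.valuation_le_one_iff _).mpr hb
  have hsx0 : s x ≠ 0 := fun h0 => hx0 (hs.inj x h0)
  have hnx0 : -x ≠ 0 := neg_ne_zero.mpr hx0
  have hXs : D.X (s x) = D.X x * (1 + c * a) := by rw [hs.X_map x hx0, hX]
  have hYs : D.Y (s x) = D.Y x * (1 + c * b) := by rw [hs.Y_map x hx0, hY]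
  have hXn : D.X (-x) = D.X x := D.X_neg x hx0
  have hYn : D.Y (-x) = -D.Y x := D.Y_neg x hx0
  -- `Y x ≠ 0`, `v (Y x) = v (X x)`
  have hvsg : A.valuation (D.sg x) = 1 := Core.val_sg_eq_one he2 hxN
  have hvY : A.valuation (D.Y x) = A.valuation (D.X x) := by
    have h1 : D.Y x = D.sg x * D.X x := by
      unfold LegData.sg
      field_simp
    rw [h1, map_mul, hvsg, one_mul]
  have hY0 : D.Y x ≠ 0 := by
    rw [← Valuation.ne_zero_iff A.valuation, hvY]
    exact (Valuation.ne_zero_iff _).mpr hX0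
  -- the unit `2 + c b`
  have hcb : A.valuation (c * b) < 1 := by
    rw [map_mul]
    calc A.valuation c * A.valuation b ≤ A.valuation c * 1 := by gcongr
      _ < 1 := by rwa [mul_one]
  have hu : A.valuation (2 + c * b) = 1 := by
    rw [A.valuation.map_add_eq_of_lt_left (by rw [h2]; exact hcb), h2]
  have hu0 : 2 + c * b ≠ 0 := fun h => by
    rw [h, map_zero] at hu; exact zero_ne_one hu
  by_cases hca : c * a = 0
  · -- `σ X = X`: then `s x = x`
    have hXeq : D.X (s x) = D.X x := by rw [hXs, hca, add_zero, mul_one]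
    rcases D.eq_or_eq_neg_of_X_eq hsx0 hx0 hXeq with h | h
    · rw [h, sub_self]
      exact Deep.zero c
    · exfalso
      have h1 : D.Y (s x) = -D.Y x := by rw [h, hYn]
      rw [hYs] at h1
      have h3 : D.Y x * (2 + c * b) = 0 := by linear_combination h1
      exact mul_ne_zero hY0 hu0 h3
  · -- the chord through `s x` and `-x`
    have hc0 : c ≠ 0 := fun h => hca (by rw [h, zero_mul])
    have ha0 : a ≠ 0 := fun h => hca (by rw [h, mul_zero])
    have hXne : D.X (s x) ≠ D.X (-x) := by
      rw [hXs, hXn]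
      intro h
      have h1 : D.X x * (c * a) = 0 := by linear_combination h
      exact mul_ne_zero hX0 hca h1
    have hgen : D.Gen (s x) (-x) := D.gen_of_X_ne hsx0 hnx0 hXne
    have hz : s x - x = s x + -x := sub_eq_add_neg _ _
    rw [hz]
    have hz0 : s x + -x ≠ 0 := hgen.add_ne_zero
    have hlam : D.lam (s x) (-x) = D.Y x * (2 + c * b) / (D.X x * (c * a)) := by
      rw [D.lam_of_X_ne hXne, hXs, hYs, hXn, hYn]
      have hd : D.X x * (c * a) ≠ 0 := mul_ne_zero hX0 hca
      have hd' : D.X x - D.X x * (1 + c * a) ≠ 0 := by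
        intro h
        apply hd
        linear_combination -h
      field_simp
      ring
    -- `v lam = (v c * v a)⁻¹`
    have hvca0 : A.valuation (c * a) ≠ 0 := (Valuation.ne_zero_iff _).mpr hca
    have hvlam : A.valuation (D.lam (s x) (-x)) = (A.valuation (c * a))⁻¹ := by
      have hvX0 : A.valuation (D.X x) ≠ 0 := (Valuation.ne_zero_iff _).mpr hX0
      rw [hlam, map_div₀, map_mul, map_mul, hu, mul_one, hvY]
      field_simp
    have hvca : A.valuation (c * a) < 1 := by
      rw [map_mul]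
      calc A.valuation c * A.valuation a ≤ A.valuation c * 1 := by gcongr
        _ < 1 := by rwa [mul_one]
    have hvlam1 : 1 < A.valuation (D.lam (s x) (-x)) := by
      rw [hvlam]
      exact (one_lt_inv₀ (zero_lt_iff.mpr hvca0)).mpr hvca
    -- `v X(z) = v lam ^ 2`
    have hrest : A.valuation ((e₁ + e₂) - D.X (s x) - D.X (-x)) ≤ 1 := by
      have h1 : A.valuation (e₁ + e₂) ≤ 1 :=
        le_trans (A.valuation.map_add _ _) (max_le hA1 hA2)
      have h3 : A.valuation (D.X (-x)) ≤ 1 := by rw [hXn]; exact hXlt.le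
      have h4 : A.valuation (D.X (s x)) ≤ 1 := by
        rw [hXs, map_mul]
        have h5 : A.valuation (1 + c * a) ≤ 1 :=
          le_trans (A.valuation.map_add _ _) (max_le (by simp) hvca.le)
        exact mul_le_one' hXlt.le h5
      exact le_trans (A.valuation.map_sub _ _)
        (max_le (le_trans (A.valuation.map_sub _ _) (max_le h1 h4)) h3)
    have hvlam2 : 1 < A.valuation (D.lam (s x) (-x) ^ 2) := by
      rw [map_pow]
      exact one_lt_pow₀ hvlam1 two_ne_zero
    have hXz : A.valuation (D.X (s x + -x)) = A.valuation (D.lam (s x) (-x)) ^ 2 := by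
      have h1 : D.X (s x + -x)
          = D.lam (s x) (-x) ^ 2 + ((e₁ + e₂) - D.X (s x) - D.X (-x)) := by
        rw [hgen.X_add]; ring
      rw [h1, A.valuation.map_add_eq_of_lt_left (lt_of_le_of_lt hrest hvlam2), map_pow]
    have hXz1 : 1 < A.valuation (D.X (s x + -x)) := by
      rw [hXz, ← map_pow]; exact hvlam2
    refine ⟨Or.inr hXz1, ?_⟩
    have hτ := valuation_tau_sq_mul hA1 hA2 hz0 hXz1
    rw [hXz, hvlam, inv_pow] at hτ
    have hτ2 : A.valuation (tau D (s x + -x)) ^ 2 = A.valuation (c * a) ^ 2 := by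
      have h0 : A.valuation (c * a) ^ 2 ≠ 0 := pow_ne_zero _ hvca0
      rw [← mul_inv_cancel_right₀ h0 (A.valuation (tau D (s x + -x)) ^ 2)] 
      rw [mul_assoc, mul_comm (A.valuation (c * a) ^ 2), ← mul_assoc, hτ, one_mul]
    have hτ3 : A.valuation (tau D (s x + -x)) = A.valuation (c * a) :=
      (pow_left_inj₀ zero_le zero_le two_ne_zero).mp hτ2
    rw [hτ3, map_mul]
    calc A.valuation c * A.valuation a ≤ A.valuation c * 1 := by gcongr
      _ = A.valuation c := mul_one _

/-- a `σ`-fixed scalar `r` of the same valuation as `w` turns an absolute displacement of the unit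
`w / r` into a relative displacement of `w` -/
theorem exists_rel_of_fixed_scalar {σ : K →+* K} {r w c : K} (hr : σ r = r) (hr0 : r ≠ 0)
    (hw : A.valuation w = A.valuation r)
    (hint : A.valuation (σ (w / r) - w / r) ≤ A.valuation c) :
    ∃ a ∈ A, σ w = w * (1 + c * a) := by
  have hvr0 : A.valuation r ≠ 0 := (Valuation.ne_zero_iff _).mpr hr0
  have hvu : A.valuation (w / r) = 1 := by
    rw [map_div₀, hw, div_self hvr0]
  have hu0 : w / r ≠ 0 := fun h => by
    rw [h, map_zero] at hvu; exact zero_ne_one hvu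
  have hwr : w = r * (w / r) := by field_simp
  have hσw : σ w = r * σ (w / r) := by
    conv_lhs => rw [hwr]
    rw [map_mul, hr]
  by_cases hc0 : c = 0
  · refine ⟨0, A.zero_mem, ?_⟩
    rw [hc0, map_zero, le_zero_iff, map_eq_zero, sub_eq_zero] at hint
    rw [hσw, hint, mul_zero, add_zero, mul_one]
    exact hwr.symm
  · refine ⟨(σ (w / r) - w / r) / (c * (w / r)), ?_, ?_⟩
    · rw [← A.valuation_le_one_iff, map_div₀, map_mul, hvu, mul_one]
      exact div_le_one_of_le₀ hint zero_le
    · rw [hσw]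
      have hw0 : w ≠ 0 := by
        intro h
        apply hu0
        rw [h, zero_div]
      field_simp
      ring

/-- **Displacement at the node, fixed-scalar form.**  `X x` has the valuation of a `σ`-fixed scalar
`r`, and `σ` moves the two units `X x / r`, `Y x / r` by at most `c`. -/
theorem deep_sub_of_fixed_scalar (h2 : A.valuation (2 : K) = 1) (hA1 : A.valuation e₁ ≤ 1)
    (he2 : A.valuation e₂ = 1) {σ : K →+* K} {s : G →+ G} (hs : D.InertiaAct A σ s) {x : G}
    (hx : D.InN A x) {r c : K} (hr : σ r = r) (hvr : A.valuation (D.X x) = A.valuation r)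
    (hc : A.valuation c < 1)
    (hintX : A.valuation (σ (D.X x / r) - D.X x / r) ≤ A.valuation c)
    (hintY : A.valuation (σ (D.Y x / r) - D.Y x / r) ≤ A.valuation c) :
    Deep D A c (s x - x) := by
  have hX0 : D.X x ≠ 0 := hx.2.1
  have hr0 : r ≠ 0 := by
    rw [← Valuation.ne_zero_iff A.valuation, ← hvr]
    exact (Valuation.ne_zero_iff _).mpr hX0
  have hvsg : A.valuation (D.sg x) = 1 := Core.val_sg_eq_one he2 hx
  have hvY : A.valuation (D.Y x) = A.valuation r := by
    have h1 : D.Y x = D.sg x * D.X x := by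
      unfold LegData.sg
      field_simp
    rw [h1, map_mul, hvsg, one_mul, hvr]
  obtain ⟨a, ha, hXa⟩ := exists_rel_of_fixed_scalar (A := A) hr hr0 hvr hintX
  obtain ⟨b, hb, hYb⟩ := exists_rel_of_fixed_scalar (A := A) hr hr0 hvY hintY
  exact deep_sub_of_inN h2 hA1 he2 hs hx hc ha hb hXa hYb

/-! ### the brick -/

/-- **(G2), node form.**  A `p`-torsion point `x` of the node region which the inertia element
`(σ, s)` really moves, while moving its coordinates by relative amounts in `c A`, forces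
`v p ≤ v c ^ (p - 1)`. -/
theorem peu_of_inN (h2 : A.valuation (2 : K) = 1) (hA1 : A.valuation e₁ ≤ 1)
    (he2 : A.valuation e₂ = 1) {p : ℕ} (hp : p.Prime) (hpA : A.valuation (p : K) < 1)
    (Vs : Finset G) (hVs : ∀ T, T ∈ Vs ↔ p • T = 0 ∧ T ≠ 0) [DecidablePred fun T => D.K1 A T]
    (hprod : A.valuation (∏ T ∈ Vs.filter (fun T => D.K1 A T), tau D T) = A.valuation (p : K))
    {σ : K →+* K} {s : G →+ G} (hs : D.InertiaAct A σ s) {x : G}
    (hx : D.InN A x) (hpx : p • x = 0) (hne : s x ≠ x) {c a b : K} (hc : A.valuation c < 1)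
    (ha : a ∈ A) (hb : b ∈ A)
    (hX : σ (D.X x) = D.X x * (1 + c * a)) (hY : σ (D.Y x) = D.Y x * (1 + c * b)) :
    A.valuation (p : K) ≤ A.valuation c ^ (p - 1) := by
  have hdeep := deep_sub_of_inN h2 hA1 he2 hs hx hc ha hb hX hY
  have hz : s x - x ≠ 0 := sub_ne_zero.mpr hne
  have hpz : p • (s x - x) = 0 := by
    rw [smul_sub, ← map_nsmul, hpx, map_zero, sub_zero]
  exact valuation_natCast_le_pow hA1 (le_of_eq he2) hp hpA Vs hVs hprod hz hpz hdeep

/-- **(G2), fixed-scalar form** (the shape produced by `S05.Phase.phase'`: `v (X x) = v (d ^ (2 i))`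
with `d` rational). -/
theorem peu_of_fixed_scalar (h2 : A.valuation (2 : K) = 1) (hA1 : A.valuation e₁ ≤ 1)
    (he2 : A.valuation e₂ = 1) {p : ℕ} (hp : p.Prime) (hpA : A.valuation (p : K) < 1)
    (Vs : Finset G) (hVs : ∀ T, T ∈ Vs ↔ p • T = 0 ∧ T ≠ 0) [DecidablePred fun T => D.K1 A T]
    (hprod : A.valuation (∏ T ∈ Vs.filter (fun T => D.K1 A T), tau D T) = A.valuation (p : K))
    {σ : K →+* K} {s : G →+ G} (hs : D.InertiaAct A σ s) {x : G}
    (hx : D.InN A x) (hpx : p • x = 0) (hne : s x ≠ x) {r c : K} (hr : σ r = r)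
    (hvr : A.valuation (D.X x) = A.valuation r) (hc : A.valuation c < 1)
    (hintX : A.valuation (σ (D.X x / r) - D.X x / r) ≤ A.valuation c)
    (hintY : A.valuation (σ (D.Y x / r) - D.Y x / r) ≤ A.valuation c) :
    A.valuation (p : K) ≤ A.valuation c ^ (p - 1) := by
  have hdeep := deep_sub_of_fixed_scalar h2 hA1 he2 hs hx hr hvr hc hintX hintY
  have hz : s x - x ≠ 0 := sub_ne_zero.mpr hne
  have hpz : p • (s x - x) = 0 := by
    rw [smul_sub, ← map_nsmul, hpx, map_zero, sub_zero]
  exact valuation_natCast_le_pow hA1 (le_of_eq he2) hp hpA Vs hVs hprod hz hpz hdeep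

/-- the only place where a uniformiser appears: `c = ϖ ^ (s + 1)` and `v p = v ϖ ^ (p (p - 1))`
turn `v p ≤ v c ^ (p - 1)` into `s + 1 ≤ p` -/
theorem succ_le_of_uniformiser {ϖ : K} (h0 : ϖ ≠ 0) (h1 : A.valuation ϖ < 1) {s p : ℕ}
    (hp : 1 < p) (hpϖ : A.valuation (p : K) = A.valuation ϖ ^ (p * (p - 1)))
    (h : A.valuation (p : K) ≤ A.valuation (ϖ ^ (s + 1)) ^ (p - 1)) : s + 1 ≤ p := by
  have hpos : 0 < A.valuation ϖ := zero_lt_iff.mpr ((Valuation.ne_zero_iff _).mpr h0)
  rw [hpϖ, map_pow, ← pow_mul, pow_le_pow_iff_right_of_lt_one₀ hpos h1] at h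
  have hp1 : 0 < p - 1 := Nat.sub_pos_of_lt hp
  exact Nat.le_of_mul_le_mul_right h hp1

end Fermat.Agent.S44.Loc.FormalDepth
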