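import Fermat.Agent.S12.V3.FreyK1
import Fermat.Agent.S12.V3.ZeroComp
import Fermat.Agent.S44.Loc.FormalDepth

/-!
# PROJECT P (S44), brick [G2]: the Frey curve at a place over `p`, multiplicative case

Legendre frame of `S13/Local/FreyP` (`L : LegP P A D d` at a valuation subring `A` of `ℚ̄` over
`p = P.p`) with the extra hypothesis `A.valuation d < 1` (multiplicative reduction; `e₁ = d ^ p`).

* `toNodal`, `hyp_toNodal`   : the Legendre coordinates as nodal coordinates (`a₁ = 0`);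
* `k1_of_unit_tors`          : a point of `p`-power order with unit `X` lies in the kernel of
  reduction (`E⁰[p^∞] ⊆ K1`);
* `valSum_leg_zero`          : the valuation-sum identity at the root `X = 0`;
* `V1_ne_top_of_mult`, `card_V1_of_mult` : `V₁ = E[p] ∩ K1` is a line (no Galois-stable line
  needed);
* `inertia_cyclo_V1`         : inertia acts on `V₁` through the cyclotomic character;
* `inN_of_not_mem_V1`        : a `p`-torsion point off `V₁` lies in the strict node region, with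
  `v (X x) = v (d ^ (2 i))`.
-/

set_option autoImplicit false
set_option linter.unusedSectionVars false

noncomputable section

open WeierstrassCurve WeierstrassCurve.Affine WeierstrassCurve.Affine.Point

namespace Fermat.Agent.S44.Loc.FreyPeu

open Fermat.Agent.S05 Fermat.Agent.S05.LegData Fermat.Agent.S05.FreyLeg
  Fermat.Agent.S13.Global Fermat.Agent.S13.Local.FreyP Fermat.Agent.S05.Kernel
  Fermat.Agent.S12.V1.LegCyclo Fermat.Agent.S12.V1.FreyCyclo Fermat.Agent.S12.V3.FreyK1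
  Fermat.Agent.S13.Local.Excl ExtCitation

local notation "Qbar" => AlgebraicClosure ℚ
local notation "GQ" => (AlgebraicClosure ℚ ≃ₐ[ℚ] AlgebraicClosure ℚ)

/-! ### (P0) Legendre coordinates as nodal coordinates -/

section Nodal

variable {K : Type*} [Field K] [CharZero K] {G : Type*} [AddCommGroup G] {e₁ e₂ : K}

/-- The Legendre coordinates `Y² = X (X - e₁) (X - e₂)` as nodal coordinates with `a₁ = 0`,
`a₂ = -(e₁ + e₂)`, `a₄ = e₁ e₂`. -/
def toNodal (D : LegData K G e₁ e₂) :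
    Fermat.Agent.S13.Local.NodalData K G 0 (-(e₁ + e₂)) (e₁ * e₂) where
  X := D.X
  Y := D.Y
  eqn := fun P hP => by
    have h := D.eqn P hP
    linear_combination h
  ext := D.ext
  X_neg := D.X_neg
  Y_neg := fun P hP => by
    rw [D.Y_neg P hP]; ring
  add_ne := D.add_ne
  add_X := fun P Q hP hQ h => by
    rw [D.add_X P Q hP hQ h]; ring
  add_Y := fun P Q hP hQ h => by
    rw [D.add_Y P Q hP hQ h]; ring
  two_of_T := fun P hP h => by
    refine D.two_of_Y P hP ?_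
    have h2 : (2 : K) * D.Y P = 0 := by linear_combination h
    exact (mul_eq_zero.mp h2).resolve_left two_ne_zero
  dbl_ne := fun P hP h => by
    refine D.dbl_ne P hP ?_
    intro hY
    apply h
    rw [hY]; ring
  dbl_X := fun P hP h => by
    have hY : D.Y P ≠ 0 := by
      intro hY
      apply h
      rw [hY]; ring
    rw [D.dbl_X P hP hY]
    have e1 : (2 : K) * D.Y P + 0 * D.X P = 2 * D.Y P := by ring
    have e2 : 3 * D.X P ^ 2 + 2 * -(e₁ + e₂) * D.X P + e₁ * e₂ - 0 * D.Y P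
        = 3 * D.X P ^ 2 - 2 * (e₁ + e₂) * D.X P + e₁ * e₂ := by ring
    rw [e1, e2]; ring
  dbl_Y := fun P hP h => by
    have hY : D.Y P ≠ 0 := by
      intro hY
      apply h
      rw [hY]; ring
    rw [D.dbl_Y P hP hY]
    have e1 : (2 : K) * D.Y P + 0 * D.X P = 2 * D.Y P := by ring
    have e2 : 3 * D.X P ^ 2 + 2 * -(e₁ + e₂) * D.X P + e₁ * e₂ - 0 * D.Y P
        = 3 * D.X P ^ 2 - 2 * (e₁ + e₂) * D.X P + e₁ * e₂ := by ring
    rw [e1, e2]; ring
  exists_point := fun x y h => D.exists_point x y (by linear_combination h)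

@[simp] theorem toNodal_X (D : LegData K G e₁ e₂) : (toNodal D).X = D.X := rfl

@[simp] theorem toNodal_Y (D : LegData K G e₁ e₂) : (toNodal D).Y = D.Y := rfl

/-- The standing hypotheses of the nodal frame, for a Legendre curve with `e₁` in the maximal
ideal and `e₂` a unit. -/
theorem hyp_toNodal {A : ValuationSubring K} (h2 : A.valuation (2 : K) = 1)
    (he1 : A.valuation e₁ < 1) (he2 : A.valuation e₂ = 1) :
    Fermat.Agent.S13.Local.NodalData.Hyp A.valuation (0 : K) (-(e₁ + e₂)) (e₁ * e₂) where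
  a1 := by rw [_root_.map_zero]; exact zero_le_one
  a2 := by
    rw [Valuation.map_neg]
    exact le_trans (A.valuation.map_add _ _) (max_le he1.le he2.le)
  a4 := by
    rw [map_mul, he2, mul_one]; exact he1
  b2 := by
    have h4 : A.valuation (4 : K) = 1 := by
      have : (4 : K) = 2 * 2 := by norm_num
      rw [this, map_mul, h2, one_mul]
    have hs : A.valuation (e₁ + e₂) = 1 := by
      rw [add_comm]
      exact Fermat.Agent.S05.Inertia.val_eq_one_of_add A he2 he1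
    have e : (0 : K) ^ 2 + 4 * -(e₁ + e₂) = -(4 * (e₁ + e₂)) := by ring
    rw [e, Valuation.map_neg, map_mul, h4, hs, one_mul]

/-- **`E⁰[l^∞] ⊆ K1`** in the Legendre frame (`l` the residue characteristic): a point of
`l`-power order whose `X`-coordinate is not in the maximal ideal lies in the kernel of
reduction. -/
theorem k1_of_unit_tors (D : LegData K G e₁ e₂) (A : ValuationSubring K)
    (h2 : A.valuation (2 : K) = 1) (he1 : A.valuation e₁ < 1) (he2 : A.valuation e₂ = 1)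
    (hsq : ∃ s : K, s ^ 2 = -(e₁ + e₂)) {l : ℕ} [Fact l.Prime]
    [CharP (IsLocalRing.ResidueField A) l] {T : G} {n : ℕ} (hn : l ^ n • T = 0)
    (hX : 1 ≤ A.valuation (D.X T)) : D.K1 A T := by
  obtain ⟨s, hs⟩ := hsq
  have H := hyp_toNodal (A := A) h2 he1 he2
  have hE : (toNodal D).E0 A.valuation T := Or.inr hX
  have key := Fermat.Agent.S12.V3.ZeroComp.k1_of_pow_abs (D := toNodal D) (α := s) (β := -s) H
    (by ring) (by linear_combination -hs) hE hn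
  exact key

end Nodal

/-! ### (P2) The valuation-sum identity at the root `X = 0` -/

section ValSum

open Fermat.Agent.S13.Iface Fermat.Agent.S13.CU.Transport

variable {F : Type*} [Field F] [DecidableEq F] {W : WeierstrassCurve F} {r0 e1 e2 : F}

/-- `e = r₀ / 4` is a root of the `2`-division polynomial. -/
theorem isLeg_root_zero (hW : IsLeg W r0 e1 e2) (h2 : (2 : F) ≠ 0) {e : F} (he : 4 * e = r0) :
    4 * e ^ 3 + W.b₂ * e ^ 2 + 2 * W.b₄ * e + W.b₆ = 0 := by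
  have h16 := isLeg_twoDiv hW e
  have h0 : 4 * e - r0 = 0 := by linear_combination he
  rw [h0, zero_mul, zero_mul] at h16
  exact (mul_eq_zero.mp h16).resolve_left (sixteen_ne_zero h2)

/-- The derivative of the `2`-division polynomial at that root. -/
theorem isLeg_deriv_zero (hW : IsLeg W r0 e1 e2) {e : F} (he : 4 * e = r0) :
    4 * (12 * e ^ 2 + 2 * W.b₂ * e + 2 * W.b₄) = e1 * e2 := by
  have h4 := isLeg_b₄ hW
  have hr : r0 = 4 * e := he.symm
  rw [isLeg_b₂ hW]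
  have e8 : 4 * (12 * e ^ 2 + 2 * -(3 * r0 + e1 + e2) * e + 2 * W.b₄)
      = 48 * e ^ 2 - 8 * (3 * r0 + e1 + e2) * e + 8 * W.b₄ := by ring
  rw [e8, h4, hr]
  ring

/-- **(VS) on a leg at the root `X = 0`**: the product of the `X`-coordinates of the non-zero
`p`-torsion points. -/
theorem valSum_leg_zero (hW : IsLeg W r0 e1 e2) (h2 : (2 : F) ≠ 0) {p : ℕ} (hp : (p : F) ≠ 0)
    (hT : TorsionCard W p) (hVS : ValSum W p)
    (S : Finset W.toAffine.Point) (hS : ∀ T, T ∈ S ↔ p • T = 0 ∧ T ≠ 0) :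
    (∏ T ∈ S, legX W r0 T) ^ 2 = (e1 * e2) ^ (p ^ 2 - 1) / (p : F) ^ 4 := by
  have h4 : (4 : F) ≠ 0 := four_ne_zero' h2
  obtain ⟨e, he⟩ : ∃ e : F, 4 * e = r0 := ⟨r0 / 4, by field_simp⟩
  have key := hVS e (isLeg_root_zero hW h2 he) S hS
  have hcard := card_of_torsionCard hT S hS
  have h1 : ∀ T ∈ S, (legX W r0 T) ^ 2 = 16 * (xc W T - e) ^ 2 := by
    intro T hT'
    rw [legX_eq_xc ((hS T).mp hT').2, ← he]
    ring
  have hpp : (p : F) ^ 4 ≠ 0 := pow_ne_zero 4 hp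
  rw [← Finset.prod_pow, Finset.prod_congr rfl h1, Finset.prod_mul_distrib, Finset.prod_const,
    hcard, eq_div_iff hpp, ← isLeg_deriv_zero hW he, mul_pow, ← key]
  have : (16 : F) = 4 * 4 := by norm_num
  rw [this, mul_pow]
  ring

end ValSum

/-! ### (P3), (P4) The line `V₁` in the multiplicative case -/

variable {P : FreyPackage}

section core

variable {A : ValuationSubring Qbar} {e₁ e₂ d : Qbar}
  {D : LegData Qbar (P.freyCurve⁄Qbar).Point e₁ e₂}

theorem valuation_e₁_lt_one (L : LegP P A D d) (hmult : A.valuation d < 1) :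
    A.valuation e₁ < 1 := by
  rw [L.hd, map_pow]
  exact pow_lt_one₀ zero_le hmult P.pp.ne_zero

/-- `V₁ ≠ ⊤` in the multiplicative case: the two valuation-sum identities (roots `e₂` and `0`)
are incompatible with `E[p] ⊆ K1`. -/
theorem V1_ne_top_of_mult (L : LegP P A D d) (hmult : A.valuation d < 1)
    (hcard : Nat.card (Tors P.freyCurve P.p) = P.p ^ 2)
    (hVS : ∀ S : Finset (P.freyCurve⁄Qbar).Point, (∀ T, T ∈ S ↔ P.p • T = 0 ∧ T ≠ 0) →
      (∏ T ∈ S, (D.X T - e₂)) ^ 2 =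
        (e₂ * (e₂ - e₁)) ^ (P.p ^ 2 - 1) / ((P.p : ℕ) : Qbar) ^ 4)
    (hVS0 : ∀ S : Finset (P.freyCurve⁄Qbar).Point, (∀ T, T ∈ S ↔ P.p • T = 0 ∧ T ≠ 0) →
      (∏ T ∈ S, D.X T) ^ 2 = (e₁ * e₂) ^ (P.p ^ 2 - 1) / ((P.p : ℕ) : Qbar) ^ 4) :
    V1 L ≠ ⊤ := by
  classical
  intro hV1
  set v := A.valuation with hv
  have hK : ∀ x : Tors P.freyCurve P.p, D.K1 A (x : (P.freyCurve⁄Qbar).Point) := fun x => by
    have : x ∈ V1 L := hV1 ▸ AddSubgroup.mem_top x
    exact this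
  obtain ⟨Vs, hVs⟩ := exists_finset_torsion hcard
  have hmemT : ∀ T ∈ Vs, T ∈ Submodule.torsionBy ℤ (P.freyCurve⁄Qbar).Point P.p :=
    fun T hT => by
      rw [Submodule.mem_torsionBy_iff, natCast_zsmul]
      exact ((hVs T).mp hT).1
  have h1 : v (∏ T ∈ Vs, (D.X T - e₂)) = v (∏ T ∈ Vs, D.X T) := by
    rw [map_prod, map_prod]
    refine Finset.prod_congr rfl fun T hT => ?_
    exact valuation_X_sub D L.he₂ ((hVs T).mp hT).2 (hK ⟨T, hmemT T hT⟩)
  have hD : v (e₂ * (e₂ - e₁)) = 1 := by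
    rw [map_mul, L.he2, one_mul, Valuation.map_sub_swap, L.he12]
  have hp0 : ((P.p : ℕ) : Qbar) ≠ 0 := by
    have := FreyInst.charZero Qbar
    exact Nat.cast_ne_zero.mpr P.pp.ne_zero
  have hvp0 : v ((P.p : ℕ) : Qbar) ^ 4 ≠ 0 := pow_ne_zero _ (by rwa [Ne, map_eq_zero])
  have h2 := congrArg v (hVS Vs hVs)
  have h3 := congrArg v (hVS0 Vs hVs)
  rw [map_pow, map_div₀, map_pow, hD, one_pow, map_pow] at h2
  rw [map_pow, map_div₀, map_pow, map_pow, map_mul, L.he2, mul_one] at h3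
  rw [h1, h3] at h2
  have h4 : v e₁ ^ (P.p ^ 2 - 1) = 1 := by
    have := congrArg (fun t => t * v ((P.p : ℕ) : Qbar) ^ 4) h2
    simp only [div_mul_cancel₀ _ hvp0] at this
    exact this
  have hn : P.p ^ 2 - 1 ≠ 0 := by
    have h5 := P.hp5
    have : 25 ≤ P.p ^ 2 := by nlinarith
    omega
  have h5 : v e₁ = 1 := (pow_eq_one_iff.mp h4).resolve_right hn
  exact absurd h5 (ne_of_lt (valuation_e₁_lt_one L hmult))

/-- `V₁` is a line in the multiplicative case. -/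
theorem card_V1_of_mult (L : LegP P A D d) (hA : A.LiesOverPrime P.p)
    (hmult : A.valuation d < 1)
    (hcard : Nat.card (Tors P.freyCurve P.p) = P.p ^ 2)
    (hVS : ∀ S : Finset (P.freyCurve⁄Qbar).Point, (∀ T, T ∈ S ↔ P.p • T = 0 ∧ T ≠ 0) →
      (∏ T ∈ S, (D.X T - e₂)) ^ 2 =
        (e₂ * (e₂ - e₁)) ^ (P.p ^ 2 - 1) / ((P.p : ℕ) : Qbar) ^ 4)
    (hVS0 : ∀ S : Finset (P.freyCurve⁄Qbar).Point, (∀ T, T ∈ S ↔ P.p • T = 0 ∧ T ≠ 0) →
      (∏ T ∈ S, D.X T) ^ 2 = (e₁ * e₂) ^ (P.p ^ 2 - 1) / ((P.p : ℕ) : Qbar) ^ 4) :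
    Nat.card (V1 L) = P.p := by
  have hfin : Finite (Tors P.freyCurve P.p) :=
    Nat.finite_of_card_ne_zero (by rw [hcard]; exact pow_ne_zero _ P.pp.ne_zero)
  have hdvd : Nat.card (V1 L) ∣ P.p ^ 2 := by
    rw [← hcard]
    exact AddSubgroup.card_addSubgroup_dvd_card (V1 L)
  obtain ⟨k, hk, hkc⟩ := (Nat.dvd_prime_pow P.pp).mp hdvd
  interval_cases k
  · exfalso
    rw [pow_zero] at hkc
    exact V1_ne_bot L hA hcard hVS (AddSubgroup.card_eq_one.mp hkc)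
  · rw [pow_one] at hkc
    exact hkc
  · exfalso
    exact V1_ne_top_of_mult L hmult hcard hVS hVS0
      (AddSubgroup.eq_top_of_card_eq _ (by rw [hkc, hcard]))

/-- A generator of `V₁` together with the valuation of its parameter (no Galois-stable line). -/
theorem exists_generator_of_mult (L : LegP P A D d) (hA : A.LiesOverPrime P.p)
    (hmult : A.valuation d < 1)
    (hcard : Nat.card (Tors P.freyCurve P.p) = P.p ^ 2)
    (hVS : ∀ S : Finset (P.freyCurve⁄Qbar).Point, (∀ T, T ∈ S ↔ P.p • T = 0 ∧ T ≠ 0) →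
      (∏ T ∈ S, (D.X T - e₂)) ^ 2 =
        (e₂ * (e₂ - e₁)) ^ (P.p ^ 2 - 1) / ((P.p : ℕ) : Qbar) ^ 4)
    (hVS0 : ∀ S : Finset (P.freyCurve⁄Qbar).Point, (∀ T, T ∈ S ↔ P.p • T = 0 ∧ T ≠ 0) →
      (∏ T ∈ S, D.X T) ^ 2 = (e₁ * e₂) ^ (P.p ^ 2 - 1) / ((P.p : ℕ) : Qbar) ^ 4) :
    ∃ T₀ : Tors P.freyCurve P.p, T₀ ∈ V1 L ∧ (T₀ : (P.freyCurve⁄Qbar).Point) ≠ 0 ∧
      (∀ x ∈ V1 L, ∃ m : ℕ, x = m • T₀) ∧
      A.valuation (tau D (T₀ : (P.freyCurve⁄Qbar).Point)) ^ (P.p - 1)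
        = A.valuation ((P.p : ℕ) : Qbar) := by
  classical
  have : Fact P.p.Prime := ⟨P.pp⟩
  have := FreyInst.charZero Qbar
  have hp := P.pp
  have hp2 : P.p ≠ 2 := by have := P.hp5; omega
  have hc1 : Nat.card (V1 L) = P.p := card_V1_of_mult L hA hmult hcard hVS hVS0
  obtain ⟨g₀, hg₀⟩ := (AddSubgroup.ne_bot_iff_exists_ne_zero).mp (V1_ne_bot L hA hcard hVS)
  set T₀ : Tors P.freyCurve P.p := g₀.1 with hT₀def
  have hT₀V : T₀ ∈ V1 L := g₀.2
  have hT₀0 : T₀ ≠ 0 := fun h => hg₀ (Subtype.ext h)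
  have hK₀ : D.K1 A (T₀ : (P.freyCurve⁄Qbar).Point) := hT₀V
  have hT₀p0 : (T₀ : (P.freyCurve⁄Qbar).Point) ≠ 0 := fun h => hT₀0 (Subtype.ext h)
  have hpT₀ : P.p • (T₀ : (P.freyCurve⁄Qbar).Point) = 0 :=
    FreyLegInst.nsmul_eq_zero_of_mem_torsionBy P T₀
  have hpT₀' : P.p • T₀ = 0 := Subtype.ext hpT₀
  have hcycV : ∀ x ∈ V1 L, ∃ m : ℕ, x = m • T₀ := by
    intro x hx
    obtain ⟨k, hk⟩ := exists_zsmul_of_prime_card hc1 hg₀ (⟨x, hx⟩ : V1 L)
    have hk' : x = k • T₀ := congrArg Subtype.val hk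
    obtain ⟨m, hm⟩ := exists_nsmul_eq_zsmul hp.ne_zero hpT₀' k
    exact ⟨m, hk'.trans hm⟩
  have hcycP : ∀ T : (P.freyCurve⁄Qbar).Point, P.p • T = 0 → D.K1 A T →
      ∃ m : ℕ, T = m • (T₀ : (P.freyCurve⁄Qbar).Point) := by
    intro T hpT hK
    have hmem : T ∈ Submodule.torsionBy ℤ (P.freyCurve⁄Qbar).Point P.p := by
      rw [Submodule.mem_torsionBy_iff, natCast_zsmul]
      exact hpT
    obtain ⟨m, hm⟩ := hcycV (⟨T, hmem⟩ : Tors P.freyCurve P.p) hK
    exact ⟨m, congrArg Subtype.val hm⟩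
  obtain ⟨Vs, hVs⟩ := exists_finset_torsion hcard
  have hval := valuation_tau_pow D P.p hA L.he₁ L.he2 L.he12 hp2 Vs hVs (P.p ^ 2 - 1)
    (hVS Vs hVs) hT₀p0 hK₀ hpT₀ hcycP
  exact ⟨T₀, hT₀V, hT₀p0, hcycV, hval⟩

/-- **Inertia acts on `V₁` through the cyclotomic character** (multiplicative case, no
Galois-stable line). -/
theorem inertia_cyclo_V1 (L : LegP P A D d) (hA : A.LiesOverPrime P.p)
    (hmult : A.valuation d < 1)
    (hcard : Nat.card (Tors P.freyCurve P.p) = P.p ^ 2)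
    (hVS : ∀ S : Finset (P.freyCurve⁄Qbar).Point, (∀ T, T ∈ S ↔ P.p • T = 0 ∧ T ≠ 0) →
      (∏ T ∈ S, (D.X T - e₂)) ^ 2 =
        (e₂ * (e₂ - e₁)) ^ (P.p ^ 2 - 1) / ((P.p : ℕ) : Qbar) ^ 4)
    (hVS0 : ∀ S : Finset (P.freyCurve⁄Qbar).Point, (∀ T, T ∈ S ↔ P.p • T = 0 ∧ T ≠ 0) →
      (∏ T ∈ S, D.X T) ^ 2 = (e₁ * e₂) ^ (P.p ^ 2 - 1) / ((P.p : ℕ) : Qbar) ^ 4) :
    haveI : Fact P.p.Prime := ⟨P.pp⟩
    ∀ σ ∈ A.inertiaSubgroupIn ℚ, ∀ x ∈ V1 L,
      σ • x = ((cycloChar P.p σ : (ZMod P.p)ˣ) : ZMod P.p) • x := by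
  classical
  have : Fact P.p.Prime := ⟨P.pp⟩
  have := FreyInst.charZero Qbar
  have hp := P.pp
  obtain ⟨T₀, hT₀V, hT₀p0, hcycV, hval⟩ :=
    exists_generator_of_mult L hA hmult hcard hVS hVS0
  have hK₀ : D.K1 A (T₀ : (P.freyCurve⁄Qbar).Point) := hT₀V
  obtain ⟨ζ, hζ⟩ := Fermat.Agent.CFT.Bridge.exists_isPrimitiveRoot_Qbar P.p
  intro σ hσ x hx
  have hs := L.hact σ hσ
  have hKσ : σ • T₀ ∈ V1 L := Kernel.K1.map hs hK₀
  obtain ⟨n, hn⟩ := hcycV (σ • T₀) hKσ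
  have hnP : pointHom (W' := P.freyCurve) σ (T₀ : (P.freyCurve⁄Qbar).Point)
      = n • (T₀ : (P.freyCurve⁄Qbar).Point) := congrArg Subtype.val hn
  have hc := Fermat.Agent.CFT.Bridge.apply_eq_pow_cycloChar P.p hζ σ
  have hcast := cast_eq_of_inertia D hp hA L.he₁ L.he₂ hs hT₀p0 hK₀ hval hζ hnP hc
  rw [ZMod.natCast_zmod_val] at hcast
  obtain ⟨m, hm⟩ := hcycV x hx
  have hσT₀ : σ • T₀ = ((cycloChar P.p σ : (ZMod P.p)ˣ) : ZMod P.p) • T₀ := by
    rw [hn, ← hcast, Nat.cast_smul_eq_nsmul]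
  have hm' : x = (m : ℤ) • T₀ := by rw [natCast_zsmul]; exact hm
  rw [hm', smul_zsmul_comm_aux σ (m : ℤ) T₀ hσT₀]

/-- In the multiplicative case every non-zero multiple of a `p`-torsion point off `V₁` reduces into
the maximal ideal. -/
theorem valuation_X_nsmul_lt_one (L : LegP P A D d) (hA : A.LiesOverPrime P.p)
    (hmult : A.valuation d < 1) {x : Tors P.freyCurve P.p} (hx : x ∉ V1 L) {j : ℕ}
    (hj0 : 0 < j) (hjp : j < P.p) :
    A.valuation (D.X (j • (x : (P.freyCurve⁄Qbar).Point))) < 1 := by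
  have : Fact P.p.Prime := ⟨P.pp⟩
  have := FreyInst.charZero Qbar
  have hp := P.pp
  have : CharP (IsLocalRing.ResidueField A) P.p :=
    Fermat.Agent.S15.E2.SeamCL.charP_residue hp hA
  have hpx : P.p • (x : (P.freyCurve⁄Qbar).Point) = 0 :=
    FreyLegInst.nsmul_eq_zero_of_mem_torsionBy P x
  by_contra hcon
  rw [not_lt] at hcon
  have hpj : P.p ^ 1 • (j • (x : (P.freyCurve⁄Qbar).Point)) = 0 := by
    rw [pow_one, smul_comm, hpx, nsmul_zero]
  have hK : D.K1 A (j • (x : (P.freyCurve⁄Qbar).Point)) :=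
    k1_of_unit_tors D A L.h2 (valuation_e₁_lt_one L hmult) L.he2
      (LocalFrey.exists_sq (-(e₁ + e₂))) hpj hcon
  have hcop : IsCoprime (j : ℤ) (P.p : ℤ) := by
    rw [Nat.isCoprime_iff_coprime]
    exact ((Nat.Prime.coprime_iff_not_dvd hp).mpr (Nat.not_dvd_of_pos_of_lt hj0 hjp)).symm
  obtain ⟨a, b, hab⟩ := hcop
  have hPe : (x : (P.freyCurve⁄Qbar).Point) = a • (j • (x : (P.freyCurve⁄Qbar).Point)) := by
    have h5 : (x : (P.freyCurve⁄Qbar).Point)
        = (a * (j : ℤ) + b * (P.p : ℤ)) • (x : (P.freyCurve⁄Qbar).Point) := by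
      rw [hab, one_smul]
    rw [add_zsmul, mul_zsmul, mul_zsmul, natCast_zsmul, natCast_zsmul, hpx, zsmul_zero,
      add_zero] at h5
    exact h5
  apply hx
  show D.K1 A (x : (P.freyCurve⁄Qbar).Point)
  rw [hPe]
  exact Fermat.Agent.S13.Local.LocalP.K1_zsmul L.he₁ L.he₂ hK a

/-- **Off the line = at the node.**  A `p`-torsion point outside `V₁` lies in the strict node
region and `v (X x) = v (d ^ (2 i))` for some `0 < i < p`. -/
theorem inN_of_not_mem_V1 (L : LegP P A D d) (hA : A.LiesOverPrime P.p)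
    (hmult : A.valuation d < 1) {x : Tors P.freyCurve P.p} (hx : x ∉ V1 L) :
    ∃ i, 0 < i ∧ i < P.p ∧
      A.valuation (D.X (x : (P.freyCurve⁄Qbar).Point)) = A.valuation (d ^ (2 * i)) ∧
      D.InN A (x : (P.freyCurve⁄Qbar).Point) := by
  have := FreyInst.charZero Qbar
  have hp := P.pp
  have hp2 : P.p ≠ 2 := by have := P.hp5; omega
  have hpx : P.p • (x : (P.freyCurve⁄Qbar).Point) = 0 :=
    FreyLegInst.nsmul_eq_zero_of_mem_torsionBy P x
  have hx0 : (x : (P.freyCurve⁄Qbar).Point) ≠ 0 := by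
    intro h0
    apply hx
    have : x = 0 := Subtype.ext h0
    rw [this]
    exact (V1 L).zero_mem
  have R : Phase.NodeRules D A :=
    NodeBridge.nodeRules L.h2 L.he2 (valuation_e₁_lt_one L hmult)
  exact Phase.phase' R L.h2 L.he2 hp hp2 d L.hd hx0 hpx
    (fun j hj0 hjp => valuation_X_nsmul_lt_one L hA hmult hx hj0 hjp)

/-! ### (P6) The bound on the wild displacement (peu ramifié) -/

/-- **PEU, valuation form.**  `x` a `p`-torsion point off the line `V₁`, `σ` an inertia element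
moving `x`, `H` a subgroup of the inertia group, `c` a non-unit such that `σ u - u ∈ c A` for
every `u ∈ A` fixed by the stabiliser of `x` in `H`.  Then `v p ≤ v c ^ (p - 1)`. -/
theorem peu_of_leg (L : LegP P A D d) (hA : A.LiesOverPrime P.p)
    (hmult : A.valuation d < 1)
    (hcard : Nat.card (Tors P.freyCurve P.p) = P.p ^ 2)
    (hVS : ∀ S : Finset (P.freyCurve⁄Qbar).Point, (∀ T, T ∈ S ↔ P.p • T = 0 ∧ T ≠ 0) →
      (∏ T ∈ S, (D.X T - e₂)) ^ 2 =
        (e₂ * (e₂ - e₁)) ^ (P.p ^ 2 - 1) / ((P.p : ℕ) : Qbar) ^ 4)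
    {x : Tors P.freyCurve P.p} (hx : x ∉ V1 L) {σ : GQ} (hσ : σ ∈ A.inertiaSubgroupIn ℚ)
    (hne : σ • x ≠ x) (H : Subgroup GQ) (hH : H ≤ A.inertiaSubgroupIn ℚ) {c : Qbar}
    (hc : A.valuation c < 1)
    (hint : ∀ u : Qbar, u ∈ A → (∀ τ ∈ H, τ • x = x → τ u = u) →
      A.valuation (σ u - u) ≤ A.valuation c) :
    A.valuation ((P.p : ℕ) : Qbar) ≤ A.valuation c ^ (P.p - 1) := by
  classical
  have := FreyInst.charZero Qbar
  have hp := P.pp
  set v := A.valuation with hv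
  obtain ⟨i, hi0, hip, hvi, hN⟩ := inN_of_not_mem_V1 L hA hmult hx
  obtain ⟨Vs, hVs⟩ := exists_finset_torsion hcard
  have hprod := valuation_prod_tau_gen D (A := A) P.p hp.ne_zero L.he₁ L.he2 L.he12 P.hp_odd
    Vs hVs (P.p ^ 2 - 1) (hVS Vs hVs)
  have hs := L.hact σ hσ
  have hpx : P.p • (x : (P.freyCurve⁄Qbar).Point) = 0 :=
    FreyLegInst.nsmul_eq_zero_of_mem_torsionBy P x
  have hx0 : (x : (P.freyCurve⁄Qbar).Point) ≠ 0 := hN.1
  have hne' : pointHom (W' := P.freyCurve) σ (x : (P.freyCurve⁄Qbar).Point)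
      ≠ (x : (P.freyCurve⁄Qbar).Point) := fun h => hne (Subtype.ext h)
  -- the fixed scalar
  set r : Qbar := d ^ (2 * i) with hr
  have hσr : ((σ : GQ) : Qbar →+* Qbar) r = r := by
    show σ r = r
    rw [hr, map_pow, L.hσd σ]
  have hX0 : D.X (x : (P.freyCurve⁄Qbar).Point) ≠ 0 := hN.2.1
  have hvX0 : v (D.X (x : (P.freyCurve⁄Qbar).Point)) ≠ 0 := (Valuation.ne_zero_iff _).mpr hX0
  have hvr0 : v r ≠ 0 := by rw [← hvi]; exact hvX0
  have hvY : v (D.Y (x : (P.freyCurve⁄Qbar).Point)) = v r := by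
    have h1 := Fermat.Agent.S05.Core.val_sg_eq_one L.he2 hN
    unfold LegData.sg at h1
    rw [map_div₀, div_eq_one_iff_eq hvX0] at h1
    rw [h1, hvi]
  -- fixedness of the coordinates under the stabiliser
  have hfixr : ∀ τ : GQ, τ r = r := fun τ => by rw [hr, map_pow, L.hσd τ]
  have hfixX : ∀ τ ∈ H, τ • x = x →
      τ (D.X (x : (P.freyCurve⁄Qbar).Point) / r) = D.X (x : (P.freyCurve⁄Qbar).Point) / r := by
    intro τ hτ hτx
    have h1 : pointHom (W' := P.freyCurve) τ (x : (P.freyCurve⁄Qbar).Point)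
        = (x : (P.freyCurve⁄Qbar).Point) := congrArg Subtype.val hτx
    have h2 := (L.hact τ (hH hτ)).X_map _ hx0
    rw [h1] at h2
    rw [map_div₀, hfixr τ]
    congr 1
    exact h2.symm
  have hfixY : ∀ τ ∈ H, τ • x = x →
      τ (D.Y (x : (P.freyCurve⁄Qbar).Point) / r) = D.Y (x : (P.freyCurve⁄Qbar).Point) / r := by
    intro τ hτ hτx
    have h1 : pointHom (W' := P.freyCurve) τ (x : (P.freyCurve⁄Qbar).Point)
        = (x : (P.freyCurve⁄Qbar).Point) := congrArg Subtype.val hτx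
    have h2 := (L.hact τ (hH hτ)).Y_map _ hx0
    rw [h1] at h2
    rw [map_div₀, hfixr τ]
    congr 1
    exact h2.symm
  have hXA : D.X (x : (P.freyCurve⁄Qbar).Point) / r ∈ A := by
    rw [← A.valuation_le_one_iff, map_div₀, hvi, div_self hvr0]
  have hYA : D.Y (x : (P.freyCurve⁄Qbar).Point) / r ∈ A := by
    rw [← A.valuation_le_one_iff, map_div₀, hvY, div_self hvr0]
  have hpA : v ((P.p : ℕ) : Qbar) < 1 := LocalVal.q_valuation_lt_one hA
  exact Fermat.Agent.S44.Loc.FormalDepth.peu_of_fixed_scalar L.h2 L.he₁ L.he2 hp hpA Vs hVs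
    hprod hs hN hpx hne' hσr hvi hc (hint _ hXA hfixX) (hint _ hYA hfixY)

/-- **PEU, uniformiser form.**  If `v p = v ϖ ^ (p (p - 1))` and `σ u ≡ u` modulo `ϖ ^ (s + 1)`
for every `u ∈ A` fixed by the stabiliser of `x` in `H`, then `s + 1 ≤ p`. -/
theorem succ_le_of_leg (L : LegP P A D d) (hA : A.LiesOverPrime P.p)
    (hmult : A.valuation d < 1)
    (hcard : Nat.card (Tors P.freyCurve P.p) = P.p ^ 2)
    (hVS : ∀ S : Finset (P.freyCurve⁄Qbar).Point, (∀ T, T ∈ S ↔ P.p • T = 0 ∧ T ≠ 0) →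
      (∏ T ∈ S, (D.X T - e₂)) ^ 2 =
        (e₂ * (e₂ - e₁)) ^ (P.p ^ 2 - 1) / ((P.p : ℕ) : Qbar) ^ 4)
    {x : Tors P.freyCurve P.p} (hx : x ∉ V1 L) {σ : GQ} (hσ : σ ∈ A.inertiaSubgroupIn ℚ)
    (hne : σ • x ≠ x) (H : Subgroup GQ) (hH : H ≤ A.inertiaSubgroupIn ℚ) {ϖ : Qbar} {s : ℕ}
    (h0 : ϖ ≠ 0) (h1 : A.valuation ϖ < 1)
    (habs : A.valuation ((P.p : ℕ) : Qbar) = A.valuation ϖ ^ (P.p * (P.p - 1)))
    (hint : ∀ u : Qbar, u ∈ A → (∀ τ ∈ H, τ • x = x → τ u = u) →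
      ∃ a ∈ A, σ u = u + ϖ ^ (s + 1) * a) : s + 1 ≤ P.p := by
  have := FreyInst.charZero Qbar
  have hc : A.valuation (ϖ ^ (s + 1)) < 1 := by
    rw [map_pow]
    exact pow_lt_one₀ zero_le h1 (Nat.succ_ne_zero s)
  have key := peu_of_leg L hA hmult hcard hVS hx hσ hne H hH hc (fun u hu hfix => by
    obtain ⟨a, ha, hσu⟩ := hint u hu hfix
    have e : σ u - u = ϖ ^ (s + 1) * a := by rw [hσu]; ring
    rw [e, map_mul]
    calc A.valuation (ϖ ^ (s + 1)) * A.valuation a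
        ≤ A.valuation (ϖ ^ (s + 1)) * 1 :=
          mul_le_mul' le_rfl ((A.valuation_le_one_iff _).mpr ha)
      _ = A.valuation (ϖ ^ (s + 1)) := mul_one _)
  exact Fermat.Agent.S44.Loc.FormalDepth.succ_le_of_uniformiser h0 h1 P.pp.one_lt habs key

end core

/-! ### (P7) The three legs: the flag at a place over `p ∣ abc` -/

section legs

open Fermat.Agent.S13.Local.FreyPArith Fermat.Agent.S05.FreyInst Fermat.Agent.S05.FreyLegInst
  Fermat.Agent.S13.Iface Fermat.Agent.S13.CU.Transport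

variable (P) (L : Type*) [Field L] [Algebra ℚ L] [DecidableEq L]

/-- (VS) at the root `X = 0` on `legA`. -/
theorem valSum0_legA (hT : TorsionCard (P.freyCurve⁄L) P.p) (hVS : ValSum (P.freyCurve⁄L) P.p)
    (S : Finset (P.freyCurve⁄L).toAffine.Point) (hS : ∀ T, T ∈ S ↔ P.p • T = 0 ∧ T ≠ 0) :
    (∏ T ∈ S, (legA P L).X T) ^ 2
      = (cA P L * (-cB P L)) ^ (P.p ^ 2 - 1) / ((P.p : ℕ) : L) ^ 4 :=
  valSum_leg_zero (isLegA P L) (two_ne_zero' L) (natCast_p_ne_zero P L) hT hVS S hS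

/-- (VS) at the root `X = 0` on `legB`. -/
theorem valSum0_legB (hT : TorsionCard (P.freyCurve⁄L) P.p) (hVS : ValSum (P.freyCurve⁄L) P.p)
    (S : Finset (P.freyCurve⁄L).toAffine.Point) (hS : ∀ T, T ∈ S ↔ P.p • T = 0 ∧ T ≠ 0) :
    (∏ T ∈ S, (legB P L).X T) ^ 2
      = ((-cB P L) * cA P L) ^ (P.p ^ 2 - 1) / ((P.p : ℕ) : L) ^ 4 :=
  valSum_leg_zero (isLegB P L) (two_ne_zero' L) (natCast_p_ne_zero P L) hT hVS S hS

/-- (VS) at the root `X = 0` on `legC`. -/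
theorem valSum0_legC (hT : TorsionCard (P.freyCurve⁄L) P.p) (hVS : ValSum (P.freyCurve⁄L) P.p)
    (S : Finset (P.freyCurve⁄L).toAffine.Point) (hS : ∀ T, T ∈ S ↔ P.p • T = 0 ∧ T ≠ 0) :
    (∏ T ∈ S, (legC P L).X T) ^ 2
      = ((-cC P L) * (-cA P L)) ^ (P.p ^ 2 - 1) / ((P.p : ℕ) : L) ^ 4 :=
  valSum_leg_zero (isLegC P L) (two_ne_zero' L) (natCast_p_ne_zero P L) hT hVS S hS

end legs

/-! ### The export -/

section export_

open Fermat.Agent.S13.Local.FreyPArith Fermat.Agent.S05.FreyInst Fermat.Agent.S05.FreyLegInst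

/-- The flag at a place over `p`, generic leg: `V₁` is a line containing `(σ - 1) E[p]` for every
inertia element `σ`, inertia acts on it through the cyclotomic character, and the wild
displacement of a point off the line is bounded (both forms of PEU). -/
theorem flag_of_leg {A : ValuationSubring Qbar} {e₁ e₂ d : Qbar}
    {D : LegData Qbar (P.freyCurve⁄Qbar).Point e₁ e₂} (L : LegP P A D d)
    (hA : A.LiesOverPrime P.p) (hmult : A.valuation d < 1)
    (hcard : Nat.card (Tors P.freyCurve P.p) = P.p ^ 2)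
    (hVS : ∀ S : Finset (P.freyCurve⁄Qbar).Point, (∀ T, T ∈ S ↔ P.p • T = 0 ∧ T ≠ 0) →
      (∏ T ∈ S, (D.X T - e₂)) ^ 2 =
        (e₂ * (e₂ - e₁)) ^ (P.p ^ 2 - 1) / ((P.p : ℕ) : Qbar) ^ 4)
    (hVS0 : ∀ S : Finset (P.freyCurve⁄Qbar).Point, (∀ T, T ∈ S ↔ P.p • T = 0 ∧ T ≠ 0) →
      (∏ T ∈ S, D.X T) ^ 2 = (e₁ * e₂) ^ (P.p ^ 2 - 1) / ((P.p : ℕ) : Qbar) ^ 4) :
    haveI : Fact P.p.Prime := ⟨P.pp⟩
    ∃ LE : AddSubgroup (Tors P.freyCurve P.p), Nat.card LE = P.p ∧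
      (∀ σ ∈ A.inertiaSubgroupIn ℚ, ∀ x : Tors P.freyCurve P.p, σ • x - x ∈ LE) ∧
      (∀ σ ∈ A.inertiaSubgroupIn ℚ, ∀ x ∈ LE,
        σ • x = ((cycloChar P.p σ : (ZMod P.p)ˣ) : ZMod P.p) • x) ∧
      (∀ x : Tors P.freyCurve P.p, x ∉ LE → ∀ σ ∈ A.inertiaSubgroupIn ℚ, σ • x ≠ x →
        ∀ H : Subgroup GQ, H ≤ A.inertiaSubgroupIn ℚ → ∀ c : Qbar, A.valuation c < 1 →
          (∀ u : Qbar, u ∈ A → (∀ τ ∈ H, τ • x = x → τ u = u) →
            A.valuation (σ u - u) ≤ A.valuation c) →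
          A.valuation ((P.p : ℕ) : Qbar) ≤ A.valuation c ^ (P.p - 1)) ∧
      (∀ x : Tors P.freyCurve P.p, x ∉ LE → ∀ σ ∈ A.inertiaSubgroupIn ℚ, σ • x ≠ x →
        ∀ H : Subgroup GQ, H ≤ A.inertiaSubgroupIn ℚ → ∀ (ϖ : Qbar) (s : ℕ), ϖ ≠ 0 →
          A.valuation ϖ < 1 →
          A.valuation ((P.p : ℕ) : Qbar) = A.valuation ϖ ^ (P.p * (P.p - 1)) →
          (∀ u : Qbar, u ∈ A → (∀ τ ∈ H, τ • x = x → τ u = u) →
            ∃ a ∈ A, σ u = u + ϖ ^ (s + 1) * a) → s + 1 ≤ P.p) :=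
  ⟨V1 L, card_V1_of_mult L hA hmult hcard hVS hVS0,
    fun _ hσ x => smul_sub_mem_V1 L hσ x,
    inertia_cyclo_V1 L hA hmult hcard hVS hVS0,
    fun _ hx _ hσ hne H hH _ hc hint =>
      peu_of_leg L hA hmult hcard hVS hx hσ hne H hH hc hint,
    fun _ hx _ hσ hne H hH _ _ h0 h1 habs hint =>
      succ_le_of_leg L hA hmult hcard hVS hx hσ hne H hH h0 h1 habs hint⟩

variable (P)

/-- **[G2], the export.**  The Frey curve at a place `A` over `p`, when `p ∣ abc` (multiplicative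
reduction): the line `L_E ⊆ E[p]`, with `(σ - 1) E[p] ⊆ L_E` and `σ = ω(σ)` on `L_E` for `σ` in
the inertia group, and the bound on the wild displacement of the points off the line. -/
theorem exists_flag (hpabc : (P.p : ℤ) ∣ P.a * P.b * P.c) (A : ValuationSubring Qbar)
    (hA : A.LiesOverPrime P.p) :
    haveI : Fact P.p.Prime := ⟨P.pp⟩
    ∃ LE : AddSubgroup (Tors P.freyCurve P.p), Nat.card LE = P.p ∧
      (∀ σ ∈ A.inertiaSubgroupIn ℚ, ∀ x : Tors P.freyCurve P.p, σ • x - x ∈ LE) ∧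
      (∀ σ ∈ A.inertiaSubgroupIn ℚ, ∀ x ∈ LE,
        σ • x = ((cycloChar P.p σ : (ZMod P.p)ˣ) : ZMod P.p) • x) ∧
      (∀ x : Tors P.freyCurve P.p, x ∉ LE → ∀ σ ∈ A.inertiaSubgroupIn ℚ, σ • x ≠ x →
        ∀ H : Subgroup GQ, H ≤ A.inertiaSubgroupIn ℚ → ∀ c : Qbar, A.valuation c < 1 →
          (∀ u : Qbar, u ∈ A → (∀ τ ∈ H, τ • x = x → τ u = u) →
            A.valuation (σ u - u) ≤ A.valuation c) →
          A.valuation ((P.p : ℕ) : Qbar) ≤ A.valuation c ^ (P.p - 1)) ∧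
      (∀ x : Tors P.freyCurve P.p, x ∉ LE → ∀ σ ∈ A.inertiaSubgroupIn ℚ, σ • x ≠ x →
        ∀ H : Subgroup GQ, H ≤ A.inertiaSubgroupIn ℚ → ∀ (ϖ : Qbar) (s : ℕ), ϖ ≠ 0 →
          A.valuation ϖ < 1 →
          A.valuation ((P.p : ℕ) : Qbar) = A.valuation ϖ ^ (P.p * (P.p - 1)) →
          (∀ u : Qbar, u ∈ A → (∀ τ ∈ H, τ • x = x → τ u = u) →
            ∃ a ∈ A, σ u = u + ϖ ^ (s + 1) * a) → s + 1 ≤ P.p) := by
  have hcard := Fermat.Agent.S13.CU.FreyInputs.natCard_frey P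
  have hVS : Fermat.Agent.S13.Iface.ValSum (P.freyCurve⁄Qbar) P.p :=
    Fermat.Agent.S13.CU.FreyInputs.valSum_frey P
  have hpZ : Prime (P.p : ℤ) := Nat.prime_iff_prime_int.mp P.pp
  rcases frey_three_cases_p P with h | h | h
  · -- `p ∤ b`, `p ∤ c`: `p ∣ a`, leg A
    have ha : (P.p : ℤ) ∣ P.a := by
      rcases hpZ.dvd_mul.mp hpabc with h1 | h1
      · rcases hpZ.dvd_mul.mp h1 with h2 | h2
        · exact h2
        · exact absurd h2 h.1
      · exact absurd h1 h.2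
    exact flag_of_leg (legP_A P hA h.1 h.2) hA
      (LocalVal.intCast_valuation_lt_one P.pp hA ha) hcard
      (fun S hS => Fermat.Agent.S13.CU.Transport.valSum_legA P Qbar hcard hVS S hS)
      (fun S hS => valSum0_legA P Qbar hcard hVS S hS)
  · -- `p ∤ a`, `p ∤ c`: `p ∣ b`, leg B
    have hb : (P.p : ℤ) ∣ P.b := by
      rcases hpZ.dvd_mul.mp hpabc with h1 | h1
      · rcases hpZ.dvd_mul.mp h1 with h2 | h2
        · exact absurd h2 h.1
        · exact h2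
      · exact absurd h1 h.2
    refine flag_of_leg (legP_B P hA h.1 h.2) hA ?_ hcard
      (fun S hS => Fermat.Agent.S13.CU.Transport.valSum_legB P Qbar hcard hVS S hS)
      (fun S hS => valSum0_legB P Qbar hcard hVS S hS)
    rw [Valuation.map_neg]
    exact LocalVal.intCast_valuation_lt_one P.pp hA hb
  · -- `p ∤ a`, `p ∤ b`: `p ∣ c`, leg C
    have hc : (P.p : ℤ) ∣ P.c := by
      rcases hpZ.dvd_mul.mp hpabc with h1 | h1
      · rcases hpZ.dvd_mul.mp h1 with h2 | h2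
        · exact absurd h2 h.1
        · exact absurd h2 h.2
      · exact h1
    refine flag_of_leg (legP_C P hA h.1 h.2) hA ?_ hcard
      (fun S hS => Fermat.Agent.S13.CU.Transport.valSum_legC P Qbar hcard hVS S hS)
      (fun S hS => valSum0_legC P Qbar hcard hVS S hS)
    rw [Valuation.map_neg]
    exact LocalVal.intCast_valuation_lt_one P.pp hA hc

end export_

end Fermat.Agent.S44.Loc.FreyPeu
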