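/-
PROJECT P (S44), wiring leaf Loc/WildPeu (helper9): THE SEAM [LOC] x [G2] FOR TOP.

The Frey curve at a place `A` over `p ∣ abc`, an injective Galois-equivariant map
`φ : E[p] → J₀(N)(ℚ̄)`: the flag `L_E ⊆ E[p]` of `Loc/FreyPeu.exists_flag` (helper2), and for every
point `v` off the line and every `σ ∈ I1 = I ⊓ ker ω` moving it, the wild frame
`B : Core.Break.WildDatum A σ p I1 (stab (φ v))` of `Loc/Frame` TOGETHER WITH the bound
`B.s + 1 ≤ p` (PEU) on its break.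
-/
import Fermat.Agent.S44.Loc.Frame
import Fermat.Agent.S44.Loc.FreyPeu

set_option autoImplicit false

noncomputable section

open WeierstrassCurve WeierstrassCurve.Affine WeierstrassCurve.Affine.Point

namespace Fermat.Agent.S44.Loc.WildPeu

open Fermat.Agent.S44.Core.Break Fermat.Agent.S44.Loc.Frame Fermat.Agent.S13.Global ExtCitation
  ModularCurve

local notation "Qbar" => AlgebraicClosure ℚ
local notation "GQ" => (AlgebraicClosure ℚ ≃ₐ[ℚ] AlgebraicClosure ℚ)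

/-- **The flag of the Frey curve at `p ∣ abc` with the wild frames of the points off the line and
their PEU bound.** -/
theorem exists_flag_wild (P : FreyPackage) (hpabc : (P.p : ℤ) ∣ P.a * P.b * P.c)
    {A : ValuationSubring Qbar} (hA : A.LiesOverPrime P.p) {N : ℕ} [NeZero N]
    (φ : Tors P.freyCurve P.p →+ JZero N) (hφ : Function.Injective φ)
    (hequiv : ∀ (σ : GQ) (v : Tors P.freyCurve P.p), φ (σ • v) = σ • φ v) :
    haveI : Fact P.p.Prime := ⟨P.pp⟩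
    ∃ LE : AddSubgroup (Tors P.freyCurve P.p), Nat.card LE = P.p ∧
      (∀ σ ∈ A.inertiaSubgroupIn ℚ, ∀ v : Tors P.freyCurve P.p, σ • v - v ∈ LE) ∧
      (∀ σ ∈ A.inertiaSubgroupIn ℚ, ∀ v ∈ LE,
        σ • v = ((cycloChar P.p σ : (ZMod P.p)ˣ) : ZMod P.p) • v) ∧
      ∀ v : Tors P.freyCurve P.p, v ∉ LE → ∀ σ ∈ I1 P.p A, σ • v ≠ v →
        ∃ B : WildDatum A (σ : Qbar ≃+* Qbar) P.p (I1 P.p A) (stab P.p A (φ v)),
          B.s + 1 ≤ P.p := by
  have : Fact P.p.Prime := ⟨P.pp⟩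
  obtain ⟨LE, hcard, htriv, hcyc, _, hpeu⟩ :=
    Fermat.Agent.S44.Loc.FreyPeu.exists_flag P hpabc A hA
  refine ⟨LE, hcard, htriv, hcyc, ?_⟩
  intro v hv σ hσ hσv
  have hσI : σ ∈ A.inertiaSubgroupIn ℚ := I1_le hσ
  -- the line on the `J` side
  have hcardL : Nat.card (LE.map φ) = P.p :=
    (Nat.card_congr (LE.equivMapOfInjective φ hφ).toEquiv.symm).trans hcard
  have hLfix : ∀ τ ∈ I1 P.p A, ∀ z ∈ LE.map φ, τ • z = z := by
    rintro τ hτ z ⟨w, hw, rfl⟩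
    rw [← hequiv, hcyc τ (I1_le hτ) w hw, (mem_I1_iff.1 hτ).2, Units.val_one, one_smul]
  have hx : ∀ τ ∈ I1 P.p A, τ • φ v - φ v ∈ LE.map φ := by
    intro τ hτ
    rw [← hequiv, ← map_sub]
    exact AddSubgroup.mem_map_of_mem φ (htriv τ (I1_le hτ) v)
  have hσx : σ • φ v ≠ φ v := by
    rw [← hequiv]
    exact fun h => hσv (hφ h)
  obtain ⟨B⟩ := nonempty_wildDatum_JZero hA hcardL hLfix hx hσ hσx
  refine ⟨B, ?_⟩
  refine hpeu v hv σ hσI hσv (I1 P.p A) I1_le B.ϖ B.s B.ϖ_ne B.toBreakDatum.val_ϖ_lt ?_ ?_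
  · obtain ⟨u, hu, h⟩ := B.e_abs
    rw [h, map_mul, map_pow, show A.valuation u = 1 from hu, mul_one]
  · intro u huA hfix
    have huK : u ∈ B.K' := by
      rw [B.fixed_iff]
      intro τ hτ
      obtain ⟨hτ1, hτx⟩ := mem_stab_iff.1 hτ
      rw [← hequiv] at hτx
      exact hfix τ hτ1 (hφ hτx)
    exact B.σ_int u huK huA

end Fermat.Agent.S44.Loc.WildPeu
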