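/-
PROJECT P (S44), wiring leaf Loc/PeuOrTame (helper21): THE CASE SPLIT OF TOP LOGIC v2, block (iv),
ON TOP OF `Loc/WildPeu.exists_flag_wild` (helper9).

For the Frey curve at `A ∣ p ∣ abc` and an injective Galois-equivariant `φ : E[p] → J₀(N)(ℚ̄)`:
the line `L = φ(L_E)` is fixed pointwise by `I1 = I ⊓ ker ω`, every `σ ∈ I` moves every point of
`V = range φ` by an element of `L`, and every `x = φ v` is either fixed by `I1` (TAME: input of
`w_mul_nodeOrd_const_of_tame`) or moved by some `σ ∈ I1` carrying a wild frame `B` with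
`B.s + 1 ≤ p` and with `σ • x - x ∈ L` fixed by `I1` (PEU: input of `w_mul_nodeOrd_const_of_peu`).
-/
import Fermat.Agent.S44.Loc.WildPeu

set_option autoImplicit false

noncomputable section

open WeierstrassCurve WeierstrassCurve.Affine WeierstrassCurve.Affine.Point

namespace Fermat.Agent.S44.Loc.PeuOrTame

open Fermat.Agent.S44.Core.Break Fermat.Agent.S44.Loc.Frame Fermat.Agent.S13.Global ExtCitation
  ModularCurve

local notation "Qbar" => AlgebraicClosure ℚ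
local notation "GQ" => (AlgebraicClosure ℚ ≃ₐ[ℚ] AlgebraicClosure ℚ)

/-- **The tame / PEU dichotomy on `V = range φ`.** -/
theorem exists_line_peu_or_tame (P : FreyPackage) (hpabc : (P.p : ℤ) ∣ P.a * P.b * P.c)
    {A : ValuationSubring Qbar} (hA : A.LiesOverPrime P.p) {N : ℕ} [NeZero N]
    (φ : Tors P.freyCurve P.p →+ JZero N) (hφ : Function.Injective φ)
    (hequiv : ∀ (σ : GQ) (v : Tors P.freyCurve P.p), φ (σ • v) = σ • φ v) :
    haveI : Fact P.p.Prime := ⟨P.pp⟩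
    ∃ LE : AddSubgroup (Tors P.freyCurve P.p), Nat.card LE = P.p ∧
      (∀ σ ∈ A.inertiaSubgroupIn ℚ, ∀ v : Tors P.freyCurve P.p, σ • v - v ∈ LE) ∧
      (∀ τ ∈ I1 P.p A, ∀ z ∈ LE.map φ, τ • z = z) ∧
      (∀ σ ∈ A.inertiaSubgroupIn ℚ, ∀ v : Tors P.freyCurve P.p, σ • φ v - φ v ∈ LE.map φ) ∧
      ∀ v : Tors P.freyCurve P.p,
        (∀ τ ∈ I1 P.p A, τ • φ v = φ v) ∨
        ∃ σ ∈ I1 P.p A, σ • φ v ≠ φ v ∧ σ • φ v - φ v ∈ LE.map φ ∧
          (∀ τ ∈ I1 P.p A, τ • (σ • φ v - φ v) = σ • φ v - φ v) ∧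
          ∃ B : WildDatum A (σ : Qbar ≃+* Qbar) P.p (I1 P.p A) (stab P.p A (φ v)),
            B.s + 1 ≤ P.p := by
  have : Fact P.p.Prime := ⟨P.pp⟩
  obtain ⟨LE, hcard, htriv, hcyc, hwild⟩ :=
    Fermat.Agent.S44.Loc.WildPeu.exists_flag_wild P hpabc hA φ hφ hequiv
  have hLfix : ∀ τ ∈ I1 P.p A, ∀ z ∈ LE.map φ, τ • z = z := by
    rintro τ hτ z ⟨w, hw, rfl⟩
    rw [← hequiv, hcyc τ (I1_le hτ) w hw, (mem_I1_iff.1 hτ).2, Units.val_one, one_smul]
  have hmove : ∀ σ ∈ A.inertiaSubgroupIn ℚ, ∀ v : Tors P.freyCurve P.p,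
      σ • φ v - φ v ∈ LE.map φ := by
    intro σ hσ v
    rw [← hequiv, ← map_sub]
    exact AddSubgroup.mem_map_of_mem φ (htriv σ hσ v)
  refine ⟨LE, hcard, htriv, hLfix, hmove, fun v => ?_⟩
  by_cases hv : v ∈ LE
  · exact Or.inl fun τ hτ => hLfix τ hτ _ (AddSubgroup.mem_map_of_mem φ hv)
  · by_cases hfix : ∀ τ ∈ I1 P.p A, τ • φ v = φ v
    · exact Or.inl hfix
    · rw [not_forall] at hfix
      obtain ⟨σ, hσ'⟩ := hfix
      rw [Classical.not_imp] at hσ'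
      obtain ⟨hσ, hσx⟩ := hσ'
      have hσv : σ • v ≠ v := fun h => hσx (by rw [← hequiv, h])
      exact Or.inr ⟨σ, hσ, hσx, hmove σ (I1_le hσ) v,
        fun τ hτ => hLfix τ hτ _ (hmove σ (I1_le hσ) v), hwild v hv σ hσ hσv⟩

end Fermat.Agent.S44.Loc.PeuOrTame

end
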