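/-
PROJECT P (S44), brick [LOC], Loc/Cover (helper9, asked by helper18 for X0/ValGroupInst): THE INDEX
BOUND `[I : stab x] ≤ p (p - 1)` IN COVERING FORM.

In the situation of `Loc/Frame.nonempty_wildDatum` there is a finite set `T` of at most
`p (p - 1)` elements of the inertia group `I` with `I ⊆ T · stab x`:
`T = {τ₀ ^ i * σ ^ j | i < r, j < p}`, `τ₀` a generator of `I / I1`, `r ≤ p - 1` its order.
-/
import Fermat.Agent.S44.Loc.Frame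

set_option autoImplicit false

noncomputable section

namespace Fermat.Agent.S44.Loc.Cover

open Fermat.Agent.S44.Loc.Frame

local notation "Qbar" => AlgebraicClosure ℚ
local notation "GQ" => (AlgebraicClosure ℚ ≃ₐ[ℚ] AlgebraicClosure ℚ)

variable {p : ℕ} [hp : Fact p.Prime] {A : ValuationSubring Qbar}

/-- the tame generator, with bounded exponents -/
theorem exists_tame_generator_lt :
    ∃ (τ₀ : GQ) (r : ℕ), τ₀ ∈ A.inertiaSubgroupIn ℚ ∧ 1 ≤ r ∧ r ≤ p - 1 ∧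
      ∀ τ ∈ A.inertiaSubgroupIn ℚ, ∃ k < r, (τ₀ ^ k)⁻¹ * τ ∈ I1 p A := by
  obtain ⟨τ₀, r, hτ₀, hr1, hrp, hτ₀r, hgen⟩ := exists_tame_generator p A
  refine ⟨τ₀, r, hτ₀, hr1, hrp, fun τ hτ => ?_⟩
  obtain ⟨k, hk⟩ := hgen τ hτ
  refine ⟨k % r, Nat.mod_lt _ (by omega), ?_⟩
  have h1 : τ₀ ^ k = τ₀ ^ (k % r) * (τ₀ ^ r) ^ (k / r) := by
    rw [← pow_mul, ← pow_add, Nat.mod_add_div]
  have h2 : (τ₀ ^ (k % r))⁻¹ * τ = (τ₀ ^ r) ^ (k / r) * ((τ₀ ^ k)⁻¹ * τ) := by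
    rw [h1, mul_inv_rev, ← mul_assoc, ← mul_assoc, mul_inv_cancel, one_mul]
  rw [h2]
  exact mul_mem (pow_mem hτ₀r _) hk

variable {J : Type*} [AddCommGroup J] [DistribMulAction GQ J] {x : J} {Lx : AddSubgroup J}

/-- `I1 = ⋃ j < p, σ ^ j · stab x`, with bounded exponents -/
theorem exists_pow_mul_mem_stab_lt (hLfix : ∀ τ ∈ I1 p A, ∀ z ∈ Lx, τ • z = z)
    (hx : ∀ τ ∈ I1 p A, τ • x - x ∈ Lx) (hcard : Nat.card Lx = p) {σ : GQ} (hσ : σ ∈ I1 p A)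
    (hσx : σ • x ≠ x) {τ : GQ} (hτ : τ ∈ I1 p A) : ∃ j < p, (σ ^ j)⁻¹ * τ ∈ stab p A x := by
  have hp0 : 0 < p := hp.out.pos
  have hτ' : τ⁻¹ ∈ I1 p A := inv_mem hτ
  obtain ⟨k, hk⟩ := exists_pow_mul_mem_stab hLfix hx hcard hσ hσx hτ'
  -- `σ ^ k * τ⁻¹ ∈ stab`, hence `τ * (σ ^ k)⁻¹ ∈ stab`, hence `(σ ^ k)⁻¹ * τ ∈ stab` (normality)
  have h1 : τ * (σ ^ k)⁻¹ ∈ stab p A x := by
    have := inv_mem hk
    rwa [mul_inv_rev, inv_inv] at this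
  have h2 : (σ ^ k)⁻¹ * τ ∈ stab p A x := by
    have := conj_mem_stab hLfix hx hτ h1
    rwa [← mul_assoc, inv_mul_cancel, one_mul] at this
  refine ⟨k % p, Nat.mod_lt _ hp0, ?_⟩
  have h3 : σ ^ k = σ ^ (k % p) * (σ ^ p) ^ (k / p) := by
    rw [← pow_mul, ← pow_add, Nat.mod_add_div]
  have h4 : (σ ^ (k % p))⁻¹ * τ = (σ ^ p) ^ (k / p) * ((σ ^ k)⁻¹ * τ) := by
    rw [h3, mul_inv_rev, ← mul_assoc, ← mul_assoc, mul_inv_cancel, one_mul]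
  rw [h4]
  exact mul_mem (pow_mem (pow_mem_stab hLfix hx hcard hσ) _) h2

/-- **The cover.** At most `p (p - 1)` elements of the inertia group whose translates of `stab x`
cover the inertia group. -/
theorem exists_cover (hLfix : ∀ τ ∈ I1 p A, ∀ z ∈ Lx, τ • z = z)
    (hx : ∀ τ ∈ I1 p A, τ • x - x ∈ Lx) (hcard : Nat.card Lx = p) {σ : GQ} (hσ : σ ∈ I1 p A)
    (hσx : σ • x ≠ x) :
    ∃ T : Finset GQ, T.card ≤ p * (p - 1) ∧ (∀ t ∈ T, t ∈ A.inertiaSubgroupIn ℚ) ∧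
      ∀ g ∈ A.inertiaSubgroupIn ℚ, ∃ t ∈ T, t⁻¹ * g ∈ stab p A x := by
  classical
  obtain ⟨τ₀, r, hτ₀, _, hrp, hgen⟩ := exists_tame_generator_lt (p := p) (A := A)
  refine ⟨(Finset.range r ×ˢ Finset.range p).image (fun ij => τ₀ ^ ij.1 * σ ^ ij.2), ?_, ?_, ?_⟩
  · refine le_trans Finset.card_image_le ?_
    rw [Finset.card_product, Finset.card_range, Finset.card_range, mul_comm]
    exact Nat.mul_le_mul_left p hrp
  · intro t ht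
    obtain ⟨ij, _, rfl⟩ := Finset.mem_image.1 ht
    exact mul_mem (pow_mem hτ₀ _) (pow_mem (I1_le hσ) _)
  · intro g hg
    obtain ⟨i, hi, hi1⟩ := hgen g hg
    obtain ⟨j, hj, hj1⟩ := exists_pow_mul_mem_stab_lt hLfix hx hcard hσ hσx hi1
    refine ⟨τ₀ ^ i * σ ^ j, Finset.mem_image.2 ⟨(i, j), ?_, rfl⟩, ?_⟩
    · exact Finset.mem_product.2 ⟨Finset.mem_range.2 hi, Finset.mem_range.2 hj⟩
    · rw [mul_inv_rev, mul_assoc]
      exact hj1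

end Fermat.Agent.S44.Loc.Cover
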