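/-
PROJECT P (S44), brick [LOC], Loc/Tame (helper9): THE TAME FRAME.

`A` a valuation subring of `ℚ̄` over `p`, `I1 = I ⊓ ker ω`.  The fixed field `K1` of `I1` is
discretely valued with uniformiser `π1 = 1 - ζ` (`ζ` a primitive `p`-th root of unity) and
`p = π1 ^ (p - 1) * unit`: `nonempty_tameDatum`, with no hypothesis.  This is the frame of the
split case (a point fixed by `I1`), the twin of `Loc/Frame.nonempty_wildDatum`.
-/
import Fermat.Agent.S44.Loc.Frame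

set_option autoImplicit false

noncomputable section

namespace Fermat.Agent.S44.Loc.Tame

open Fermat.Agent.S44.Core.Break Fermat.Agent.S44.Loc.Frame

local notation "Qbar" => AlgebraicClosure ℚ
local notation "GQ" => (AlgebraicClosure ℚ ≃ₐ[ℚ] AlgebraicClosure ℚ)

/-- **The tame datum**: a discretely valued subfield `K1`, the fixed field of `G`, with uniformiser
`π1` and absolute ramification index `p - 1`. -/
structure TameDatum {L : Type*} [Field L] {Γ : Type*} [Group Γ] [MulSemiringAction Γ L]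
    (A : ValuationSubring L) (p : ℕ) (G : Subgroup Γ) where
  /-- the tame layer -/
  K1 : Subfield L
  /-- its uniformiser -/
  π1 : L
  π1_mem : π1 ∈ K1
  π1_ne : π1 ≠ 0
  π1_non : π1 ∈ A.nonunits
  exists_pow : ∀ c ∈ K1, c ≠ 0 → ∃ (j : ℤ) (β : L), β ∈ K1 ∧ UnitA A β ∧ c = π1 ^ j * β
  e_abs : ∃ u, UnitA A u ∧ (p : L) = π1 ^ (p - 1) * u
  fixed1_iff : ∀ c, c ∈ K1 ↔ ∀ τ ∈ G, τ • c = c

variable {p : ℕ} [hp : Fact p.Prime] {A : ValuationSubring Qbar}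

/-- the order of the tame generator divides `p - 1` -/
theorem exists_tame_generator_dvd :
    ∃ (τ₀ : GQ) (r : ℕ), τ₀ ∈ A.inertiaSubgroupIn ℚ ∧ 1 ≤ r ∧ r ∣ p - 1 ∧ τ₀ ^ r ∈ I1 p A ∧
      ∀ τ ∈ A.inertiaSubgroupIn ℚ, ∃ k : ℕ, (τ₀ ^ k)⁻¹ * τ ∈ I1 p A := by
  set χ := ExtCitation.cycloChar p with hχ
  set S : Subgroup (ZMod p)ˣ := (A.inertiaSubgroupIn ℚ).map χ with hS
  obtain ⟨⟨g, hg⟩, hgen⟩ := IsCyclic.exists_generator (α := ↥S)
  obtain ⟨τ₀, hτ₀, rfl⟩ := (Subgroup.mem_map).1 hg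
  have hr1 : 1 ≤ orderOf (χ τ₀) := orderOf_pos _
  have hr2 : orderOf (χ τ₀) ∣ p - 1 := by
    have := orderOf_dvd_card (x := χ τ₀)
    rwa [ZMod.card_units] at this
  refine ⟨τ₀, orderOf (χ τ₀), hτ₀, hr1, hr2, ?_, ?_⟩
  · rw [mem_I1_iff]
    exact ⟨pow_mem hτ₀ _, by rw [map_pow, ← hχ, pow_orderOf_eq_one]⟩
  · intro τ hτ
    have hmem : χ τ ∈ S := Subgroup.mem_map_of_mem χ hτ
    obtain ⟨n, hn⟩ := Subgroup.mem_zpowers_iff.1 (hgen ⟨χ τ, hmem⟩)
    have hn' : χ τ₀ ^ n = χ τ := by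
      have := congrArg (fun z : ↥S => (z : (ZMod p)ˣ)) hn
      simpa using this
    have hr0 : (0 : ℤ) < (orderOf (χ τ₀) : ℤ) := by exact_mod_cast hr1
    have hnn : 0 ≤ n % (orderOf (χ τ₀) : ℤ) := Int.emod_nonneg _ hr0.ne'
    refine ⟨(n % (orderOf (χ τ₀) : ℤ)).toNat, ?_⟩
    rw [mem_I1_iff]
    refine ⟨mul_mem (inv_mem (pow_mem hτ₀ _)) hτ, ?_⟩
    rw [map_mul, map_inv, map_pow, ← hχ, ← hn', ← zpow_natCast, Int.toNat_of_nonneg hnn,
      zpow_mod_orderOf, inv_mul_cancel]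

/-- **The tame frame.** -/
theorem nonempty_tameDatum (hA : A.LiesOverPrime p) : Nonempty (TameDatum A p (I1 p A)) := by
  classical
  have hpr : p.Prime := hp.out
  have : NeZero (p : ℚ) := ⟨Nat.cast_ne_zero.2 hpr.ne_zero⟩
  obtain ⟨ζ, hζ⟩ := HasEnoughRootsOfUnity.exists_primitiveRoot Qbar p
  set I := A.inertiaSubgroupIn ℚ with hI
  have hv : ∀ τ ∈ I, ∀ a : Qbar, A.valuation ((τ : Qbar ≃+* Qbar) a) = A.valuation a :=
    fun τ hτ a => Fermat.Agent.S05.LocalVal.valuation_map_eq_of_mem_inertia hτ a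
  have hp0 : ((p : ℕ) : Qbar) ≠ 0 := Nat.cast_ne_zero.2 hpr.ne_zero
  have hpA : A.valuation ((p : ℕ) : Qbar) < 1 :=
    Fermat.Agent.S13.Local.Ram.valuation_natCast_lt_one hA
  set K0 : Subfield Qbar := fixF I with hK0
  set K1 : Subfield Qbar := fixF (I1 p A) with hK1
  have hdisc0 : ∀ c ∈ K0, c ≠ 0 → ∃ m : ℤ, A.valuation c = A.valuation ((p : ℕ) : Qbar) ^ m :=
    fun c hc hc0 => Fermat.Agent.S13.Local.Ram.exists_zpow_valuation_eq' hpr hA hc0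
      (mem_fixF.1 hc)
  obtain ⟨τ₀, r, hτ₀, hr1, ⟨q, hq⟩, hτ₀r, hgen⟩ := exists_tame_generator_dvd (p := p) (A := A)
  have hτ₀K : ∀ c ∈ K1, (τ₀ : Qbar ≃+* Qbar) c ∈ K1 := by
    intro c hc
    rw [hK1, mem_fixF] at hc ⊢
    intro h hh
    have h1 := hc _ (conj_mem_I1 hτ₀ hh)
    have h2 : h (τ₀ c) = τ₀ ((τ₀⁻¹ * h * τ₀) c) := by
      rw [AlgEquiv.mul_apply, AlgEquiv.mul_apply]
      exact (AlgEquiv.apply_symm_apply τ₀ _).symm
    show h (τ₀ c) = τ₀ c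
    rw [h2, h1]
  have hτ₀fix : ∀ c ∈ K1, (τ₀ : Qbar ≃+* Qbar) c = c → c ∈ K0 := by
    intro c hc hfix
    rw [hK0, mem_fixF]
    intro τ hτ
    obtain ⟨k, hk⟩ := hgen τ hτ
    have h1 : ((τ₀ ^ k)⁻¹ * τ) c = c := (mem_fixF.1 hc) _ hk
    have h2 : ∀ k : ℕ, (τ₀ ^ k) c = c := by
      intro k
      induction k with
      | zero => rfl
      | succ k ih => rw [pow_succ', AlgEquiv.mul_apply, ih]; exact hfix
    have h3 : τ c = (τ₀ ^ k) (((τ₀ ^ k)⁻¹ * τ) c) := by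
      rw [AlgEquiv.mul_apply]
      exact (AlgEquiv.apply_symm_apply (τ₀ ^ k) _).symm
    rw [h3, h1, h2]
  have hτ₀p : ∀ c ∈ K1, (((τ₀ : Qbar ≃+* Qbar)) ^ r) c = c := by
    intro c hc
    rw [coe_pow_apply]
    exact (mem_fixF.1 hc) _ hτ₀r
  -- `lam = 1 - ζ`
  have hlamK : 1 - ζ ∈ K1 := by
    rw [hK1, mem_fixF]
    intro τ hτ
    rw [map_sub, map_one, ((mem_I1_iff_apply hζ).1 hτ).2]
  have hlam : A.valuation (1 - ζ) ^ (p - 1) = A.valuation ((p : ℕ) : Qbar) :=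
    Fermat.Agent.S56.Ord.OmegaRam.valuation_one_sub_pow_pred A hpr hζ
  have hlam0 : (1 - ζ : Qbar) ≠ 0 := sub_ne_zero.2 (hζ.ne_one hpr.one_lt).symm
  have hvlam0 : A.valuation (1 - ζ) ≠ 0 := (Valuation.ne_zero_iff _).2 hlam0
  have hvlam1 : A.valuation (1 - ζ) < 1 := by
    by_contra h
    rw [not_lt] at h
    have := one_le_pow₀ h (n := p - 1)
    rw [hlam] at this
    exact absurd hpA (not_lt.2 this)
  have hr0 : r ≠ 0 := by omega
  refine ⟨{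
    K1 := K1
    π1 := 1 - ζ
    π1_mem := hlamK
    π1_ne := hlam0
    π1_non := (A.mem_nonunits_iff).2 hvlam1
    exists_pow := fun c hc hc0 => by
      obtain ⟨N, hN, hvN⟩ := Fermat.Agent.S44.Val.FixNorm.exists_norm A.valuation K0 K1
        (τ₀ : Qbar ≃+* Qbar) (hv τ₀ hτ₀) hτ₀K hτ₀fix r hτ₀p hc
      have hN0 : N ≠ 0 := by
        rintro rfl
        rw [map_zero] at hvN
        exact pow_ne_zero r ((Valuation.ne_zero_iff _).2 hc0) hvN.symm
      obtain ⟨m, hm⟩ := hdisc0 N hN hN0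
      -- `v c ^ r = v p ^ m = (v lam ^ (q m)) ^ r`
      have hval : A.valuation c = A.valuation (1 - ζ) ^ ((q : ℤ) * m) := by
        refine (pow_left_inj hr0).1 ?_
        rw [← hvN, hm, ← hlam, hq, ← zpow_natCast (A.valuation (1 - ζ)) (r * q), ← zpow_mul,
          ← zpow_natCast (A.valuation (1 - ζ) ^ ((q : ℤ) * m)) r, ← zpow_mul]
        congr 1
        push_cast
        ring
      refine ⟨(q : ℤ) * m, c / (1 - ζ) ^ ((q : ℤ) * m),
        K1.div_mem hc (K1.zpow_mem hlamK _), ?_, ?_⟩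
      · rw [UnitA, map_div₀, map_zpow₀, hval]
        exact div_self (zpow_ne_zero _ hvlam0)
      · field_simp
    e_abs := ⟨(p : Qbar) / (1 - ζ) ^ (p - 1), by
      rw [UnitA, map_div₀, map_pow, hlam]
      exact div_self ((Valuation.ne_zero_iff _).2 hp0), by
      field_simp⟩
    fixed1_iff := fun c => mem_fixF }⟩

end Fermat.Agent.S44.Loc.Tame
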