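/-
PROJECT P (S44), brick [LOC], Loc/Seams (helper9): CONSUMER-SIDE LEMMAS ON THE WILD AND TAME FRAMES.

For `W : WildDatum A σ p (I1 p A) (stab p A x)` (resp. `T : TameDatum A p (I1 p A)`):

* inertia-invariant constants lie in `K1` and in `K'` (`mem_K1_of_fixed`, `mem_K'_of_fixed`);
* residue lifts in `K'`, in the binder shape of `Core/Induct.moment_eq` (`exists_residue`);
* `σ` maps `K'` into `K'` and is the identity on `K1` (`sigma_mem_K'`, `sigma_eq_of_mem_K1`);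
* the absolute ramification in valuation form (`val_p`, `val_π1`).
-/
import Fermat.Agent.S44.Loc.Tame

set_option autoImplicit false

noncomputable section

namespace Fermat.Agent.S44.Loc.Seams

open Fermat.Agent.S44.Core.Break Fermat.Agent.S44.Loc.Frame Fermat.Agent.S44.Loc.Tame

local notation "Qbar" => AlgebraicClosure ℚ
local notation "GQ" => (AlgebraicClosure ℚ ≃ₐ[ℚ] AlgebraicClosure ℚ)

variable {p : ℕ} [hp : Fact p.Prime] {A : ValuationSubring Qbar}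

theorem val_unitA_mul {a u : Qbar} (hu : UnitA A u) : A.valuation (a * u) = A.valuation a := by
  rw [map_mul, hu, mul_one]

section Wild

variable {J : Type*} [AddCommGroup J] [DistribMulAction GQ J] {x : J} {σ : GQ}
variable (W : WildDatum A (σ : Qbar ≃+* Qbar) p (I1 p A) (stab p A x))

theorem mem_K1_of_fixed {c : Qbar} (hc : ∀ τ ∈ A.inertiaSubgroupIn ℚ, τ c = c) : c ∈ W.K1 :=
  (W.fixed1_iff c).2 fun τ hτ => hc τ (I1_le hτ)

theorem mem_K'_of_fixed {c : Qbar} (hc : ∀ τ ∈ A.inertiaSubgroupIn ℚ, τ c = c) : c ∈ W.K' :=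
  W.K1_le (mem_K1_of_fixed W hc)

/-- residue lifts in `K'` (binder shape of `Core/Induct`) -/
theorem exists_residue (hA : A.LiesOverPrime p) (κ : IsLocalRing.ResidueField A) :
    ∃ c ∈ W.K', ∃ hc : c ∈ A, IsLocalRing.residue A ⟨c, hc⟩ = κ := by
  obtain ⟨w, hw⟩ := Fermat.Agent.S18.C.SmallDVR.exists_residue_toA_eq hA κ
  refine ⟨((w : Fermat.Agent.S18.C.SmallDVR.K0 A) : Qbar), mem_K'_of_fixed W ?_,
    Fermat.Agent.S18.C.SmallDVR.coe_mem A w, hw⟩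
  exact (Fermat.Agent.S18.C.SmallDVR.mem_K0_iff A).1 (w : Fermat.Agent.S18.C.SmallDVR.K0 A).2

/-- residue lifts in `K1`, congruence form -/
theorem exists_lift_K1 (hA : A.LiesOverPrime p) {b : Qbar} (hb : b ∈ A) :
    ∃ b₀ ∈ W.K1, b₀ ∈ A ∧ b - b₀ ∈ A.nonunits := by
  obtain ⟨b₀, h0, hA0, hsub⟩ := exists_lift hA hb
  exact ⟨b₀, mem_K1_of_fixed W (mem_fixF.1 h0), hA0, hsub⟩

/-- `σ` is the identity on the tame layer -/
theorem sigma_eq_of_mem_K1 (hσ : σ ∈ I1 p A) {c : Qbar} (hc : c ∈ W.K1) :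
    (σ : Qbar ≃+* Qbar) c = c :=
  (W.fixed1_iff c).1 hc σ hσ

/-- residue lifts in `K'`, congruence form, `σ`-fixed -/
theorem exists_lift_K' (hA : A.LiesOverPrime p) (hσ : σ ∈ I1 p A) {b : Qbar} (hb : b ∈ A) :
    ∃ b₀ ∈ W.K', b₀ ∈ A ∧ (σ : Qbar ≃+* Qbar) b₀ = b₀ ∧ b - b₀ ∈ A.nonunits := by
  obtain ⟨b₀, h1, hA0, hsub⟩ := exists_lift_K1 W hA hb
  exact ⟨b₀, W.K1_le h1, hA0, sigma_eq_of_mem_K1 W hσ h1, hsub⟩

/-- `σ` maps `K'` into itself -/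
theorem sigma_mem_K' {Lx : AddSubgroup J} (hLfix : ∀ τ ∈ I1 p A, ∀ z ∈ Lx, τ • z = z)
    (hx : ∀ τ ∈ I1 p A, τ • x - x ∈ Lx) (hσ : σ ∈ I1 p A) {c : Qbar} (hc : c ∈ W.K') :
    (σ : Qbar ≃+* Qbar) c ∈ W.K' := by
  rw [W.fixed_iff]
  intro τ hτ
  have h := (W.fixed_iff c).1 hc _ (conj_mem_stab hLfix hx hσ hτ)
  have h2 : (σ⁻¹ * τ * σ) • c = σ⁻¹ (τ (σ c)) := rfl
  rw [h2] at h
  have h3 := congrArg (fun z => σ z) h
  have h4 : σ (σ⁻¹ (τ (σ c))) = τ (σ c) := (σ.apply_symm_apply _)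
  exact h4.symm.trans h3

/-- `σ⁻¹` maps `K'` into itself -/
theorem sigma_symm_mem_K' {Lx : AddSubgroup J} (hLfix : ∀ τ ∈ I1 p A, ∀ z ∈ Lx, τ • z = z)
    (hx : ∀ τ ∈ I1 p A, τ • x - x ∈ Lx) (hσ : σ ∈ I1 p A) {c : Qbar} (hc : c ∈ W.K') :
    (σ : Qbar ≃+* Qbar).symm c ∈ W.K' := by
  rw [W.fixed_iff]
  intro τ hτ
  have hconj : (σ⁻¹)⁻¹ * τ * σ⁻¹ ∈ stab p A x := conj_mem_stab hLfix hx (inv_mem hσ) hτ
  have h := (W.fixed_iff c).1 hc _ hconj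
  have h2 : ((σ⁻¹)⁻¹ * τ * σ⁻¹) • c = σ (τ (σ⁻¹ c)) := by rw [inv_inv]; rfl
  rw [h2] at h
  have h3 := congrArg (fun z => σ⁻¹ z) h
  have h4 : σ⁻¹ (σ (τ (σ⁻¹ c))) = τ (σ⁻¹ c) := (σ.symm_apply_apply _)
  exact h4.symm.trans h3

/-- the absolute ramification, valuation form -/
theorem val_p : A.valuation ((p : ℕ) : Qbar) = A.valuation W.ϖ ^ (p * (p - 1)) := by
  obtain ⟨u, hu, h⟩ := W.e_abs
  rw [h, val_unitA_mul hu, map_pow]

theorem val_π1 : A.valuation W.π1 = A.valuation W.ϖ ^ p := by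
  obtain ⟨u, hu, h⟩ := W.π1_eq
  rw [h, val_unitA_mul hu, map_pow]

theorem π1_non : W.π1 ∈ A.nonunits := by
  rw [A.mem_nonunits_iff, val_π1 W]
  exact pow_lt_one₀ zero_le W.val_ϖ_lt hp.out.ne_zero

theorem π1_ne : W.π1 ≠ 0 := by
  intro h
  have h1 := val_π1 W
  rw [h, map_zero] at h1
  exact (pow_ne_zero p W.val_ϖ_pos.ne') h1.symm

/-- `p = π1 ^ (p - 1) * unit` -/
theorem exists_p_eq : ∃ u, UnitA A u ∧ ((p : ℕ) : Qbar) = W.π1 ^ (p - 1) * u := by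
  have hv : A.valuation (((p : ℕ) : Qbar) / W.π1 ^ (p - 1)) = 1 := by
    rw [map_div₀, map_pow, val_p W, val_π1 W, ← pow_mul]
    exact div_self (pow_ne_zero _ W.val_ϖ_pos.ne')
  exact ⟨_, hv, (mul_div_cancel₀ _ (pow_ne_zero _ (π1_ne W))).symm⟩

end Wild

section TameSide

variable (T : TameDatum A p (I1 p A))

theorem tame_mem_K1_of_fixed {c : Qbar} (hc : ∀ τ ∈ A.inertiaSubgroupIn ℚ, τ c = c) : c ∈ T.K1 :=
  (T.fixed1_iff c).2 fun τ hτ => hc τ (I1_le hτ)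

/-- residue lifts in `K1` (binder shape of `Core/Induct`) -/
theorem tame_exists_residue (hA : A.LiesOverPrime p) (κ : IsLocalRing.ResidueField A) :
    ∃ c ∈ T.K1, ∃ hc : c ∈ A, IsLocalRing.residue A ⟨c, hc⟩ = κ := by
  obtain ⟨w, hw⟩ := Fermat.Agent.S18.C.SmallDVR.exists_residue_toA_eq hA κ
  refine ⟨((w : Fermat.Agent.S18.C.SmallDVR.K0 A) : Qbar), tame_mem_K1_of_fixed T ?_,
    Fermat.Agent.S18.C.SmallDVR.coe_mem A w, hw⟩
  exact (Fermat.Agent.S18.C.SmallDVR.mem_K0_iff A).1 (w : Fermat.Agent.S18.C.SmallDVR.K0 A).2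

theorem tame_exists_lift (hA : A.LiesOverPrime p) {b : Qbar} (hb : b ∈ A) :
    ∃ b₀ ∈ T.K1, b₀ ∈ A ∧ b - b₀ ∈ A.nonunits := by
  obtain ⟨b₀, h0, hA0, hsub⟩ := exists_lift hA hb
  exact ⟨b₀, tame_mem_K1_of_fixed T (mem_fixF.1 h0), hA0, hsub⟩

/-- every element of `I1` is the identity on `K1` -/
theorem tame_apply_eq {τ : GQ} (hτ : τ ∈ I1 p A) {c : Qbar} (hc : c ∈ T.K1) : τ c = c :=
  (T.fixed1_iff c).1 hc τ hτ

theorem tame_val_p : A.valuation ((p : ℕ) : Qbar) = A.valuation T.π1 ^ (p - 1) := by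
  obtain ⟨u, hu, h⟩ := T.e_abs
  rw [h, val_unitA_mul hu, map_pow]

end TameSide

end Fermat.Agent.S44.Loc.Seams
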